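import Fermat.Agent.RTE.NoNew

/-!
# The `𝔪`-part at auxiliary levels

If `q ∤ M` is a prime such that `tr ρb(Frob_q) ≠ ± (q + 1)`, then `(x, y) ↦ res x + B y` is an
isomorphism from the square of the `𝔪`-part of level `M` to the `𝔪`-part of level `M q` (trivial
character).
-/

set_option autoImplicit false
set_option linter.style.haveILetI false

noncomputable section

open CongruenceSubgroup ModularCurve ModularCurve.Period Polynomial IsLocalRing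

namespace Fermat.Agent.RTE

open Fermat.Agent.TwExact Fermat.Agent.TwHecke Fermat.Agent.HeckePar Fermat.Agent.GalRep

section Map

variable {M q : ℕ} {R : Type} [CommRing R] [IsLocalRing R] (ε : (ZMod M)ˣ →* Rˣ) (A : Type)
  [AddCommGroup A] [Module R A] {S : Set ℕ} (θ : PIdx S → ResidueField R)

variable {ε A θ}

theorem res_mem_Hm (hq : q.Prime) (hS : ∀ ℓ : PIdx S, (ℓ.1 : ℕ) ≠ q) {x : HM M ε A}
    (hx : x ∈ Hm M ε A S θ) :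
    res (dvd_mul_right M q) ε A x ∈ Hm (M * q) (infl (dvd_mul_right M q) ε) A S θ :=
  map_mem_mpart _ _ _ (fun i x => by
    haveI : Fact (i.1 : ℕ).Prime := ⟨i.1.2⟩
    exact res_heckeH' ε hq (hS i) x) hx

theorem degB_mem_Hm (hq : q.Prime) (hS : ∀ ℓ : PIdx S, (ℓ.1 : ℕ) ≠ q) {x : HM M ε A}
    (hx : x ∈ Hm M ε A S θ) : degB hq.ne_zero (dvd_refl (M * q)) ε A x ∈
      Hm (M * q) (infl (dvd_mul_right M q) ε) A S θ :=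
  map_mem_mpart _ _ _ (fun i x => by
    haveI : Fact (i.1 : ℕ).Prime := ⟨i.1.2⟩
    exact degB_heckeH' ε hq (hS i) x) hx

theorem trd_mem_Hm (hq : q.Prime) (hM : ¬ q ∣ M) [NeZero q] (hS : ∀ ℓ : PIdx S, (ℓ.1 : ℕ) ≠ q)
    {x : HM (M * q) (infl (dvd_mul_right M q) ε) A}
    (hx : x ∈ Hm (M * q) (infl (dvd_mul_right M q) ε) A S θ) :
    trd hq hM ε A x ∈ Hm M ε A S θ :=
  map_mem_mpart _ _ _ (fun i x => by
    haveI : Fact (i.1 : ℕ).Prime := ⟨i.1.2⟩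
    exact trd_heckeH ε hq hM (hS i) x) hx

theorem trB_mem_Hm (hq : q.Prime) (hM : ¬ q ∣ M) [NeZero q] (hS : ∀ ℓ : PIdx S, (ℓ.1 : ℕ) ≠ q)
    {x : HM (M * q) (infl (dvd_mul_right M q) ε) A}
    (hx : x ∈ Hm (M * q) (infl (dvd_mul_right M q) ε) A S θ) :
    trB ε A hq hM x ∈ Hm M ε A S θ :=
  map_mem_mpart _ _ _ (fun i x => by
    haveI : Fact (i.1 : ℕ).Prime := ⟨i.1.2⟩
    exact trB_heckeH ε hq hM (hS i) x) hx

variable (ε A θ)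

/-- the sum of the two degeneracy maps on the `𝔪`-parts -/
def levelMap (hq : q.Prime) (hS : ∀ ℓ : PIdx S, (ℓ.1 : ℕ) ≠ q) :
    (Hm M ε A S θ × Hm M ε A S θ) →ₗ[R] Hm (M * q) (infl (dvd_mul_right M q) ε) A S θ :=
  LinearMap.codRestrict _
    (((res (dvd_mul_right M q) ε A) ∘ₗ (Hm M ε A S θ).subtype).coprod
      ((degB hq.ne_zero (dvd_refl (M * q)) ε A) ∘ₗ (Hm M ε A S θ).subtype))
    (fun x => Submodule.add_mem _ (res_mem_Hm hq hS x.1.2) (degB_mem_Hm hq hS x.2.2))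

theorem coe_levelMap (hq : q.Prime) (hS : ∀ ℓ : PIdx S, (ℓ.1 : ℕ) ≠ q)
    (x : Hm M ε A S θ × Hm M ε A S θ) :
    (levelMap ε A θ hq hS x : HM (M * q) (infl (dvd_mul_right M q) ε) A) =
      res (dvd_mul_right M q) ε A x.1 + degB hq.ne_zero (dvd_refl (M * q)) ε A x.2 := rfl

end Map

section Main

variable {𝒪 : Type} [CommRing 𝒪] [IsLocalRing 𝒪] [IsNoetherianRing 𝒪]
  [IsAdicComplete (maximalIdeal 𝒪) 𝒪] [IsAddTorsionFree 𝒪] {p : ℕ} [hp : Fact p.Prime]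

/-- the residual system attached to a function on the primes -/
abbrev thOf {k : Type*} (a : ℕ → k) (S : Set ℕ) : PIdx S → k := fun ℓ => a (ℓ.1 : ℕ)

/-- **One auxiliary prime.** -/
theorem levelMap_bijective (h30 : S29aux.S30Statement) (h35 : Stmt35) {M q : ℕ} [NeZero M]
    (hq : q.Prime) (hM : ¬ q ∣ M) {S₀ S : Finset ℕ} (hS : S₀ ⊆ S) (hpS : p ∈ S₀) (hqS₀ : q ∉ S₀)
    (hqS : q ∈ S) (hMS : ∀ r : ℕ, r.Prime → r ∣ M → r ∈ S)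
    (hp𝒪 : (p : 𝒪) ∈ maximalIdeal 𝒪) {ε : (ZMod M)ˣ →* 𝒪ˣ} (hε : ε = 1)
    (ρb : ResidualGaloisRep (ResidueField 𝒪)) {a : ℕ → ResidueField 𝒪}
    (hρ : ∀ ℓ : ℕ, ℓ.Prime → ℓ ∉ S₀ → HasFrob ρb ℓ (a ℓ))
    (hE : ∀ m : ℕ, 0 < m → ∃ ℓ : PIdx (↑S : Set ℕ), (m : ℤ) ∣ ((ℓ.1 : ℕ) : ℤ) - 1 ∧
      thOf a (↑S : Set ℕ) ℓ ≠ (((ℓ.1 : ℕ) : ℕ) : ResidueField 𝒪) + 1)
    (ha : a q ^ 2 ≠ ((q : ResidueField 𝒪) + 1) ^ 2)
    (hSq : ∀ ℓ : PIdx (↑S : Set ℕ), (ℓ.1 : ℕ) ≠ q) :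
    Function.Bijective (levelMap ε 𝒪 (thOf a (↑S : Set ℕ)) hq hSq) := by
  classical
  haveI : Fact q.Prime := ⟨hq⟩
  haveI : NeZero q := ⟨hq.ne_zero⟩
  have hpq : q ≠ p := fun h => hqS₀ (h ▸ hpS)
  set S₁ : Finset ℕ := S.erase q with hS₁
  have hS₁S : (↑S₁ : Set ℕ) ⊆ ↑S := Finset.coe_subset.mpr (Finset.erase_subset _ _)
  have hpS₁ : p ∈ S₁ := Finset.mem_erase.mpr ⟨hpq.symm, hS hpS⟩
  have hMS₁ : ∀ r : ℕ, r.Prime → r ∣ M → r ∈ S₁ := fun r hr hrM =>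
    Finset.mem_erase.mpr ⟨fun h => hM (h ▸ hrM), hMS r hr hrM⟩
  have hqS₁ : q ∉ S₁ := Finset.notMem_erase q S
  have hρ₁ : ∀ ℓ : PIdx (↑S₁ : Set ℕ), HasFrob ρb (ℓ.1 : ℕ) (thOf a (↑S₁ : Set ℕ) ℓ) := by
    intro ℓ
    refine hρ _ ℓ.1.2 fun h => ?_
    by_cases hℓq : (ℓ.1 : ℕ) = q
    · exact hqS₀ (hℓq ▸ h)
    · exact ℓ.2 (Finset.mem_coe.mpr (Finset.mem_erase.mpr ⟨hℓq, hS h⟩))
  have hρS : ∀ ℓ : PIdx (↑S : Set ℕ), HasFrob ρb (ℓ.1 : ℕ) (thOf a (↑S : Set ℕ) ℓ) :=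
    fun ℓ => hρ _ ℓ.1.2 fun h => ℓ.2 (hS h)
  have hodd : ∀ {m ℓ : ℕ}, ((2 * m : ℕ) : ℤ) ∣ (ℓ : ℤ) - 1 → (ℓ : ZMod m) = 1 ∧ Odd ℓ := by
    intro m ℓ h
    constructor
    · have h1 : (m : ℤ) ∣ (ℓ : ℤ) - 1 := (Dvd.intro_left (2 : ℤ) (by push_cast; ring)).trans h
      have h2 := (ZMod.intCast_zmod_eq_zero_iff_dvd _ _).mpr h1
      push_cast at h2
      exact sub_eq_zero.mp h2
    · have h1 : (2 : ℤ) ∣ (ℓ : ℤ) - 1 := (Dvd.intro (m : ℤ) (by push_cast; ring)).trans h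
      have h2 : Odd (ℓ : ℤ) := by
        obtain ⟨c, hc⟩ := h1
        exact ⟨c, by linarith⟩
      exact_mod_cast h2
  have hE1 : ∃ ℓ : PIdx (↑S : Set ℕ), (((ℓ.1 : ℕ) : ℕ) : ZMod M) = 1 ∧ Odd (ℓ.1 : ℕ) ∧
      thOf a (↑S₁ : Set ℕ) (idxIncl hS₁S ℓ) ≠ ((ℓ.1 : ℕ) : ResidueField 𝒪) + 1 := by
    obtain ⟨ℓ, h1, h2⟩ := hE (2 * M) (Nat.mul_pos two_pos (NeZero.pos M))
    exact ⟨ℓ, (hodd h1).1, (hodd h1).2, h2⟩
  have hE2 : ∃ ℓ : PIdx (↑S : Set ℕ), (((ℓ.1 : ℕ) : ℕ) : ZMod (M * q)) = 1 ∧ Odd (ℓ.1 : ℕ) ∧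
      thOf a (↑S : Set ℕ) ℓ ≠ ((ℓ.1 : ℕ) : ResidueField 𝒪) + 1 := by
    obtain ⟨ℓ, h1, h2⟩ := hE (2 * (M * q))
      (Nat.mul_pos two_pos (Nat.mul_pos (NeZero.pos M) hq.pos))
    exact ⟨ℓ, (hodd h1).1, (hodd h1).2, h2⟩
  have hHF : HasFrob ρb q (a q) := hρ q hq hqS₀
  -- the operator `T_q` on the `𝔪`-part
  set iq : PIdx (↑S₁ : Set ℕ) := ⟨⟨q, hq⟩, fun h => hqS₁ h⟩ with hiq
  set D : MvPolynomial (PIdx (↑S₁ : Set ℕ)) 𝒪 :=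
    MvPolynomial.X iq ^ 2 - MvPolynomial.C (((q : 𝒪) + 1) ^ 2) with hD
  have hevD : evk (thOf a (↑S₁ : Set ℕ)) D ≠ 0 := by
    rw [hD, map_sub, map_pow, evk_X, evk_C, sub_ne_zero, map_pow, map_add, map_natCast, map_one]
    exact ha
  obtain ⟨u, hu⟩ := exists_inverse h30 hS₁S hpS₁ hMS₁ hp𝒪 hε ρb hρ₁ hE1 hevD
  have hu' : ∀ x ∈ Hm M ε 𝒪 (↑S : Set ℕ) (thOf a (↑S : Set ℕ)),
      cev (hop M ε 𝒪 (↑S₁ : Set ℕ)) (hop_commute M ε 𝒪 _) (D * u) x = x := hu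
  have hTq : ∀ x : HM M ε 𝒪, cev (R := 𝒪) (hop M ε 𝒪 (↑S₁ : Set ℕ)) (hop_commute M ε 𝒪 _)
      (MvPolynomial.X iq) x = heckeH M q ε 𝒪 x := fun x => by
    rw [cev_X]
    rfl
  have hcD : ∀ x : HM M ε 𝒪, cev (hop M ε 𝒪 (↑S₁ : Set ℕ)) (hop_commute M ε 𝒪 _) D x =
      heckeH M q ε 𝒪 (heckeH M q ε 𝒪 x) - (((q : 𝒪) + 1) ^ 2) • x := by
    intro x
    rw [hD, map_sub, map_pow, LinearMap.sub_apply, pow_two, Module.End.mul_apply, hTq, hTq, cev_C,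
      Module.algebraMap_end_apply]
  set U := cev (hop M ε 𝒪 (↑S₁ : Set ℕ)) (hop_commute M ε 𝒪 _) u with hU
  have hUm : ∀ x ∈ Hm M ε 𝒪 (↑S : Set ℕ) (thOf a (↑S : Set ℕ)),
      U x ∈ Hm M ε 𝒪 (↑S : Set ℕ) (thOf a (↑S : Set ℕ)) := by
    intro x hx
    refine mpart_stable _ U (fun i y => ?_) hx
    have h1 := cev_comm (R := 𝒪) (hop M ε 𝒪 (↑S₁ : Set ℕ)) (hop_commute M ε 𝒪 _) u
      (MvPolynomial.X (idxIncl hS₁S i))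
    have h2 := LinearMap.congr_fun h1 y
    rw [Module.End.mul_apply, Module.End.mul_apply, cev_X] at h2
    exact h2
  have hTm : ∀ x ∈ Hm M ε 𝒪 (↑S : Set ℕ) (thOf a (↑S : Set ℕ)),
      heckeH M q ε 𝒪 x ∈ Hm M ε 𝒪 (↑S : Set ℕ) (thOf a (↑S : Set ℕ)) := by
    intro x hx
    rw [← hTq]
    refine mpart_stable _ (cev (R := 𝒪) (hop M ε 𝒪 (↑S₁ : Set ℕ)) (hop_commute M ε 𝒪 _)
      (MvPolynomial.X iq)) (fun i y => ?_) hx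
    have h1 := cev_comm (R := 𝒪) (hop M ε 𝒪 (↑S₁ : Set ℕ)) (hop_commute M ε 𝒪 _)
      (MvPolynomial.X iq) (MvPolynomial.X (idxIncl hS₁S i))
    have h2 := LinearMap.congr_fun h1 y
    rw [Module.End.mul_apply, Module.End.mul_apply, cev_X (i := idxIncl hS₁S i)] at h2
    exact h2
  have hinj0 : ∀ x ∈ Hm M ε 𝒪 (↑S : Set ℕ) (thOf a (↑S : Set ℕ)),
      heckeH M q ε 𝒪 (heckeH M q ε 𝒪 x) - (((q : 𝒪) + 1) ^ 2) • x = 0 → x = 0 := by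
    intro x hx h
    rw [← hcD] at h
    rw [← hu' x hx, mul_comm, cev_mul_apply, h, map_zero]
  have heq1 : (((ε (unitOf M q) : 𝒪ˣ)) : 𝒪) = 1 := by rw [hε]; rfl
  constructor
  · rw [← LinearMap.ker_eq_bot, LinearMap.ker_eq_bot']
    rintro ⟨⟨x, hx⟩, ⟨y, hy⟩⟩ hxy
    have h0 := congrArg (fun z : Hm (M * q) (infl (dvd_mul_right M q) ε) 𝒪 (↑S : Set ℕ)
      (thOf a (↑S : Set ℕ)) => (z : HM (M * q) (infl (dvd_mul_right M q) ε) 𝒪)) hxy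
    simp only [coe_levelMap, Submodule.coe_zero] at h0
    have h1 := congrArg (trd hq hM ε 𝒪) h0
    have h2 := congrArg (trB ε 𝒪 hq hM) h0
    rw [map_add, map_zero, trd_res, trd_degB, heq1, one_smul] at h1
    rw [map_add, map_zero, trB_res, trB_degB] at h2
    have h3 : x = 0 := by
      apply hinj0 x hx
      have h4 : heckeH M q ε 𝒪 x = -(((q : 𝒪) + 1) • y) := eq_neg_of_add_eq_zero_left h2
      have h5 : heckeH M q ε 𝒪 y = -(((q : 𝒪) + 1) • x) := eq_neg_of_add_eq_zero_right h1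
      rw [h4, map_neg, map_smul, h5, smul_neg, neg_neg, smul_smul, ← pow_two, sub_self]
    have h4 : y = 0 := by
      apply hinj0 y hy
      have h4 : heckeH M q ε 𝒪 x = -(((q : 𝒪) + 1) • y) := eq_neg_of_add_eq_zero_left h2
      have h5 : heckeH M q ε 𝒪 y = -(((q : 𝒪) + 1) • x) := eq_neg_of_add_eq_zero_right h1
      rw [h5, map_neg, map_smul, h4, smul_neg, neg_neg, smul_smul, ← pow_two, sub_self]
    subst h3 h4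
    rfl
  · rintro ⟨z, hz⟩
    have hx0 := trd_mem_Hm hq hM hSq hz
    have hy0 := trB_mem_Hm hq hM hSq hz
    set x0 := trd hq hM ε 𝒪 z with hx0d
    set y0 := trB ε 𝒪 hq hM z with hy0d
    have hx1 : U (heckeH M q ε 𝒪 y0 - ((q : 𝒪) + 1) • x0) ∈
        Hm M ε 𝒪 (↑S : Set ℕ) (thOf a (↑S : Set ℕ)) :=
      hUm _ (Submodule.sub_mem _ (hTm _ hy0) (Submodule.smul_mem _ _ hx0))
    have hy1 : U (heckeH M q ε 𝒪 x0 - ((q : 𝒪) + 1) • y0) ∈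
        Hm M ε 𝒪 (↑S : Set ℕ) (thOf a (↑S : Set ℕ)) :=
      hUm _ (Submodule.sub_mem _ (hTm _ hx0) (Submodule.smul_mem _ _ hy0))
    have hUT : ∀ x, heckeH M q ε 𝒪 (U x) = U (heckeH M q ε 𝒪 x) := by
      intro x
      have h1 := cev_comm (R := 𝒪) (hop M ε 𝒪 (↑S₁ : Set ℕ)) (hop_commute M ε 𝒪 _)
        (MvPolynomial.X iq) u
      have h2 := LinearMap.congr_fun h1 x
      rw [Module.End.mul_apply, Module.End.mul_apply, hTq, hTq] at h2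
      exact h2
    have hDU : ∀ x ∈ Hm M ε 𝒪 (↑S : Set ℕ) (thOf a (↑S : Set ℕ)),
        U (heckeH M q ε 𝒪 (heckeH M q ε 𝒪 x) - (((q : 𝒪) + 1) ^ 2) • x) = x := by
      intro x hx
      rw [← hcD]
      conv_rhs => rw [← hu' x hx, mul_comm, cev_mul_apply]
    obtain ⟨x1, hx1e⟩ : ∃ x1, x1 = U (heckeH M q ε 𝒪 y0 - ((q : 𝒪) + 1) • x0) := ⟨_, rfl⟩
    obtain ⟨y1, hy1e⟩ : ∃ y1, y1 = U (heckeH M q ε 𝒪 x0 - ((q : 𝒪) + 1) • y0) := ⟨_, rfl⟩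
    rw [← hx1e] at hx1
    rw [← hy1e] at hy1
    have hxx : ((q : 𝒪) + 1) • x1 + heckeH M q ε 𝒪 y1 = x0 := by
      rw [hx1e, hy1e, hUT, ← map_smul U, ← map_add U]
      refine Eq.trans ?_ (hDU x0 hx0)
      congr 1
      simp only [map_sub, map_smul]
      module
    have hyy : heckeH M q ε 𝒪 x1 + ((q : 𝒪) + 1) • y1 = y0 := by
      rw [hx1e, hy1e, hUT, ← map_smul U, ← map_add U]
      refine Eq.trans ?_ (hDU y0 hy0)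
      congr 1
      simp only [map_sub, map_smul]
      module
    refine ⟨⟨⟨x1, hx1⟩, ⟨y1, hy1⟩⟩, Subtype.ext ?_⟩
    rw [coe_levelMap]
    rw [← sub_eq_zero]
    refine eq_zero_of_new (p := p) (S₁ := S₁) h35 hq hM hpq hpS₁ hqS₁ hMS₁ hS₁S hqS hp𝒪 hε ρb hρS
      hE2 hHF ha (Submodule.sub_mem _ (Submodule.add_mem _ (res_mem_Hm hq hSq hx1)
        (degB_mem_Hm hq hSq hy1)) hz) ?_ ?_
    · rw [map_sub, map_add, trd_res, trd_degB, heq1, one_smul, sub_eq_zero]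
      exact hxx
    · rw [map_sub, map_add, trB_res, trB_degB, sub_eq_zero]
      exact hyy

end Main

section Iterate

variable {𝒪 : Type} [CommRing 𝒪] [IsLocalRing 𝒪] [IsNoetherianRing 𝒪]
  [IsAdicComplete (maximalIdeal 𝒪) 𝒪] [IsAddTorsionFree 𝒪] {p : ℕ} [hp : Fact p.Prime]

/-- functions on a one point type -/
def uniqEquiv (ι V : Type) [Unique ι] [AddCommGroup V] [Module 𝒪 V] : (ι → V) ≃ₗ[𝒪] V where
  toFun f := f default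
  invFun v := fun _ => v
  map_add' _ _ := rfl
  map_smul' _ _ := rfl
  left_inv f := funext fun _ => congrArg f (Subsingleton.elim _ _)
  right_inv _ := rfl

/-- `Fin (2 ^ (n + 1)) → V` is the square of `Fin (2 ^ n) → V`. -/
def doubleEquiv (V : Type) [AddCommGroup V] [Module 𝒪 V] (n : ℕ) :
    (Fin (2 ^ (n + 1)) → V) ≃ₗ[𝒪] (Fin (2 ^ n) → V) × (Fin (2 ^ n) → V) :=
  (LinearEquiv.funCongrLeft 𝒪 V
    (finSumFinEquiv.trans (finCongr (by rw [pow_succ, mul_two])))).trans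
    (LinearEquiv.sumArrowLequivProdArrow _ _ 𝒪 V)

/-- **Auxiliary levels.**  `Q` a finite set of primes which do not divide `N` and are not level
raising: the `𝔪`-part of level `N ∏ q` is a direct sum of `2 ^ #Q` copies of the `𝔪`-part of
level `N`, as a module over the Hecke operators outside `S`. -/
theorem exists_levelEquiv (h30 : S29aux.S30Statement) (h35 : Stmt35) {N : ℕ} [NeZero N]
    {S₀ S : Finset ℕ} (hS : S₀ ⊆ S) (hpS : p ∈ S₀)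
    (hNS : ∀ r : ℕ, r.Prime → r ∣ N → r ∈ S₀)
    (hp𝒪 : (p : 𝒪) ∈ maximalIdeal 𝒪) {ε : (ZMod N)ˣ →* 𝒪ˣ} (hε : ε = 1)
    (ρb : ResidualGaloisRep (ResidueField 𝒪)) {a : ℕ → ResidueField 𝒪}
    (hρ : ∀ ℓ : ℕ, ℓ.Prime → ℓ ∉ S₀ → HasFrob ρb ℓ (a ℓ))
    (hE : ∀ m : ℕ, 0 < m → ∃ ℓ : PIdx (↑S : Set ℕ), (m : ℤ) ∣ ((ℓ.1 : ℕ) : ℤ) - 1 ∧
      thOf a (↑S : Set ℕ) ℓ ≠ (((ℓ.1 : ℕ) : ℕ) : ResidueField 𝒪) + 1)
    (Q : Finset ℕ) (hQ : ∀ q ∈ Q, q.Prime ∧ q ∉ S₀ ∧ q ∈ S ∧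
      a q ^ 2 ≠ ((q : ResidueField 𝒪) + 1) ^ 2) :
    ∀ (M : ℕ) (_ : M = N * ∏ q ∈ Q, q) (ε' : (ZMod M)ˣ →* 𝒪ˣ) (_ : ε' = 1),
    ∃ Φ : (Fin (2 ^ Q.card) → Hm N ε 𝒪 (↑S : Set ℕ) (thOf a (↑S : Set ℕ))) ≃ₗ[𝒪]
        Hm M ε' 𝒪 (↑S : Set ℕ) (thOf a (↑S : Set ℕ)),
      ∀ (ℓ : PIdx (↑S : Set ℕ)) (x y : Fin (2 ^ Q.card) →
        Hm N ε 𝒪 (↑S : Set ℕ) (thOf a (↑S : Set ℕ))),
        (∀ i, (y i : HM N ε 𝒪) = hop N ε 𝒪 (↑S : Set ℕ) ℓ (x i)) →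
        (Φ y : HM M ε' 𝒪) = hop M ε' 𝒪 (↑S : Set ℕ) ℓ (Φ x) := by
  classical
  induction Q using Finset.induction_on with
  | empty =>
    intro M hM ε' hε'
    rw [Finset.prod_empty, mul_one] at hM
    subst hM
    obtain rfl : ε = ε' := hε.trans hε'.symm
    haveI : Unique (Fin (2 ^ (∅ : Finset ℕ).card)) := inferInstanceAs (Unique (Fin 1))
    exact ⟨uniqEquiv (Fin (2 ^ (∅ : Finset ℕ).card)) _, fun ℓ x y hxy => hxy _⟩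
  | insert q Q hqQ ih =>
    intro M hM ε' hε'
    obtain ⟨hq, hqS₀, hqS, haq⟩ := hQ q (Finset.mem_insert_self _ _)
    have hQ' : ∀ q ∈ Q, q.Prime ∧ q ∉ S₀ ∧ q ∈ S ∧ a q ^ 2 ≠ ((q : ResidueField 𝒪) + 1) ^ 2 :=
      fun r hr => hQ r (Finset.mem_insert_of_mem hr)
    set M₁ := N * ∏ q ∈ Q, q with hM₁
    have hM' : M = M₁ * q := by
      rw [hM, Finset.prod_insert hqQ, hM₁]
      ring
    subst hM'
    obtain ⟨Φ₁, hΦ₁⟩ := ih hQ' M₁ rfl 1 rfl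
    haveI : NeZero M₁ := ⟨mul_ne_zero (NeZero.ne N)
      (Finset.prod_ne_zero_iff.mpr fun r hr => (hQ' r hr).1.ne_zero)⟩
    have hM₁S : ∀ r : ℕ, r.Prime → r ∣ M₁ → r ∈ S := by
      intro r hr hrM
      rcases (Nat.Prime.dvd_mul hr).mp hrM with h | h
      · exact hS (hNS r hr h)
      · obtain ⟨r', hr', hrr'⟩ := (Prime.dvd_finsetProd_iff hr.prime _).mp h
        rw [(Nat.prime_dvd_prime_iff_eq hr (hQ' r' hr').1).mp hrr']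
        exact (hQ' r' hr').2.2.1
    have hqM₁ : ¬ q ∣ M₁ := by
      intro h
      rcases (Nat.Prime.dvd_mul hq).mp h with h | h
      · exact hqS₀ (hNS q hq h)
      · obtain ⟨r', hr', hrr'⟩ := (Prime.dvd_finsetProd_iff hq.prime _).mp h
        rw [(Nat.prime_dvd_prime_iff_eq hq (hQ' r' hr').1).mp hrr'] at hqQ
        exact hqQ hr'
    have hSq : ∀ ℓ : PIdx (↑S : Set ℕ), (ℓ.1 : ℕ) ≠ q := fun ℓ h => ℓ.2 (h ▸ hqS)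
    obtain rfl : infl (dvd_mul_right M₁ q) (1 : (ZMod M₁)ˣ →* 𝒪ˣ) = ε' :=
      (infl_eq_one rfl).trans hε'.symm
    have hbij := levelMap_bijective (p := p) h30 h35 hq hqM₁ hS hpS hqS₀ hqS hM₁S hp𝒪
      (ε := 1) rfl ρb hρ hE haq hSq
    set L := LinearEquiv.ofBijective _ hbij with hL
    have hcard : (insert q Q).card = Q.card + 1 := Finset.card_insert_of_notMem hqQ
    rw [hcard]
    refine ⟨(doubleEquiv _ Q.card).trans ((LinearEquiv.prodCongr Φ₁ Φ₁).trans L), ?_⟩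
    intro ℓ x y hxy
    haveI : Fact (ℓ.1 : ℕ).Prime := ⟨ℓ.1.2⟩
    have h1 := hΦ₁ ℓ (doubleEquiv (𝒪 := 𝒪) _ Q.card x).1 (doubleEquiv (𝒪 := 𝒪) _ Q.card y).1
      (fun i => hxy _)
    have h2 := hΦ₁ ℓ (doubleEquiv (𝒪 := 𝒪) _ Q.card x).2 (doubleEquiv (𝒪 := 𝒪) _ Q.card y).2
      (fun i => hxy _)
    show res (dvd_mul_right M₁ q) (1 : (ZMod M₁)ˣ →* 𝒪ˣ) 𝒪
        (Φ₁ (doubleEquiv (𝒪 := 𝒪) _ Q.card y).1).1 +
      degB hq.ne_zero (dvd_refl (M₁ * q)) (1 : (ZMod M₁)ˣ →* 𝒪ˣ) 𝒪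
        (Φ₁ (doubleEquiv (𝒪 := 𝒪) _ Q.card y).2).1 = _
    rw [h1, h2]
    have h3 : ∀ x, res (dvd_mul_right M₁ q) (1 : (ZMod M₁)ˣ →* 𝒪ˣ) 𝒪
        (hop M₁ 1 𝒪 (↑S : Set ℕ) ℓ x) = hop (M₁ * q) (infl (dvd_mul_right M₁ q) 1) 𝒪
          (↑S : Set ℕ) ℓ (res (dvd_mul_right M₁ q) (1 : (ZMod M₁)ˣ →* 𝒪ˣ) 𝒪 x) :=
      fun x => res_heckeH' 1 hq (hSq ℓ) x
    have h4 : ∀ x, degB hq.ne_zero (dvd_refl (M₁ * q)) (1 : (ZMod M₁)ˣ →* 𝒪ˣ) 𝒪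
        (hop M₁ 1 𝒪 (↑S : Set ℕ) ℓ x) = hop (M₁ * q) (infl (dvd_mul_right M₁ q) 1) 𝒪
          (↑S : Set ℕ) ℓ (degB hq.ne_zero (dvd_refl (M₁ * q)) (1 : (ZMod M₁)ˣ →* 𝒪ˣ) 𝒪 x) :=
      fun x => degB_heckeH' 1 hq (hSq ℓ) x
    rw [h3, h4, ← map_add]
    rfl

end Iterate

end Fermat.Agent.RTE

end
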