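import Fermat.Agent.RTE.Residual
import Fermat.Agent.TwExact.Change
import Fermat.Agent.TwHecke.Par

/-!
# Integral decomposition of homomorphisms; comparison of Hecke actions
-/

set_option autoImplicit false
set_option linter.style.haveILetI false

noncomputable section

open CongruenceSubgroup ModularCurve ModularCurve.Period IsLocalRing

namespace Fermat.Agent.RTE

open Fermat.Agent.TwExact Fermat.Agent.TwHecke Fermat.Agent.HeckePar Fermat.Agent.GalRep

/-! ### Integral decomposition -/

/-- the homomorphism `g ↦ (l g) c` -/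
def scal {Γ : Type*} [Group Γ] {A : Type*} [AddCommGroup A] (c : A) (l : Additive Γ →+ ℤ) :
    Additive Γ →+ A := ((zmultiplesHom A) c).comp l

@[simp] theorem scal_apply {Γ : Type*} [Group Γ] {A : Type*} [AddCommGroup A] (c : A)
    (l : Additive Γ →+ ℤ) (g : Additive Γ) : scal c l g = l g • c := rfl

/-- Every homomorphism from a f.g. group to a torsion-free group is a combination of integral ones
with linearly independent coefficients. -/
theorem exists_int_decomp {Γ : Type*} [Group Γ] [Group.FG Γ] {A : Type*} [AddCommGroup A]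
    [IsAddTorsionFree A] (y : Additive Γ →+ A) :
    ∃ (n : ℕ) (c : Fin n → A) (l : Fin n → (Additive Γ →+ ℤ)), LinearIndependent ℤ c ∧
      y = ∑ i, scal (c i) (l i) := by
  classical
  have : AddGroup.FG y.range := AddGroup.fg_range y
  have : Module.Finite ℤ y.range := Module.Finite.iff_addGroup_fg.mpr inferInstance
  have : IsAddTorsionFree y.range :=
    Function.Injective.isAddTorsionFree y.range.subtype Subtype.val_injective
  have : Module.Free ℤ y.range := inferInstance
  let b := Module.finBasis ℤ y.range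
  refine ⟨_, fun i => (b i : A),
    fun i => ((b.coord i).toAddMonoidHom).comp y.rangeRestrict, ?_, ?_⟩
  · exact b.linearIndependent.map' (AddSubgroup.toIntSubmodule y.range).subtype
      (LinearMap.ker_eq_bot.mpr Subtype.val_injective)
  · refine AddMonoidHom.ext fun x => ?_
    have h1 := b.sum_repr (y.rangeRestrict x)
    have h2 := congrArg (fun y : y.range => (y : A)) h1
    simp only [AddSubgroup.val_finsetSum, AddMonoidHom.coe_rangeRestrict] at h2
    rw [← h2, AddMonoidHom.finsetSum_apply]
    rfl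

/-- coefficients with respect to linearly independent elements vanish -/
theorem eq_zero_of_sum_scal {Γ : Type*} [Group Γ] {A : Type*} [AddCommGroup A] {n : ℕ}
    {c : Fin n → A} (hc : LinearIndependent ℤ c) {l : Fin n → (Additive Γ →+ ℤ)}
    (h : ∑ i, scal (c i) (l i) = 0) (i : Fin n) : l i = 0 := by
  refine AddMonoidHom.ext fun x => ?_
  have h1 := DFunLike.congr_fun h x
  rw [AddMonoidHom.finsetSum_apply] at h1
  exact Fintype.linearIndependent_iff.mp hc (fun i => l i x) h1 i

theorem eq_zero_of_sum_smul {A : Type*} [AddCommGroup A] {n : ℕ}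
    {c : Fin n → A} (hc : LinearIndependent ℤ c) {l : Fin n → ℤ}
    (h : ∑ i, l i • c i = 0) (i : Fin n) : l i = 0 :=
  Fintype.linearIndependent_iff.mp hc l h i

/-- A parabolic homomorphism with values in a torsion-free group is a combination of integral
parabolic homomorphisms. -/
theorem isParabolicHom_of_sum {M : ℕ} {A : Type*} [AddCommGroup A] {n : ℕ}
    {c : Fin n → A} (hc : LinearIndependent ℤ c) {l : Fin n → (Additive (Gamma0 M) →+ ℤ)}
    (h : IsParabolicHom (Gamma0 M) (∑ i, scal (c i) (l i))) (i : Fin n) :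
    IsParabolicHom (Gamma0 M) (l i) := by
  intro γ hγ
  have h1 := h γ hγ
  rw [AddMonoidHom.finsetSum_apply] at h1
  exact eq_zero_of_sum_smul hc h1 i

theorem parEval_scal {M : ℕ} {A : Type*} [AddCommGroup A] {S : Set ℕ} (t : HeckeAlgS S) (c : A)
    (l : Additive (Gamma0 M) →+ ℤ) :
    parEval M S A t (scal c l) = scal c (parEval M S ℤ t l) := parEval_comp _ t l

/-- A Hecke polynomial which kills the integral parabolic homomorphisms kills those with values in
a torsion-free group. -/
theorem parEval_eq_zero_of_parZ {M : ℕ} [NeZero M] {A : Type*} [AddCommGroup A]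
    [IsAddTorsionFree A] {S : Set ℕ} (t : HeckeAlgS S)
    (h : ∀ y ∈ parZ M, parEval M S ℤ t y = 0) {y : Additive (Gamma0 M) →+ A}
    (hy : IsParabolicHom (Gamma0 M) y) : parEval M S A t y = 0 := by
  have := fg_Gamma0 M
  obtain ⟨n, c, l, hc, rfl⟩ := exists_int_decomp y
  rw [map_sum]
  refine Finset.sum_eq_zero fun i _ => ?_
  rw [parEval_scal, h _ (isParabolicHom_of_sum hc hy i)]
  ext x
  simp

/-! ### Comparison of the Hecke actions -/

variable {M : ℕ} {R : Type} [CommRing R] {A : Type} [AddCommGroup A] [Module R A] {S : Set ℕ}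

/-- integral Hecke polynomials with coefficients in `R` -/
def toPoly (R : Type) [CommRing R] : HeckeAlgS S →+* MvPolynomial (PIdx S) R :=
  MvPolynomial.map (Int.castRingHom R)

@[simp] theorem toPoly_X (i : PIdx S) : toPoly R (MvPolynomial.X i : HeckeAlgS S) =
    MvPolynomial.X i := MvPolynomial.map_X _ _

@[simp] theorem toPoly_C (a : ℤ) : toPoly R (MvPolynomial.C a : HeckeAlgS S) =
    MvPolynomial.C (a : R) := MvPolynomial.map_C _ _

theorem equivHom_cev {ε : (ZMod M)ˣ →* Rˣ} (hε : ε = 1) (t : HeckeAlgS S) (x : HM M ε A) :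
    HM.equivHom (A := A) hε (cev (hop M ε A S) (hop_commute M ε A S) (toPoly R t) x) =
      parEval M S A t (HM.equivHom (A := A) hε x) := by
  induction t using MvPolynomial.induction_on generalizing x with
  | C a =>
    rw [toPoly_C, cev_C, ← MvPolynomial.algebraMap_eq, AlgHom.commutes]
    show HM.equivHom (A := A) hε (((a : ℤ) : R) • x) = _
    rw [map_smul, Int.cast_smul_eq_zsmul]
    rfl
  | add p q hp hq =>
    rw [map_add, map_add, LinearMap.add_apply, map_add, hp, hq, map_add]
    rfl
  | mul_X p i hp =>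
    haveI : Fact (i.1 : ℕ).Prime := ⟨i.1.2⟩
    rw [map_mul, toPoly_X, map_mul, map_mul, cev_X, Module.End.mul_apply,
      Module.End.mul_apply, hp, parEval_X]
    congr 1
    exact HM.equivHom_heckeH hε (i.1 : ℕ) x

/-- A Hecke polynomial which kills the integral parabolic homomorphisms kills all parabolic
classes with torsion-free coefficients. -/
theorem cev_eq_zero_of_parZ [NeZero M] [IsAddTorsionFree A] {ε : (ZMod M)ˣ →* Rˣ} (hε : ε = 1)
    (t : HeckeAlgS S) (h : ∀ y ∈ parZ M, parEval M S ℤ t y = 0) {x : HM M ε A}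
    (hx : x ∈ HM.par M ε A) :
    cev (hop M ε A S) (hop_commute M ε A S) (toPoly R t) x = 0 := by
  apply (HM.equivHom (A := A) hε).injective
  rw [equivHom_cev hε, map_zero]
  exact parEval_eq_zero_of_parZ t h ((HM.equivHom_mem_iff hε x).mpr hx)

/-- the polynomial `T_ℓ - (ℓ + 1)` -/
def eisPoly (ℓ : PIdx S) : HeckeAlgS S := MvPolynomial.X ℓ - MvPolynomial.C (((ℓ.1 : ℕ) : ℤ) + 1)

theorem cev_eisPoly_mem_par {ε : (ZMod M)ˣ →* Rˣ} {ℓ : PIdx S} (hM : (((ℓ.1 : ℕ) : ℕ) : ZMod M) = 1)
    (hodd : Odd (ℓ.1 : ℕ)) (hu : IsUnit (((ℓ.1 : ℕ) : ℕ) : R)) (x : HM M ε A) :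
    cev (hop M ε A S) (hop_commute M ε A S) (toPoly R (eisPoly ℓ)) x ∈ HM.par M ε A := by
  haveI : Fact (ℓ.1 : ℕ).Prime := ⟨ℓ.1.2⟩
  rw [eisPoly, map_sub, toPoly_X, toPoly_C, map_sub, cev_X, cev_C, LinearMap.sub_apply,
    Module.algebraMap_end_apply]
  have h := heckeH_sub_mem_par (ε := ε) hM hodd hu x
  push_cast
  exact h

end Fermat.Agent.RTE

end
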