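import Mathlib

/-!
# Uniform bound for the index of nilpotency over a reduced ring
-/

set_option autoImplicit false

noncomputable section

namespace Fermat.Agent.RTE

open Module

/-- over a field: `f ^ k z = 0` implies `f ^ dim z = 0` -/
theorem pow_finrank_apply_eq_zero {K V : Type*} [Field K] [AddCommGroup V] [Module K V]
    [FiniteDimensional K V] (f : Module.End K V) {k : ℕ} {v : V} (h : (f ^ k) v = 0) :
    (f ^ finrank K V) v = 0 :=
  f.ker_pow_le_ker_pow_finrank k h

/-- over a field, with an explicit basis -/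
theorem matrix_pow_mulVec_eq_zero {K : Type*} [Field K] {d : ℕ} (F : Matrix (Fin d) (Fin d) K)
    {k : ℕ} {v : Fin d → K} (h : (F ^ k).mulVec v = 0) : (F ^ d).mulVec v = 0 := by
  have h1 : (Matrix.toLin' F ^ k) v = 0 := by
    rw [← Matrix.toLin'_pow, Matrix.toLin'_apply]
    exact h
  have h2 := pow_finrank_apply_eq_zero _ h1
  rw [finrank_fin_fun, ← Matrix.toLin'_pow, Matrix.toLin'_apply] at h2
  exact h2

/-- Over a reduced ring: if `H` is free of rank `d` and `f ^ k z = 0` then `f ^ d z = 0`. -/
theorem pow_eq_zero_of_basis {B H : Type*} [CommRing B] [IsReduced B] [AddCommGroup H]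
    [Module B H] {d : ℕ} (b : Basis (Fin d) B H) (f : H →ₗ[B] H) {k : ℕ} {z : H}
    (h : (f ^ k) z = 0) : (f ^ d) z = 0 := by
  classical
  set F := LinearMap.toMatrix b b f with hF
  have hpow : ∀ (m : ℕ) (i : Fin d), b.repr ((f ^ m) z) i = (F ^ m).mulVec (b.repr z) i := by
    intro m i
    rw [hF, LinearMap.toMatrix_pow, LinearMap.toMatrix_mulVec_repr]
  apply b.repr.injective
  rw [map_zero]
  ext i
  rw [Finsupp.zero_apply]
  suffices hmem : b.repr ((f ^ d) z) i ∈ nilradical B from
    (mem_nilradical.mp hmem).eq_zero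
  rw [nilradical_eq_sInf, Ideal.mem_sInf]
  rintro P hP
  have hPp : P.IsPrime := hP
  let K := FractionRing (B ⧸ P)
  let φ : B →+* K := (algebraMap (B ⧸ P) K).comp (Ideal.Quotient.mk P)
  have hφ : ∀ x, φ x = 0 → x ∈ P := by
    intro x hx
    have h1 : (Ideal.Quotient.mk P) x = 0 :=
      (IsFractionRing.injective (B ⧸ P) K) (by rw [map_zero]; exact hx)
    exact Ideal.Quotient.eq_zero_iff_mem.mp h1
  have hmap : ∀ (m : ℕ), (fun i => φ (b.repr ((f ^ m) z) i)) =
      ((F.map φ) ^ m).mulVec (fun i => φ (b.repr z i)) := by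
    intro m
    funext i
    rw [hpow, ← Matrix.map_pow]
    exact RingHom.map_mulVec φ (F ^ m) (b.repr z) i
  have h0 : ((F.map φ) ^ k).mulVec (fun i => φ (b.repr z i)) = 0 := by
    rw [← hmap, h, map_zero]
    funext i
    exact map_zero φ
  have h1 := matrix_pow_mulVec_eq_zero _ h0
  rw [← hmap] at h1
  exact hφ _ (congrFun h1 i)

/-- The same for a module over a ring `T` acting by `B`-linear operators. -/
theorem pow_smul_eq_zero_of_basis {B T H : Type*} [CommRing B] [IsReduced B] [CommRing T]
    [AddCommGroup H] [Module B H] [Module T H] [SMulCommClass T B H] {d : ℕ}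
    (b : Basis (Fin d) B H) (t : T) {k : ℕ} {z : H} (h : t ^ k • z = 0) : t ^ d • z = 0 := by
  let f : H →ₗ[B] H :=
    { toFun := fun x => t • x
      map_add' := smul_add t
      map_smul' := fun c x => smul_comm t c x }
  have hf : ∀ (m : ℕ) (x : H), (f ^ m) x = t ^ m • x := by
    intro m
    induction m with
    | zero => intro x; rw [pow_zero, pow_zero, one_smul]; rfl
    | succ m ih =>
      intro x
      rw [pow_succ, Module.End.mul_apply, ih, pow_succ, mul_smul]
      rfl
  rw [← hf] at h ⊢
  exact pow_eq_zero_of_basis b f h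

end Fermat.Agent.RTE

end
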