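import Fermat.Agent.RTE.NewMain
import Fermat.Agent.RTE.Nilp

/-!
# `e_v = tr ρ(Frob_v)² - (v + 1)²` is nilpotent on the kernel of the two traces
-/

set_option autoImplicit false
set_option linter.style.haveILetI false

noncomputable section

open CongruenceSubgroup ModularCurve ModularCurve.Period Polynomial IsLocalRing
open scoped TensorProduct

namespace Fermat.Agent.RTE

open Fermat.Agent.TwHecke Fermat.Agent.TwExact Fermat.Agent.TwES Fermat.Agent.RT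
open Fermat.Agent.HeckeRep

theorem finite_end' (𝒪 : Type*) [CommRing 𝒪] [IsNoetherianRing 𝒪] (H : Type*) [AddCommGroup H]
    [Module 𝒪 H] [Module.Finite 𝒪 H] : Module.Finite 𝒪 (H →ₗ[𝒪] H) := by
  obtain ⟨n, f, hf⟩ := Module.Finite.exists_fin' 𝒪 H
  have hn : IsNoetherian 𝒪 H := isNoetherian_of_isNoetherianRing_of_finite 𝒪 H
  have h1 : Module.Finite 𝒪 ((Fin n → 𝒪) →ₗ[𝒪] H) := inferInstance
  have h2 : IsNoetherian 𝒪 ((Fin n → 𝒪) →ₗ[𝒪] H) := isNoetherian_of_isNoetherianRing_of_finite 𝒪 _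
  refine Module.Finite.of_injective (LinearMap.lcomp 𝒪 H f) ?_
  intro a b hab
  refine LinearMap.ext fun x => ?_
  obtain ⟨y, rfl⟩ := hf x
  exact congrArg (fun g : (Fin n → 𝒪) →ₗ[𝒪] H => g y) hab

/-- the group ring of a finite abelian group over a subring of `ℂ` is reduced -/
theorem isReduced_monoidAlgebra {𝒪 : Type*} [CommRing 𝒪] (j : 𝒪 →+* ℂ)
    (hj : Function.Injective j) (Δ : Type*) [CommGroup Δ] [Finite Δ] :
    IsReduced (MonoidAlgebra 𝒪 Δ) := by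
  haveI := Fintype.ofFinite Δ
  have h1 : IsReduced (MonoidAlgebra ℂ Δ) := by
    refine ⟨fun x hx => ?_⟩
    rw [← sum_chi_smul_eidem x]
    refine Finset.sum_eq_zero fun ψ _ => ?_
    have h2 : IsNilpotent (chi ψ x) := hx.map (chi ψ)
    rw [h2.eq_zero, zero_smul]
  have h3 : Function.Injective (MonoidAlgebra.mapRingHom Δ j) :=
    MonoidAlgebra.map_injective _ hj
  exact isReduced_of_injective (MonoidAlgebra.mapRingHom Δ j) h3

section Main

variable {𝒪 : Type} [CommRing 𝒪] [IsDomain 𝒪] [IsDiscreteValuationRing 𝒪]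
  [IsAdicComplete (maximalIdeal 𝒪) 𝒪] [Finite (ResidueField 𝒪)] [CharZero 𝒪] [Algebra 𝒪 ℂ]
  [FaithfulSMul 𝒪 ℂ] {Δ : Type} [CommGroup Δ] [Fintype Δ]
  [IsLocalRing (MonoidAlgebra 𝒪 Δ)] [IsNoetherianRing (MonoidAlgebra 𝒪 Δ)]
  [IsAdicComplete (maximalIdeal (MonoidAlgebra 𝒪 Δ)) (MonoidAlgebra 𝒪 Δ)]
  {p : ℕ} [Fact p.Prime]

/-- **[g2], abstract form.** `X` = a finite `𝒪`-module with an action of the local `𝒪`-algebra `R`
which carries a Galois representation `ρ`, embedded in the `𝔪`-part of level `M q`, such that the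
Frobenius traces act as the normalised Hecke operators; `C ≤ X` an `R`-submodule killed by the two
traces to level `M`.  Then `(tr ρ(Frob_q))² - (q + 1)²` acts nilpotently on `C`. -/
theorem exists_pow_new (h35 : Stmt35) (hp𝒪 : (p : 𝒪) ∈ maximalIdeal 𝒪) {N M q : ℕ} [NeZero N]
    [NeZero M] [NeZero q] (hNM : N ∣ M) (hq : q.Prime) (hM : ¬ q ∣ M) {S : Finset ℕ}
    (hpS : p ∈ S) (hqp : q ≠ p) (hqS : q ∈ S) (hMS : ∀ r : ℕ, r.Prime → r ∣ M → r ∈ S)
    (τ₀ : (ZMod N)ˣ →* Δ) {ε : (ZMod M)ˣ →* (MonoidAlgebra 𝒪 Δ)ˣ}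
    (hε : (taut 𝒪 (τ₀.comp (ZMod.unitsMap hNM))) ^ 2 = ε)
    {θ : PIdx (↑S : Set ℕ) → ResidueField (MonoidAlgebra 𝒪 Δ)}
    (ℓ₀ : PIdx (↑S : Set ℕ)) (hℓ₀ : ((ℓ₀.1 : ℕ) : ZMod (M * q)) = 1) (hodd : Odd (ℓ₀.1 : ℕ))
    (hθ : θ ℓ₀ ≠ residue _ (((ℓ₀.1 : ℕ) : MonoidAlgebra 𝒪 Δ) + 1))
    {R : Type} [CommRing R] [IsLocalRing R] [Algebra 𝒪 R]
    {X : Type*} [AddCommGroup X] [Module 𝒪 X] [Module.Finite 𝒪 X] [Module R X]
    [IsScalarTower 𝒪 R X]
    (ι : X →ₗ[𝒪] HM (M * q) (infl (dvd_mul_right M q) ε) (MonoidAlgebra 𝒪 Δ))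
    (hι : Function.Injective ι) (C : Submodule R X)
    (hC : ∀ z ∈ C, ι z ∈ newHm hq hM ε (↑S : Set ℕ) θ)
    (ρ : GaloisRepAdic R) (t : ℕ → R)
    (ht : ∀ ℓ : ℕ, ℓ.Prime → ℓ ∉ S → ∀ A : ValuationSubring (AlgebraicClosure ℚ),
      A.LiesOverPrime ℓ → ∀ σ : AlgebraicClosure ℚ ≃ₐ[ℚ] AlgebraicClosure ℚ,
        A.IsFrobeniusAt σ ℓ →
        LinearMap.charpoly (ρ.ρ σ) = Polynomial.X ^ 2 - Polynomial.C (t ℓ) * Polynomial.X +
          Polynomial.C (ℓ : R))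
    (hact : ∀ (ℓ : PIdx (↑S : Set ℕ)) (z : X), ι (t (ℓ.1 : ℕ) • z) = nsc 𝒪 τ₀ (ℓ.1 : ℕ) •
      heckeP (M * q) (infl (dvd_mul_right M q) ε) (MonoidAlgebra 𝒪 Δ) ℓ.1 (ι z))
    {A : ValuationSubring (AlgebraicClosure ℚ)} (hA : A.LiesOverPrime q)
    {σ : AlgebraicClosure ℚ ≃ₐ[ℚ] AlgebraicClosure ℚ} (hσ : A.IsFrobeniusAt σ q) :
    ∃ k : ℕ, ∀ z ∈ C, (ρ.trace σ ^ 2 - ((q : R) + 1) ^ 2) ^ k • z = 0 := by
  classical
  by_cases hCbot : C = ⊥
  · exact ⟨0, fun z hz => by rw [hCbot, Submodule.mem_bot] at hz; rw [hz, smul_zero]⟩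
  have hntC : Nontrivial C := (Submodule.nontrivial_iff_ne_bot).mpr hCbot
  -- the action on `C`
  let act : R →ₐ[𝒪] Module.End 𝒪 C := Algebra.lsmul 𝒪 𝒪 C
  have hactz : ∀ r z, act r z = r • z := fun r z => rfl
  let J : Ideal R := RingHom.ker act
  have hJ : J ≠ ⊤ := by
    intro h
    have h1 : (1 : R) ∈ J := h ▸ Submodule.mem_top
    have h2 : act 1 = 0 := h1
    rw [map_one] at h2
    obtain ⟨z, hz⟩ := exists_ne (0 : C)
    exact hz (LinearMap.congr_fun h2 z)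
  let T := R ⧸ J
  haveI : Nontrivial T := Ideal.Quotient.nontrivial_iff.mpr hJ
  haveI : IsLocalRing T := IsLocalRing.of_surjective' (Ideal.Quotient.mk J)
    Ideal.Quotient.mk_surjective
  haveI : IsLocalHom (Ideal.Quotient.mk J) := IsLocalHom.of_surjective _
    Ideal.Quotient.mk_surjective
  let actT : T →ₐ[𝒪] Module.End 𝒪 C := Ideal.Quotient.liftₐ J act fun r hr => hr
  have hactT : ∀ r, actT (Ideal.Quotient.mk J r) = act r := fun r => rfl
  have hinjT : Function.Injective actT := by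
    rw [injective_iff_map_eq_zero]
    intro x hx
    obtain ⟨r, rfl⟩ := Ideal.Quotient.mk_surjective x
    exact Ideal.Quotient.eq_zero_iff_mem.mpr hx
  haveI : IsNoetherian 𝒪 X := isNoetherian_of_isNoetherianRing_of_finite 𝒪 X
  haveI : Module.Finite 𝒪 C := by
    have : IsNoetherian 𝒪 (C.restrictScalars 𝒪) := isNoetherian_submodule'  _
    exact Module.IsNoetherian.finite 𝒪 (C.restrictScalars 𝒪)
  haveI : Module.Finite 𝒪 (Module.End 𝒪 C) := finite_end' 𝒪 C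
  haveI : Module.Finite 𝒪 T := Module.Finite.of_injective actT.toLinearMap hinjT
  let ιC : C →ₗ[𝒪] HM (M * q) (infl (dvd_mul_right M q) ε) (MonoidAlgebra 𝒪 Δ) :=
    ι.comp (C.subtype.restrictScalars 𝒪)
  have hιC : Function.Injective ιC := hι.comp Subtype.val_injective
  have himgC : ∀ z, ιC z ∈ newHm hq hM ε (↑S : Set ℕ) θ := fun z => hC z z.2
  have hone : unitOf (M * q) (((ℓ₀.1 : ℕ) : ℕ) : ℤ) = 1 :=
    unitOf_eq_one (by rw [Int.cast_natCast, hℓ₀])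
  have hne : NonEis (M * q) (infl (dvd_mul_right M q) ε) (↑S : Set ℕ) θ := by
    refine ⟨ℓ₀, not_dvd_of_eq_one ℓ₀.1.2 hℓ₀, ?_⟩
    rw [hone, wt_one]
    exact hθ
  haveI : NeZero (M * q) := ⟨mul_ne_zero (NeZero.ne M) hq.ne_zero⟩
  haveI : Module.IsTorsionFree 𝒪 C := by
    refine Module.isTorsionFree_iff_smul_eq_zero.mpr fun n x h => ?_
    by_cases hn : n = 0
    · exact Or.inl hn
    · refine Or.inr (hιC ?_)
      rw [map_zero]
      refine eq_zero_of_smul_Hm hne ((mem_newHm hq hM ε _ θ _).mp (himgC x)).1 hn ?_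
      rw [algebraMap_smul, ← map_smul, h, map_zero]
  obtain ⟨k, hk⟩ := exists_pow_eq_zero_of_points actT
    (Ideal.Quotient.mk J (ρ.trace σ ^ 2 - ((q : R) + 1) ^ 2)) (by
      rintro x ⟨v, hv, hx⟩
      have hocc : OccursNew S q (fun ℓ => x (Ideal.Quotient.mk J (t ℓ))) := by
        refine occursNew_of_point hNM hq hM hMS τ₀ hε ℓ₀ hℓ₀ hodd hθ ιC hιC himgC
          (fun ℓ => act (t (ℓ.1 : ℕ))) (fun ℓ z => hact ℓ z) hv (fun ℓ => ?_)
        have h1 := hx (Ideal.Quotient.mk J (t (ℓ.1 : ℕ)))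
        rw [hactT] at h1
        exact h1
      have h2 := trace_sq_of_occursNew (𝒪 := 𝒪) h35 hp𝒪 hpS hq hqp hqS ρ t ht
        (Ideal.Quotient.mk J) x hocc hA hσ
      rw [map_sub, map_sub, map_pow, map_pow, h2, map_pow, map_pow, map_add, map_natCast, map_one,
        map_add, map_natCast, map_one, sub_self])
  refine ⟨k, fun z hz => ?_⟩
  rw [← map_pow, hactT] at hk
  have h3 := LinearMap.congr_fun hk ⟨z, hz⟩
  exact congrArg Subtype.val h3

end Main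

end Fermat.Agent.RTE

end
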