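import Fermat.Agent.HSide.Maps
import Fermat.Agent.RTE.NewFinal
import Fermat.Agent.S35

/-!
# The nilpotency relation at `v` on the kernels of the two maps `j1`, `j2` of the Hecke side
-/

set_option autoImplicit false
set_option linter.style.haveILetI false

noncomputable section

open IsLocalRing

namespace Fermat.Agent.RTE

open Fermat.Agent.TwHecke Fermat.Agent.TwExact Fermat.Agent.HeckeRep

theorem stmt35 : Stmt35 := @S35.result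

section Side

variable {𝒪 : Type} [CommRing 𝒪] [IsDomain 𝒪] [IsDiscreteValuationRing 𝒪]
  [IsAdicComplete (maximalIdeal 𝒪) 𝒪] [Finite (ResidueField 𝒪)] [CharZero 𝒪]
  {Δ : Type} [CommGroup Δ] [Finite Δ] [IsLocalRing (MonoidAlgebra 𝒪 Δ)] {p : ℕ} [Fact p.Prime]

/-- **[g2] for the maps `j1`, `j2` of the Hecke side.** -/
theorem new_side (hp𝒪 : (p : 𝒪) ∈ maximalIdeal 𝒪) {M M' v : ℕ} [NeZero M] (hv : v.Prime)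
    (hvM : ¬ v ∣ M) (h : M * v = M') {S : Finset ℕ} (hpS : p ∈ S) (hvp : v ≠ p)
    (hvS : v ∈ (↑S : Set ℕ)) (hMS : ∀ r : ℕ, r.Prime → r ∣ M' → r ∈ (↑S : Set ℕ))
    {η : (ZMod M)ˣ →* (MonoidAlgebra 𝒪 Δ)ˣ} {η' : (ZMod M')ˣ →* (MonoidAlgebra 𝒪 Δ)ˣ}
    (hη : infl (Dvd.intro v h) η = η') (τ : (ZMod M)ˣ →* Δ) (hτ : taut 𝒪 τ = η)
    {θ : PIdx (↑S : Set ℕ) → ResidueField (MonoidAlgebra 𝒪 Δ)}
    (hne : S41hm.StrongNonEis (↑S : Set ℕ) θ)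
    {R : Type} [CommRing R] [IsLocalRing R] [Algebra 𝒪 R] (ρ : GaloisRepAdic R) (t : ℕ → R)
    (ht : ∀ ℓ : ℕ, ℓ.Prime → ℓ ∉ S → ∀ A : ValuationSubring (AlgebraicClosure ℚ),
      A.LiesOverPrime ℓ → ∀ σ : AlgebraicClosure ℚ ≃ₐ[ℚ] AlgebraicClosure ℚ,
        A.IsFrobeniusAt σ ℓ →
        LinearMap.charpoly (ρ.ρ σ) = Polynomial.X ^ 2 - Polynomial.C (t ℓ) * Polynomial.X +
          Polynomial.C (ℓ : R))
    (act : R →+* Module.End (MonoidAlgebra 𝒪 Δ)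
      (Hm M' (η' ^ 2) (MonoidAlgebra 𝒪 Δ) (↑S : Set ℕ) θ))
    (hC : ∀ (c : 𝒪) (x : Hm M' (η' ^ 2) (MonoidAlgebra 𝒪 Δ) (↑S : Set ℕ) θ),
      act (algebraMap 𝒪 R c) x = algebraMap 𝒪 (MonoidAlgebra 𝒪 Δ) c • x)
    (hact : ∀ ℓ : PIdx (↑S : Set ℕ), act (t (ℓ.1 : ℕ)) = hT η' (η' ^ 2) (↑S : Set ℕ) θ ℓ)
    (hj1 : ∀ r z, HSide.j1 hv hvM h hη θ hvS z = 0 → HSide.j1 hv hvM h hη θ hvS (act r z) = 0)
    (hj2 : ∀ r z, HSide.j2 hv hvM h hη θ hvS z = 0 → HSide.j2 hv hvM h hη θ hvS (act r z) = 0)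
    {A : ValuationSubring (AlgebraicClosure ℚ)} (hA : A.LiesOverPrime v)
    {σ : AlgebraicClosure ℚ ≃ₐ[ℚ] AlgebraicClosure ℚ} (hσ : A.IsFrobeniusAt σ v) :
    ∃ k : ℕ, ∀ z, HSide.j1 hv hvM h hη θ hvS z = 0 → HSide.j2 hv hvM h hη θ hvS z = 0 →
      act ((LinearMap.trace _ _ (ρ.ρ σ) ^ 2 - ((v + 1 : ℕ) : R) ^ 2) ^ k) z = 0 := by
  subst h
  subst hτ
  subst hη
  haveI : NeZero v := ⟨hv.ne_zero⟩
  haveI : NeZero (M * v) := ⟨mul_ne_zero (NeZero.ne M) hv.ne_zero⟩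
  haveI := Fintype.ofFinite Δ
  haveI hnoeth := isNoetherianRing_groupRing (𝒪 := 𝒪) (Δ := Δ)
  haveI hcomp := isAdicComplete_groupRing (𝒪 := 𝒪) (Δ := Δ)
  obtain ⟨j, hj⟩ := RT.exists_embedding 𝒪
  letI : Algebra 𝒪 ℂ := j.toAlgebra
  haveI : FaithfulSMul 𝒪 ℂ := (faithfulSMul_iff_algebraMap_injective 𝒪 ℂ).mpr hj
  obtain ⟨ℓ₀, h1, h2, h3⟩ := exists_aux hne (M := M * v)
  -- the module
  letI : Module R (Hm (M * v) ((infl (Dvd.intro v rfl) (taut 𝒪 τ)) ^ 2) (MonoidAlgebra 𝒪 Δ) (↑S : Set ℕ) θ) :=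
    Module.compHom _ act
  have hsm : ∀ (r : R)
      (x : Hm (M * v) ((infl (Dvd.intro v rfl) (taut 𝒪 τ)) ^ 2) (MonoidAlgebra 𝒪 Δ) (↑S : Set ℕ) θ),
      r • x = act r x := fun r x => rfl
  haveI : IsScalarTower 𝒪 R
      (Hm (M * v) ((infl (Dvd.intro v rfl) (taut 𝒪 τ)) ^ 2) (MonoidAlgebra 𝒪 Δ) (↑S : Set ℕ) θ) := by
    refine ⟨fun c r x => ?_⟩
    rw [hsm, hsm, Algebra.smul_def, map_mul, Module.End.mul_apply, hC, algebraMap_smul]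
  haveI hfin : Module.Finite (MonoidAlgebra 𝒪 Δ)
      (Hm (M * v) ((infl (Dvd.intro v rfl) (taut 𝒪 τ)) ^ 2) (MonoidAlgebra 𝒪 Δ) (↑S : Set ℕ) θ) :=
    finite_Hm _ _ _
  haveI : Module.Finite 𝒪
      (Hm (M * v) ((infl (Dvd.intro v rfl) (taut 𝒪 τ)) ^ 2) (MonoidAlgebra 𝒪 Δ) (↑S : Set ℕ) θ) :=
    Module.Finite.trans (MonoidAlgebra 𝒪 Δ) _
  let ι : Hm (M * v) ((infl (Dvd.intro v rfl) (taut 𝒪 τ)) ^ 2) (MonoidAlgebra 𝒪 Δ) (↑S : Set ℕ) θ →ₗ[𝒪]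
      HM (M * v) (infl (dvd_mul_right M v) ((taut 𝒪 τ) ^ 2)) (MonoidAlgebra 𝒪 Δ) :=
    (Submodule.subtype (Hm (M * v) ((infl (Dvd.intro v rfl) (taut 𝒪 τ)) ^ 2) (MonoidAlgebra 𝒪 Δ)
      (↑S : Set ℕ) θ)).restrictScalars 𝒪
  have hι : Function.Injective ι := Subtype.val_injective
  let C : Submodule R
      (Hm (M * v) ((infl (Dvd.intro v rfl) (taut 𝒪 τ)) ^ 2) (MonoidAlgebra 𝒪 Δ) (↑S : Set ℕ) θ) :=
    { carrier := {z | HSide.j1 hv hvM rfl rfl θ hvS z = 0 ∧ HSide.j2 hv hvM rfl rfl θ hvS z = 0}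
      add_mem' := fun {a b} ha hb => ⟨by rw [map_add, ha.1, hb.1, add_zero],
        by rw [map_add, ha.2, hb.2, add_zero]⟩
      zero_mem' := ⟨map_zero _, map_zero _⟩
      smul_mem' := fun r z hz => ⟨hj1 r z hz.1, hj2 r z hz.2⟩ }
  have hCN : ∀ z ∈ C, ι z ∈ newHm hv hvM ((taut 𝒪 τ) ^ 2) (↑S : Set ℕ) θ := by
    intro z hz
    rw [mem_newHm]
    refine ⟨z.2, ?_, ?_⟩
    · have h4 := congrArg Subtype.val hz.1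
      rw [HSide.coe_j1] at h4
      exact h4
    · have h4 := congrArg Subtype.val hz.2
      rw [HSide.coe_j2] at h4
      exact (Units.isUnit _).smul_eq_zero.mp h4
  have hactι : ∀ (ℓ : PIdx (↑S : Set ℕ))
      (z : Hm (M * v) ((infl (Dvd.intro v rfl) (taut 𝒪 τ)) ^ 2) (MonoidAlgebra 𝒪 Δ) (↑S : Set ℕ) θ),
      ι (t (ℓ.1 : ℕ) • z) = nsc 𝒪 τ (ℓ.1 : ℕ) •
      heckeP (M * v) (infl (dvd_mul_right M v) ((taut 𝒪 τ) ^ 2)) (MonoidAlgebra 𝒪 Δ) ℓ.1 (ι z) := by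
    intro ℓ z
    rw [hsm, hact]
    show ((hT (infl (Dvd.intro v rfl) (taut 𝒪 τ)) _ (↑S : Set ℕ) θ ℓ z :
      Hm (M * v) ((infl (Dvd.intro v rfl) (taut 𝒪 τ)) ^ 2) (MonoidAlgebra 𝒪 Δ) (↑S : Set ℕ) θ) :
      HM (M * v) ((infl (Dvd.intro v rfl) (taut 𝒪 τ)) ^ 2) (MonoidAlgebra 𝒪 Δ)) = _
    rw [HSide.coe_hT', HSide.eta_unitOf (Dvd.intro v rfl) rfl ℓ.1.2
      (fun hd => ℓ.2 (hMS _ ℓ.1.2 hd))]
    rfl
  have hε : (taut 𝒪 (τ.comp (ZMod.unitsMap (dvd_refl M)))) ^ 2 = (taut 𝒪 τ) ^ 2 := by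
    rw [ZMod.unitsMap_self, MonoidHom.comp_id]
  obtain ⟨k, hk⟩ := exists_pow_new stmt35 hp𝒪 (dvd_refl M) hv hvM hpS hvp
    (Finset.mem_coe.mp hvS) (fun r hr hd => Finset.mem_coe.mp (hMS r hr (hd.mul_right v))) τ hε
    ℓ₀ h1 h2 h3 ι hι C hCN ρ t ht hactι hA hσ
  refine ⟨k, fun z hz1 hz2 => ?_⟩
  have h5 := hk z ⟨hz1, hz2⟩
  rw [hsm] at h5
  rw [Nat.cast_add, Nat.cast_one]
  exact h5

end Side

end Fermat.Agent.RTE
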