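import Fermat.Agent.RTE.Support

/-!
# Depletion of cusp forms and comparison of eigenforms of level `qN` and `N`
-/

set_option autoImplicit false

noncomputable section

open CongruenceSubgroup ModularFormClass FermatAgent.HeckeEigen Matrix.SpecialLinearGroup
open Fermat.Agent.HeckePar Fermat.Agent.Oldforms
open scoped MatrixGroups ModularForm

namespace Fermat.Agent.RTE

variable {N M q : ℕ} {k : ℤ}

theorem exists_level_cast {a b : ℕ} (h : a = b) (f : CuspForm (Gamma0 a) k) :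
    ∃ f' : CuspForm (Gamma0 b) k, ∀ n, qCoeff ⇑f' n = qCoeff ⇑f n := by
  subst h
  exact ⟨f, fun _ => rfl⟩

/-- Depletion at one prime `r`: kill the coefficients at multiples of `r`, at the cost of the
factor `r²` in the level. -/
theorem exists_deplete_prime [NeZero N] {r : ℕ} (hr : r.Prime) (f : CuspForm (Gamma0 N) k) :
    ∃ f' : CuspForm (Gamma0 (r * (r * N))) k, ∀ n, qCoeff ⇑f' n =
      if r ∣ n then 0 else qCoeff ⇑f n := by
  have h1 : NeZero (r * N) := ⟨mul_ne_zero hr.ne_zero (NeZero.ne N)⟩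
  have h2 : NeZero (r * (r * N)) := ⟨mul_ne_zero hr.ne_zero (NeZero.ne (r * N))⟩
  set f1 : CuspForm (Gamma0 (r * N)) k := restr (r * N) (dvd_mul_left N r) k f with hf1
  have hdvd : N ∣ r * (r * N) := (dvd_mul_left N r).trans (dvd_mul_left _ r)
  refine ⟨restr (r * (r * N)) hdvd k f -
    V k hr.ne_zero (rfl : r * (r * N) = r * (r * N)) (heckeOp (r * N) k ⟨r, hr⟩ f1), fun n => ?_⟩
  rw [qCoeff_sub, coe_restr, qCoeff_V]
  split_ifs with hn
  · obtain ⟨m, rfl⟩ := hn
    rw [Nat.mul_div_cancel_left _ hr.pos, qCoeff_heckeOp]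
    have : ((⟨r, hr⟩ : Nat.Primes) : ℕ) ∣ r * N := dvd_mul_right r N
    rw [if_pos this, add_zero, hf1, coe_restr]
    exact sub_self _
  · rw [sub_zero]

/-- Depletion at all prime divisors of `D`, simultaneously for forms of level `N` and `q N`; the
new levels are `N'` and `q N'`, where `N'` has only prime divisors dividing `N D`. -/
theorem exists_deplete (D : ℕ) (hD : D ≠ 0) : ∀ (N : ℕ) (_ : N ≠ 0), ∃ N' : ℕ, N' ≠ 0 ∧ N ∣ N' ∧
    (∀ p : ℕ, p.Prime → p ∣ N' → p ∣ N ∨ p ∣ D) ∧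
    ∀ (c : ℕ) (_ : c ≠ 0) (f : CuspForm (Gamma0 (c * N)) k),
      ∃ f' : CuspForm (Gamma0 (c * N')) k, ∀ n, qCoeff ⇑f' n =
        if n.Coprime D then qCoeff ⇑f n else 0 := by
  induction D using induction_on_primes with
  | zero => exact absurd rfl hD
  | one =>
    intro N hN
    exact ⟨N, hN, dvd_rfl, fun p _ h => Or.inl h, fun c hc f => ⟨f, fun n => by simp⟩⟩
  | prime_mul r D hr ih =>
    intro N hN
    have hD' : D ≠ 0 := right_ne_zero_of_mul hD
    obtain ⟨N', hN', hNN', hp, hdep⟩ := ih hD' N hN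
    refine ⟨r * (r * N'), mul_ne_zero hr.ne_zero (mul_ne_zero hr.ne_zero hN'),
      hNN'.trans ((dvd_mul_left N' r).trans (dvd_mul_left _ r)), ?_, ?_⟩
    · intro p hpp h
      rcases hpp.dvd_mul.mp h with h1 | h1
      · exact Or.inr (h1.mul_right _)
      · rcases hpp.dvd_mul.mp h1 with h1 | h1
        · exact Or.inr (h1.mul_right _)
        · rcases hp p hpp h1 with h2 | h2
          · exact Or.inl h2
          · exact Or.inr (h2.mul_left _)
    · intro c hc f
      obtain ⟨f1, hf1⟩ := hdep c hc f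
      have : NeZero (c * N') := ⟨mul_ne_zero hc hN'⟩
      obtain ⟨f2, hf2⟩ := exists_deplete_prime hr f1
      have hlev : r * (r * (c * N')) = c * (r * (r * N')) := by ring
      obtain ⟨f3, hf3⟩ := exists_level_cast hlev f2
      refine ⟨f3, fun n => ?_⟩
      rw [hf3, hf2, hf1]
      by_cases h1 : r ∣ n
      · rw [if_pos h1, if_neg]
        intro h2
        have := Nat.dvd_gcd h1 (dvd_mul_right r D)
        rw [h2] at this
        exact hr.one_lt.ne' (Nat.dvd_one.mp this)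
      · rw [if_neg h1]
        have h2 : n.Coprime r := ((Nat.Prime.coprime_iff_not_dvd hr).mpr h1).symm
        have h3 : n.Coprime (r * D) ↔ n.Coprime D := by
          rw [Nat.coprime_mul_iff_right]
          exact ⟨fun h => h.2, fun h => ⟨h2, h⟩⟩
        simp only [h3]

/-- coefficients prime to the level are determined by the prime coefficients -/
theorem qCoeff_eq_of_coprime {N1 N2 : ℕ} {f : CuspForm (Gamma0 N1) 2} {g : CuspForm (Gamma0 N2) 2}
    (hf : f.IsNormalizedEigenform) (hg : g.IsNormalizedEigenform) {L : ℕ} (h1 : N1 ∣ L)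
    (h2 : N2 ∣ L) (h : ∀ p : ℕ, p.Prime → ¬ p ∣ L → qCoeff ⇑g p = qCoeff ⇑f p) :
    ∀ n : ℕ, n.Coprime L → n ≠ 0 → qCoeff ⇑g n = qCoeff ⇑f n := by
  have hpow : ∀ p : ℕ, p.Prime → ¬ p ∣ L → ∀ r : ℕ, qCoeff ⇑g (p ^ r) = qCoeff ⇑f (p ^ r) := by
    intro p hp hpL r
    induction r using Nat.strong_induction_on with
    | _ r ih =>
      match r, ih with
      | 0, _ => rw [pow_zero, hf.qCoeff_one, hg.qCoeff_one]
      | 1, _ => rw [pow_one, h p hp hpL]
      | (r + 2), ih =>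
        rw [hf.qCoeff_prime_pow_of_not_dvd p r hp (fun hd => hpL (hd.trans h1)),
          hg.qCoeff_prime_pow_of_not_dvd p r hp (fun hd => hpL (hd.trans h2)),
          ih (r + 1) (by omega), ih r (by omega), h p hp hpL]
  intro n hn hn0
  induction n using Nat.recOnPosPrimePosCoprime with
  | prime_pow p r hp hr =>
    exact hpow p hp (fun hd => by
      have := Nat.dvd_gcd (dvd_pow_self p hr.ne') hd
      rw [hn] at this
      exact hp.one_lt.ne' (Nat.dvd_one.mp this)) r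
  | zero => exact absurd rfl hn0
  | one => rw [hf.qCoeff_one, hg.qCoeff_one]
  | coprime a b ha hb hab iha ihb =>
    rw [hf.qCoeff_mul_of_coprime a b hab, hg.qCoeff_mul_of_coprime a b hab,
      iha (Nat.Coprime.coprime_mul_right hn) (by omega),
      ihb (Nat.Coprime.coprime_mul_left hn) (by omega)]

/-- **The `U_q`-eigenvalue of a `q`-stabilisation.** If `F` (level `q N`, `q ∤ N`) and `g` (level
`M ∣ N`) are normalised eigenforms with the same eigenvalues away from `q N`, then the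
`U_q`-eigenvalue of `F` is a root of `X² - a_q(g) X + q`. -/
theorem quadratic_of_same_eigensystem (hq : q.Prime) (hN : N ≠ 0) (hqN : ¬ q ∣ N)
    (F : CuspForm (Gamma0 (q * N)) 2) (hF : F.IsNormalizedEigenform)
    (hMN : M ∣ N) (g : CuspForm (Gamma0 M) 2) (hg : g.IsNormalizedEigenform)
    (h : ∀ p : ℕ, p.Prime → ¬ p ∣ q * N → qCoeff ⇑g p = qCoeff ⇑F p) :
    qCoeff ⇑F q ^ 2 - qCoeff ⇑g q * qCoeff ⇑F q + q = 0 := by
  have hN0 : NeZero N := ⟨hN⟩
  have hqM : ¬ q ∣ M := fun h => hqN (h.trans hMN)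
  have heq := qCoeff_eq_of_coprime hF hg (L := q * N) dvd_rfl (hMN.mul_left q) h
  have hqcop : Nat.Coprime q N := (Nat.Prime.coprime_iff_not_dvd hq).mpr hqN
  obtain ⟨N', hN', hNN', hpN', hdep⟩ := exists_deplete (k := 2) N hN N hN
  have : NeZero N' := ⟨hN'⟩
  have : NeZero (q * N') := ⟨mul_ne_zero hq.ne_zero hN'⟩
  have hqN' : ¬ q ∣ N' := fun h1 => by
    rcases hpN' q hq h1 with h2 | h2 <;> exact hqN h2
  obtain ⟨F', hF'⟩ := hdep q hq.ne_zero F
  obtain ⟨g1, hg1⟩ := hdep 1 one_ne_zero (restr (1 * N) (by rwa [one_mul]) 2 g)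
  obtain ⟨g', hg'⟩ : ∃ g' : CuspForm (Gamma0 N') 2, ∀ n, qCoeff ⇑g' n =
      if n.Coprime N then qCoeff ⇑g n else 0 := by
    obtain ⟨g2, hg2⟩ := exists_level_cast (one_mul N') g1
    exact ⟨g2, fun n => by rw [hg2, hg1, coe_restr]⟩
  -- the difference is supported on multiples of `q`
  obtain ⟨u, hu, -⟩ := exists_of_support hq (rfl : q * N' = q * N')
    (F' - restr (q * N') (dvd_mul_left N' q) 2 g') (by
      intro n hn
      rw [qCoeff_sub, coe_restr, hF', hg']
      split_ifs with hc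
      · have hn0 : n ≠ 0 := fun h0 => hn (h0 ▸ dvd_zero q)
        rw [heq n (Nat.Coprime.mul_right ((Nat.Prime.coprime_iff_not_dvd hq).mpr hn).symm hc) hn0,
          sub_self]
      · rw [sub_self])
  have hu' : ∀ n, qCoeff ⇑u n = if n.Coprime N then qCoeff ⇑F (q * n) - qCoeff ⇑g (q * n)
      else 0 := by
    intro n
    rw [hu, qCoeff_sub, coe_restr, hF', hg']
    have : (q * n).Coprime N ↔ n.Coprime N := by
      rw [Nat.coprime_mul_iff_left]
      exact ⟨fun h => h.2, fun h => ⟨hqcop, h⟩⟩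
    simp only [this]
    split_ifs <;> simp
  -- `u = (a_q(F) - a_q(g)) g'`
  have hu0 : u - (qCoeff ⇑F q - qCoeff ⇑g q) • g' = 0 := by
    apply eq_zero_of_support hq hqN'
    intro n hn
    rw [qCoeff_sub, qCoeff_smul, hu', hg']
    split_ifs with hc
    · have hqn : q.Coprime n := (Nat.Prime.coprime_iff_not_dvd hq).mpr hn
      have hn0 : n ≠ 0 := fun h0 => hn (h0 ▸ dvd_zero q)
      rw [hF.qCoeff_mul_of_coprime q n hqn, hg.qCoeff_mul_of_coprime q n hqn,
        heq n (Nat.Coprime.mul_right hqn.symm hc) hn0]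
      ring
    · ring
  have h1 : qCoeff ⇑u q = (qCoeff ⇑F q - qCoeff ⇑g q) * qCoeff ⇑g' q := by
    rw [sub_eq_zero.mp hu0, qCoeff_smul]
  rw [hu', hg', if_pos hqcop, if_pos hqcop, ← pow_two] at h1
  have hF2 : qCoeff ⇑F (q ^ 2) = qCoeff ⇑F q ^ 2 := by
    have := hF.qCoeff_prime_pow_of_dvd q 0 hq (dvd_mul_right q N)
    rw [zero_add, zero_add, pow_one] at this
    rw [this, pow_two]
  have hg2 : qCoeff ⇑g (q ^ 2) = qCoeff ⇑g q ^ 2 - q := by
    have := hg.qCoeff_prime_pow_of_not_dvd q 0 hq hqM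
    rw [zero_add, zero_add, pow_one, pow_zero, hg.qCoeff_one, mul_one] at this
    rw [this, pow_two]
  rw [hF2, hg2] at h1
  linear_combination h1

/-- A normalised eigenform of level `q N` (`q ∤ N`) with `a_q² = 1` has the good eigensystem of a
newform `g` which is either new at `q` or satisfies `a_q(g) = ± (q + 1)`. -/
theorem newform_of_sq_eq_one (hq : q.Prime) (hN : N ≠ 0) (hqN : ¬ q ∣ N)
    (F : CuspForm (Gamma0 (q * N)) 2) (hF : F.IsNormalizedEigenform)
    (h1 : qCoeff ⇑F q ^ 2 = 1) :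
    ∃ M : ℕ, M ∣ q * N ∧ 0 < M ∧ ∃ g : CuspForm (Gamma0 M) 2, g.IsNewform ∧
      (∀ ℓ : ℕ, ℓ.Prime → ¬ ℓ ∣ q * N → qCoeff ⇑g ℓ = qCoeff ⇑F ℓ) ∧
      (q ∣ M ∨ (¬ q ∣ M ∧ qCoeff ⇑g q = qCoeff ⇑F q * (q + 1))) := by
  obtain ⟨M, hM, hM0, g, hg, hgF⟩ := exists_newform (Nat.pos_of_ne_zero
    (mul_ne_zero hq.ne_zero hN)) F hF
  refine ⟨M, hM, hM0, g, hg, hgF, ?_⟩
  by_cases hqM : q ∣ M
  · exact Or.inl hqM
  · right
    refine ⟨hqM, ?_⟩
    have hcop : Nat.Coprime M q := ((Nat.Prime.coprime_iff_not_dvd hq).mpr hqM).symm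
    have hMN : M ∣ N := hcop.dvd_of_dvd_mul_left hM
    have := quadratic_of_same_eigensystem hq hN hqN F hF hMN g hg.1 hgF
    linear_combination (-(qCoeff ⇑F q)) * this + (qCoeff ⇑F q - qCoeff ⇑g q) * h1

end Fermat.Agent.RTE

end
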