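import Fermat.Agent.RTE.LiftChar
import Fermat.Agent.RTE.Deplete
import Fermat.Agent.Cofaith.Span
import Fermat.Agent.S35_Separate
import Fermat.Agent.S35_CharEigen
import Fermat.Agent.S29_reduction
import Fermat.Agent.S41.DualComm

/-!
# The `q`-new part of the parabolic cohomology of `Γ₀(M q)`
-/

set_option autoImplicit false
set_option linter.style.haveILetI false

noncomputable section

open CongruenceSubgroup ModularCurve ModularCurve.Period Polynomial IsLocalRing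

namespace Fermat.Agent.RTE

open Fermat.Agent.HeckePar Fermat.Agent.GalRep Fermat.Agent.S41dual Fermat.Agent.Cofaith

section New

variable {M q : ℕ} [hq : Fact q.Prime] (hc : Nat.Coprime q M)

/-- The parabolic homomorphisms on `Γ₀(M q)` killed by the two traces to `Γ₀(M)`. -/
def newHoms (A : Type*) [AddCommGroup A] : Submodule ℤ (Additive (Gamma0 (M * q)) →+ A) where
  carrier := {y | IsParabolicHom (Gamma0 (M * q)) y ∧ trA hc A y = 0 ∧ trB hc A y = 0}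
  zero_mem' := ⟨fun _ _ => rfl, map_zero _, map_zero _⟩
  add_mem' := by
    rintro x y ⟨h1, h2, h3⟩ ⟨h4, h5, h6⟩
    refine ⟨fun γ hγ => ?_, by rw [map_add, h2, h5, add_zero], by rw [map_add, h3, h6, add_zero]⟩
    rw [AddMonoidHom.add_apply, h1 γ hγ, h4 γ hγ, add_zero]
  smul_mem' := by
    rintro n x ⟨h1, h2, h3⟩
    refine ⟨fun γ hγ => ?_, by rw [map_zsmul, h2, smul_zero], by rw [map_zsmul, h3, smul_zero]⟩
    show n • x _ = 0
    rw [h1 γ hγ, smul_zero]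

theorem mem_newHoms {A : Type*} [AddCommGroup A] {y : Additive (Gamma0 (M * q)) →+ A} :
    y ∈ newHoms hc A ↔
      IsParabolicHom (Gamma0 (M * q)) y ∧ trA hc A y = 0 ∧ trB hc A y = 0 := Iff.rfl

variable {A : Type*} [AddCommGroup A]

theorem tr_opPrime (ℓ : Nat.Primes) (h : (ℓ : ℕ) = q ∨ ¬ (ℓ : ℕ) ∣ M * q)
    {x : Additive (Gamma0 (M * q)) →+ A} (h2 : trA hc A x = 0) (h3 : trB hc A x = 0) :
    trA hc A (opPrime (M * q) A ℓ x) = 0 ∧ trB hc A (opPrime (M * q) A ℓ x) = 0 := by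
  haveI : Fact (ℓ : ℕ).Prime := ⟨ℓ.2⟩
  rw [opPrime_apply]
  rcases h with h | h
  · obtain rfl : ℓ = ⟨q, hq.out⟩ := Subtype.ext h
    exact ⟨trA_heckeU hc x h3, trB_heckeU hc x h2 h3⟩
  · exact ⟨by rw [hecke_trA hc h, h2, map_zero], by rw [hecke_trB hc h, h3, map_zero]⟩

variable [IsAddTorsionFree A]

theorem parEval_mem_newHoms (S : Set ℕ) (hS : ∀ r : ℕ, r.Prime → r ∣ M → r ∈ S)
    (t : HeckeAlgS S) {y : Additive (Gamma0 (M * q)) →+ A} (hy : y ∈ newHoms hc A) :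
    parEval (M * q) S A t y ∈ newHoms hc A := by
  refine commEval_mem (opHom (M * q) S A) (opHom_commute S) (newHoms hc A).toAddSubgroup
    (fun ℓ x hx => ?_) t y hy
  obtain ⟨h1, h2, h3⟩ := hx
  have h : (ℓ.1 : ℕ) = q ∨ ¬ (ℓ.1 : ℕ) ∣ M * q := by
    by_cases hℓq : (ℓ.1 : ℕ) = q
    · exact Or.inl hℓq
    · refine Or.inr fun hdvd => ?_
      rcases (Nat.Prime.dvd_mul ℓ.1.2).mp hdvd with h | h
      · exact ℓ.2 (hS _ ℓ.1.2 h)
      · exact hℓq ((Nat.prime_dvd_prime_iff_eq ℓ.1.2 hq.out).mp h)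
  exact ⟨isParabolicHom_opHom ℓ h1, tr_opPrime hc ℓ.1 h h2 h3⟩

omit [IsAddTorsionFree A] in
/-- `U_q² = 1` on the new part. -/
theorem parEval_X_sq {S : Set ℕ} (hqS : q ∉ S)
    {y : Additive (Gamma0 (M * q)) →+ A} (hy : y ∈ newHoms hc A) :
    parEval (M * q) S A ((MvPolynomial.X ⟨⟨q, hq.out⟩, hqS⟩ : HeckeAlgS S) ^ 2 - 1) y = 0 := by
  obtain ⟨h1, h2, h3⟩ := hy
  rw [map_sub, map_pow, map_one, LinearMap.sub_apply, sub_eq_zero, pow_two, Module.End.mul_apply,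
    parEval_X, parEval_X]
  exact heckeU_heckeU hc y h2 h3

end New

/-- The frozen statement S35 as a proposition. -/
def Stmt35 : Prop :=
  ∀ {M : ℕ} [NeZero M] {g : CuspForm (CongruenceSubgroup.Gamma0 M) 2} (_ : g.IsNewform)
    (lam : ℕ) [Fact lam.Prime]
    (S : Finset ℕ)
    (O' : Type) [CommRing O'] [IsDomain O'] [IsDiscreteValuationRing O']
    [IsAdicComplete (IsLocalRing.maximalIdeal O') O'] [Finite (IsLocalRing.ResidueField O')]
    [CharZero O'] (_ : (lam : O') ∈ IsLocalRing.maximalIdeal O')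
    (chig : CuspForm.heckeAlgebra M 2 (↑S : Set ℕ) →+* ℂ)
    (_ : ∀ (ℓ : ℕ) (hℓ : ℓ.Prime) (hℓM : ¬ ℓ ∣ M) (hℓS : ℓ ∉ (↑S : Set ℕ)),
      chig (CuspForm.heckeAlgebra.T hℓ hℓM hℓS) = ModularFormClass.qCoeff g ℓ)
    (iota : chig.range →+* O')
    (_ : lam ∈ S) (_ : ∀ q : ℕ, q.Prime → q ∣ M → q ∈ S),
    ∃ (O'' : Type) (_ : CommRing O'') (_ : IsDomain O'') (_ : IsDiscreteValuationRing O'')
      (_ : IsAdicComplete (IsLocalRing.maximalIdeal O'') O'')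
      (_ : Finite (IsLocalRing.ResidueField O''))
      (_ : CharZero O'') (_ : Algebra O' O'') (_ : Module.Finite O' O'')
      (_ : IsLocalHom (algebraMap O' O'')),
      Function.Injective (algebraMap O' O'') ∧
      ∃ ρ : GaloisRepAdic O'',
        (∀ (ℓ : ℕ) (hℓ : ℓ.Prime) (hℓM : ¬ ℓ ∣ M) (hℓS : ℓ ∉ (↑S : Set ℕ)),
          ∀ A : ValuationSubring (AlgebraicClosure ℚ), A.LiesOverPrime ℓ →
            ∀ σ : AlgebraicClosure ℚ ≃ₐ[ℚ] AlgebraicClosure ℚ, A.IsFrobeniusAt σ ℓ →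
              LinearMap.charpoly (ρ.ρ σ) =
                X ^ 2 - C (algebraMap O' O'' ((iota.comp chig.rangeRestrict)
                  (CuspForm.heckeAlgebra.T hℓ hℓM hℓS))) * X + C ((ℓ : O''))) ∧
        (∀ q : ℕ, q.Prime → q ≠ lam → q ∣ M → ¬ q ^ 2 ∣ M →
          ∀ A : ValuationSubring (AlgebraicClosure ℚ), A.LiesOverPrime q →
            ∀ σ : AlgebraicClosure ℚ ≃ₐ[ℚ] AlgebraicClosure ℚ, A.IsFrobeniusAt σ q →
              LinearMap.charpoly (ρ.ρ σ) = X ^ 2 - C ((q : O'') + 1) * X + C ((q : O'')) ∨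
              LinearMap.charpoly (ρ.ρ σ) = X ^ 2 + C ((q : O'') + 1) * X + C ((q : O'')))

/-- the operator attached to a variable -/
theorem evS_X_eq {N : ℕ} [NeZero N] (S : Set ℕ) (ℓ : {ℓ : Nat.Primes // (ℓ : ℕ) ∉ S}) :
    ((evS N S (MvPolynomial.X ℓ) : CuspForm.heckeAlgebra N 2 S) : Module.End ℂ _) =
      FermatAgent.HeckeEigen.heckeOp N 2 ℓ.1 := by
  rw [evS, MvPolynomial.aeval_X, genS]
  by_cases h : (ℓ.1 : ℕ) ∣ N
  · rw [dif_pos h, FermatAgent.HeckeEigen.heckeOp_of_dvd h]; rfl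
  · rw [dif_neg h, FermatAgent.HeckeEigen.heckeOp_of_not_dvd h]; rfl

/-- A character of the Hecke polynomials which factors through the Hecke algebra of cusp forms
comes from a normalised eigenform. -/
theorem exists_eigenform_of_char {N : ℕ} [NeZero N] (S : Set ℕ) (χ : HeckeAlgS S →+* ℂ)
    (hχ : ∀ t, evS N S t = 0 → χ t = 0) :
    ∃ F : CuspForm (Gamma0 N) 2, F.IsNormalizedEigenform ∧
      ∀ ℓ : {ℓ : Nat.Primes // (ℓ : ℕ) ∉ S},
        ModularFormClass.qCoeff ⇑F (ℓ.1 : ℕ) = χ (MvPolynomial.X ℓ) := by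
  classical
  let χ' : CuspForm.heckeAlgebra N 2 S →+* ℂ :=
    RingHom.liftOfSurjective (evS N S : HeckeAlgS S →+* CuspForm.heckeAlgebra N 2 S)
      (S35aux.evS_surjective N S) ⟨χ, fun t ht => hχ t ht⟩
  have hχ' : ∀ t, χ' (evS N S t) = χ t := fun t =>
    RingHom.liftOfRightInverse_comp_apply _ _ _ _ t
  obtain ⟨v, hv0, hv⟩ := S35aux.exists_cuspForm_of_char N S χ'
  obtain ⟨F, hF, hFa⟩ := Oldforms.exists_eigenform_of_joint (N := N)
    {ℓ : Nat.Primes | (ℓ : ℕ) ∉ S}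
    (fun ℓ => if h : (ℓ : ℕ) ∉ S then χ (MvPolynomial.X ⟨ℓ, h⟩) else 0) v hv0
    (fun ℓ (hℓ : (ℓ : ℕ) ∉ S) => by
      rw [dif_pos hℓ, ← hχ', ← hv, evS_X_eq])
  refine ⟨F, hF, fun ℓ => ?_⟩
  have := hFa ℓ.1 ℓ.2
  rw [dif_pos ℓ.2] at this
  exact this

theorem mem_of_forall_X {σ R : Type*} [CommRing R] (f : MvPolynomial σ ℤ →+* R) (T : Subring R)
    (h : ∀ i, f (MvPolynomial.X i) ∈ T) (t : MvPolynomial σ ℤ) : f t ∈ T := by
  induction t using MvPolynomial.induction_on with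
  | C a =>
    rw [← MvPolynomial.algebraMap_eq, eq_intCast, map_intCast]
    exact intCast_mem T a
  | add p q hp hq => rw [map_add]; exact add_mem hp hq
  | mul_X p i hp => rw [map_mul]; exact mul_mem hp (h i)

/-- the range of a character of the Hecke algebra is generated by the eigenvalues -/
theorem range_le_of_T {N : ℕ} [NeZero N] (S : Set ℕ) (hNS : ∀ r : ℕ, r.Prime → r ∣ N → r ∈ S)
    (chi : CuspForm.heckeAlgebra N 2 S →+* ℂ) (T : Subring ℂ)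
    (h : ∀ (ℓ : ℕ) (hℓ : ℓ.Prime) (hℓN : ¬ ℓ ∣ N) (hℓS : ℓ ∉ S),
      chi (CuspForm.heckeAlgebra.T hℓ hℓN hℓS) ∈ T) : chi.range ≤ T := by
  rintro _ ⟨x, rfl⟩
  obtain ⟨t, rfl⟩ := S35aux.evS_surjective N S x
  refine mem_of_forall_X (chi.comp (evS N S : HeckeAlgS S →+* CuspForm.heckeAlgebra N 2 S)) T
    (fun i => ?_) t
  have hi : ¬ (i.1 : ℕ) ∣ N := fun hd => i.2 (hNS _ i.1.2 hd)
  show chi (evS N S (MvPolynomial.X i)) ∈ T
  rw [evS_X_of_not_dvd N S i hi]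
  exact h _ _ _ _

/-- **Galois representations and `a_q² = 1`.**  A normalised eigenform `F` of level `M q` with
`a_q(F)² = 1` has a Galois representation whose Frobenius elements at `q` have characteristic
polynomial `(X ∓ 1)(X ∓ q)`. -/
theorem exists_rep_of_eigenform (h35 : Stmt35) {M q : ℕ} [NeZero M] [hq : Fact q.Prime]
    (hc : Nat.Coprime q M) (p : ℕ) [Fact p.Prime] (hpq : q ≠ p) (S₁ : Finset ℕ) (hpS : p ∈ S₁)
    (hqS : q ∉ S₁) (hMS : ∀ r : ℕ, r.Prime → r ∣ M → r ∈ S₁)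
    (χ : HeckeAlgS (↑S₁ : Set ℕ) →+* ℂ)
    (F : CuspForm (Gamma0 (M * q)) 2) (hF : F.IsNormalizedEigenform)
    (hFa : ∀ ℓ : {ℓ : Nat.Primes // (ℓ : ℕ) ∉ (↑S₁ : Set ℕ)},
        ModularFormClass.qCoeff ⇑F (ℓ.1 : ℕ) = χ (MvPolynomial.X ℓ))
    (hFq : ModularFormClass.qCoeff ⇑F q ^ 2 = 1)
    (O' : Type) [CommRing O'] [IsDomain O'] [IsDiscreteValuationRing O']
    [IsAdicComplete (maximalIdeal O') O'] [Finite (ResidueField O')]
    [CharZero O'] (hpO : (p : O') ∈ maximalIdeal O') (r : χ.range →+* O') :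
    ∃ (O'' : Type) (_ : CommRing O'') (_ : IsDomain O'') (_ : IsDiscreteValuationRing O'')
      (_ : IsAdicComplete (maximalIdeal O'') O'') (_ : Finite (ResidueField O''))
      (_ : CharZero O'') (_ : Algebra O' O'') (_ : Module.Finite O' O'')
      (_ : IsLocalHom (algebraMap O' O'')),
      Function.Injective (algebraMap O' O'') ∧
      ∃ ρ : GaloisRepAdic O'',
        (∀ ℓ : {ℓ : Nat.Primes // (ℓ : ℕ) ∉ (↑S₁ : Set ℕ)}, (ℓ.1 : ℕ) ≠ q →
          ∀ A : ValuationSubring (AlgebraicClosure ℚ), A.LiesOverPrime (ℓ.1 : ℕ) →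
            ∀ σ : AlgebraicClosure ℚ ≃ₐ[ℚ] AlgebraicClosure ℚ, A.IsFrobeniusAt σ (ℓ.1 : ℕ) →
              LinearMap.charpoly (ρ.ρ σ) =
                X ^ 2 - C (algebraMap O' O'' (r (χ.rangeRestrict (MvPolynomial.X ℓ)))) * X
                  + C (((ℓ.1 : ℕ) : O''))) ∧
        (∀ A : ValuationSubring (AlgebraicClosure ℚ), A.LiesOverPrime q →
            ∀ σ : AlgebraicClosure ℚ ≃ₐ[ℚ] AlgebraicClosure ℚ, A.IsFrobeniusAt σ q →
              LinearMap.charpoly (ρ.ρ σ) = X ^ 2 - C ((q : O'') + 1) * X + C ((q : O'')) ∨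
              LinearMap.charpoly (ρ.ρ σ) = X ^ 2 + C ((q : O'') + 1) * X + C ((q : O''))) := by
  classical
  have hqP : q.Prime := hq.out
  have hqM : ¬ q ∣ M := (Nat.Prime.coprime_iff_not_dvd hqP).mp hc
  haveI : NeZero (M * q) := ⟨mul_ne_zero (NeZero.ne M) hqP.ne_zero⟩
  set Xq : HeckeAlgS (↑S₁ : Set ℕ) := MvPolynomial.X ⟨⟨q, hqP⟩, hqS⟩ with hXq
  have hsq : χ Xq ^ 2 = 1 := by
    rw [← hFa ⟨⟨q, hqP⟩, hqS⟩, hFq]
  -- the newform
  have key : ∀ L : ℕ, L = q * M → ∀ F : CuspForm (Gamma0 L) 2, F.IsNormalizedEigenform →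
      ModularFormClass.qCoeff ⇑F q ^ 2 = 1 →
      ∃ M' : ℕ, M' ∣ q * M ∧ 0 < M' ∧ ∃ g : CuspForm (Gamma0 M') 2, g.IsNewform ∧
      (∀ ℓ : ℕ, ℓ.Prime → ¬ ℓ ∣ q * M →
        ModularFormClass.qCoeff ⇑g ℓ = ModularFormClass.qCoeff ⇑F ℓ) ∧
      (q ∣ M' ∨ (¬ q ∣ M' ∧
        ModularFormClass.qCoeff ⇑g q = ModularFormClass.qCoeff ⇑F q * (q + 1))) := by
    rintro _ rfl F hF h1
    exact newform_of_sq_eq_one hqP (NeZero.ne M) hqM F hF h1
  obtain ⟨M', hM', hM'0, g, hg, hgF, hcase⟩ := key (M * q) (mul_comm M q) F hF hFq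
  haveI : NeZero M' := ⟨hM'0.ne'⟩
  have hgχ : ∀ ℓ : {ℓ : Nat.Primes // (ℓ : ℕ) ∉ (↑S₁ : Set ℕ)}, (ℓ.1 : ℕ) ≠ q →
      ModularFormClass.qCoeff ⇑g (ℓ.1 : ℕ) = χ (MvPolynomial.X ℓ) := by
    intro ℓ hℓq
    rw [hgF _ ℓ.1.2, hFa]
    intro hd
    rcases (Nat.Prime.dvd_mul ℓ.1.2).mp hd with h | h
    · exact hℓq ((Nat.prime_dvd_prime_iff_eq ℓ.1.2 hqP).mp h)
    · exact ℓ.2 (hMS _ ℓ.1.2 h)
  rcases hcase with hqM' | ⟨hqM', hgq⟩
  · -- the case `q ∣ M'`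
    set S : Finset ℕ := insert q S₁ with hS
    have hMS' : ∀ r : ℕ, r.Prime → r ∣ M' → r ∈ S := by
      intro r hr hrM
      rcases (Nat.Prime.dvd_mul hr).mp (hrM.trans hM') with h | h
      · rw [(Nat.prime_dvd_prime_iff_eq hr hqP).mp h]
        exact Finset.mem_insert_self _ _
      · exact Finset.mem_insert_of_mem (hMS r hr h)
    set chig := S29aux.eigenChar hg.1 (↑S : Set ℕ) with hchig
    have hT : ∀ (ℓ : ℕ) (hℓ : ℓ.Prime) (hℓM : ¬ ℓ ∣ M') (hℓS : ℓ ∉ (↑S : Set ℕ)),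
        chig (CuspForm.heckeAlgebra.T hℓ hℓM hℓS) = ModularFormClass.qCoeff g ℓ :=
      fun ℓ hℓ hℓM hℓS => S29aux.eigenChar_T hg.1 _ hℓ hℓM hℓS
    have hle : chig.range ≤ χ.range := by
      refine range_le_of_T _ hMS' chig _ fun ℓ hℓ hℓM hℓS => ?_
      have h1 : ℓ ∉ (↑S₁ : Set ℕ) := fun h => hℓS (Finset.mem_insert_of_mem h)
      have h2 : ℓ ≠ q := by
        rintro rfl
        exact hℓS (Finset.mem_insert_self _ _)
      rw [hT, hgχ ⟨⟨ℓ, hℓ⟩, h1⟩ h2]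
      exact ⟨_, rfl⟩
    obtain ⟨O'', i1, i2, i3, i4, i5, i6, i7, i8, i9, hinj, ρ, hρ, hρq⟩ :=
      h35 hg p S O' hpO chig hT (r.comp (Subring.inclusion hle))
        (Finset.mem_insert_of_mem hpS) hMS'
    refine ⟨O'', i1, i2, i3, i4, i5, i6, i7, i8, i9, hinj, ρ, ?_, ?_⟩
    · intro ℓ hℓq A hA σ hσ
      have hℓS : (ℓ.1 : ℕ) ∉ (↑S : Set ℕ) := by
        intro h
        rcases Finset.mem_insert.mp h with h | h
        · exact hℓq h
        · exact ℓ.2 h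
      have hℓM : ¬ (ℓ.1 : ℕ) ∣ M' := fun h => hℓS (hMS' _ ℓ.1.2 h)
      rw [hρ ℓ.1 ℓ.1.2 hℓM hℓS A hA σ hσ]
      have h1 : Subring.inclusion hle (chig.rangeRestrict
          (CuspForm.heckeAlgebra.T ℓ.1.2 hℓM hℓS)) = χ.rangeRestrict (MvPolynomial.X ℓ) :=
        Subtype.ext ((hT ℓ.1 ℓ.1.2 hℓM hℓS).trans (hgχ ℓ hℓq))
      have h2 : ((r.comp (Subring.inclusion hle)).comp chig.rangeRestrict)
          (CuspForm.heckeAlgebra.T ℓ.1.2 hℓM hℓS) = r (χ.rangeRestrict (MvPolynomial.X ℓ)) :=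
        congrArg r h1
      rw [h2]
    · refine hρq q hqP hpq hqM' fun h => ?_
      have h1 : q * q ∣ q * M := (pow_two q ▸ h).trans hM'
      exact hqM (Nat.dvd_of_mul_dvd_mul_left hqP.pos h1)
  · -- the case `q ∤ M'`
    have hMS' : ∀ r : ℕ, r.Prime → r ∣ M' → r ∈ S₁ := by
      intro r hr hrM
      rcases (Nat.Prime.dvd_mul hr).mp (hrM.trans hM') with h | h
      · rw [(Nat.prime_dvd_prime_iff_eq hr hqP).mp h] at hrM
        exact absurd hrM hqM'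
      · exact hMS r hr h
    set chig := S29aux.eigenChar hg.1 (↑S₁ : Set ℕ) with hchig
    have hT : ∀ (ℓ : ℕ) (hℓ : ℓ.Prime) (hℓM : ¬ ℓ ∣ M') (hℓS : ℓ ∉ (↑S₁ : Set ℕ)),
        chig (CuspForm.heckeAlgebra.T hℓ hℓM hℓS) = ModularFormClass.qCoeff g ℓ :=
      fun ℓ hℓ hℓM hℓS => S29aux.eigenChar_T hg.1 _ hℓ hℓM hℓS
    have hgq' : ModularFormClass.qCoeff ⇑g q = χ Xq * (q + 1) := by
      rw [hgq, hFa ⟨⟨q, hqP⟩, hqS⟩]
    have hgq'' : χ Xq * (q + 1) ∈ χ.range := ⟨Xq * (q + 1), by simp⟩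
    have hle : chig.range ≤ χ.range := by
      refine range_le_of_T _ hMS' chig _ fun ℓ hℓ hℓM hℓS => ?_
      rw [hT]
      by_cases h2 : ℓ = q
      · subst h2
        rw [hgq']
        exact hgq''
      · rw [hgχ ⟨⟨ℓ, hℓ⟩, hℓS⟩ h2]
        exact ⟨_, rfl⟩
    obtain ⟨O'', i1, i2, i3, i4, i5, i6, i7, i8, i9, hinj, ρ, hρ, -⟩ :=
      h35 hg p S₁ O' hpO chig hT (r.comp (Subring.inclusion hle)) hpS hMS'
    refine ⟨O'', i1, i2, i3, i4, i5, i6, i7, i8, i9, hinj, ρ, ?_, ?_⟩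
    · intro ℓ hℓq A hA σ hσ
      have hℓM : ¬ (ℓ.1 : ℕ) ∣ M' := fun h => ℓ.2 (hMS' _ ℓ.1.2 h)
      rw [hρ ℓ.1 ℓ.1.2 hℓM ℓ.2 A hA σ hσ]
      have h1 : Subring.inclusion hle (chig.rangeRestrict
          (CuspForm.heckeAlgebra.T ℓ.1.2 hℓM ℓ.2)) = χ.rangeRestrict (MvPolynomial.X ℓ) :=
        Subtype.ext ((hT ℓ.1 ℓ.1.2 hℓM ℓ.2).trans (hgχ ℓ hℓq))
      have h2 : ((r.comp (Subring.inclusion hle)).comp chig.rangeRestrict)
          (CuspForm.heckeAlgebra.T ℓ.1.2 hℓM ℓ.2) = r (χ.rangeRestrict (MvPolynomial.X ℓ)) :=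
        congrArg r h1
      rw [h2]
    · intro A hA σ hσ
      rw [hρ q hqP hqM' hqS A hA σ hσ]
      have h1 : Subring.inclusion hle (chig.rangeRestrict
          (CuspForm.heckeAlgebra.T hqP hqM' hqS)) = χ.rangeRestrict (Xq * (q + 1)) := by
        refine Subtype.ext ((hT q hqP hqM' hqS).trans (hgq'.trans ?_))
        show _ = χ (Xq * (q + 1))
        simp
      have h2 : ((r.comp (Subring.inclusion hle)).comp chig.rangeRestrict)
          (CuspForm.heckeAlgebra.T hqP hqM' hqS) = r (χ.rangeRestrict Xq) * (q + 1) := by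
        refine (congrArg r h1).trans ?_
        simp
      have h3 : r (χ.rangeRestrict Xq) ^ 2 = 1 := by
        rw [← map_pow]
        have : χ.rangeRestrict Xq ^ 2 = 1 := Subtype.ext hsq
        rw [this, map_one]
      rw [h2]
      have h4 : (r (χ.rangeRestrict Xq) - 1) * (r (χ.rangeRestrict Xq) + 1) = 0 := by
        linear_combination h3
      rcases mul_eq_zero.mp h4 with h | h
      · left
        rw [sub_eq_zero.mp h, one_mul, map_add, map_natCast, map_one]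
      · right
        rw [eq_neg_of_add_eq_zero_left h, neg_one_mul, map_neg, map_add, map_natCast, map_one,
          map_neg, neg_mul, sub_neg_eq_add]

/-- A `q`-new part of the lattice of parabolic homomorphisms on `Γ₀(M q)`: a Hecke stable
submodule on which `U_q² = 1`. -/
structure IsNewPart (M q : ℕ) [hq : Fact q.Prime] (S : Set ℕ) (hqS : q ∉ S)
    (V : Submodule ℤ (Additive (Gamma0 (M * q)) →+ ℤ)) : Prop where
  par : ∀ y ∈ V, IsParabolicHom (Gamma0 (M * q)) y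
  stable : ∀ t : HeckeAlgS S, ∀ y ∈ V, parEval (M * q) S ℤ t y ∈ V
  sq : ∀ y ∈ V,
    parEval (M * q) S ℤ ((MvPolynomial.X ⟨⟨q, hq.out⟩, hqS⟩ : HeckeAlgS S) ^ 2 - 1) y = 0

theorem isNewPart_newHoms {M q : ℕ} [hq : Fact q.Prime] (hc : Nat.Coprime q M) (S : Set ℕ)
    (hqS : q ∉ S) (hS : ∀ r : ℕ, r.Prime → r ∣ M → r ∈ S) :
    IsNewPart M q S hqS (newHoms hc ℤ) where
  par _ hy := hy.1
  stable t _ hy := parEval_mem_newHoms hc S hS t hy
  sq _ hy := parEval_X_sq hc hqS hy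

/-- A character of the Hecke polynomials which occurs in a `q`-new part of the parabolic cohomology
of `Γ₀(M q)` is the eigensystem of a normalised eigenform with `a_q² = 1`. -/
theorem exists_eigenform_of_new {M q : ℕ} [NeZero M] [hq : Fact q.Prime]
    (S₁ : Set ℕ) (hqS : q ∉ S₁) {V : Submodule ℤ (Additive (Gamma0 (M * q)) →+ ℤ)}
    (hV : IsNewPart M q S₁ hqS V) (χ : HeckeAlgS S₁ →+* ℂ)
    (hχ : ∀ t, (∀ y ∈ V, parEval (M * q) _ ℤ t y = 0) → χ t = 0) :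
    ∃ F : CuspForm (Gamma0 (M * q)) 2, F.IsNormalizedEigenform ∧
      (∀ ℓ : {ℓ : Nat.Primes // (ℓ : ℕ) ∉ S₁},
        ModularFormClass.qCoeff ⇑F (ℓ.1 : ℕ) = χ (MvPolynomial.X ℓ)) ∧
      ModularFormClass.qCoeff ⇑F q ^ 2 = 1 := by
  haveI : NeZero (M * q) := ⟨mul_ne_zero (NeZero.ne M) hq.out.ne_zero⟩
  set Xq : HeckeAlgS S₁ := MvPolynomial.X ⟨⟨q, hq.out⟩, hqS⟩ with hXq
  have hsq : χ Xq ^ 2 = 1 := by
    have := hχ (Xq ^ 2 - 1) (fun y hy => hV.sq y hy)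
    rw [map_sub, map_pow, map_one] at this
    exact sub_eq_zero.mp this
  obtain ⟨F, hF, hFa⟩ := exists_eigenform_of_char (N := M * q) S₁ χ (fun t ht =>
    hχ t fun y hy => parEval_eq_zero (N := M * q) _ t ht (hV.par y hy))
  exact ⟨F, hF, hFa, by rw [hFa ⟨⟨q, hq.out⟩, hqS⟩, hsq]⟩

end Fermat.Agent.RTE

end
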