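import Fermat.Agent.RTE.Bridge

/-!
# Independence of the `𝔪`-part of the set of omitted primes
-/

set_option autoImplicit false
set_option linter.style.haveILetI false

noncomputable section

open CongruenceSubgroup ModularCurve ModularCurve.Period Polynomial IsLocalRing

namespace Fermat.Agent.RTE

open Fermat.Agent.TwExact Fermat.Agent.TwHecke Fermat.Agent.GalRep Fermat.Agent.HeckePar

/-! ### Commutative algebra -/

/-- Let `A → B` be integral, `ev : A → k` a surjection on a field such that everything outside the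
kernel becomes a unit in `B`. Then every non-unit of `B` is in the kernel of an extension of
`ev` to an algebraically closed field. -/
theorem exists_char_of_not_isUnit {A B k K : Type*} [CommRing A] [CommRing B] [Algebra A B]
    [Algebra.IsIntegral A B] [Field k] [Field K] [IsAlgClosed K] (ev : A →+* k)
    (hev : Function.Surjective ev) (h : ∀ a, ev a ≠ 0 → IsUnit (algebraMap A B a))
    (ι : k →+* K) {E : B} (hE : ¬ IsUnit E) :
    ∃ ψ : B →+* K, ψ E = 0 ∧ ∀ a, ψ (algebraMap A B a) = ι (ev a) := by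
  obtain ⟨𝔑, h𝔑, hE𝔑⟩ := exists_max_ideal_of_mem_nonunits (a := E) hE
  have hmax : (𝔑.comap (algebraMap A B)).IsMaximal := Ideal.isMaximal_comap_of_isIntegral_of_isMaximal 𝔑
  set 𝔮 : Ideal A := 𝔑.comap (algebraMap A B) with h𝔮
  have hle : 𝔮 ≤ RingHom.ker ev := by
    intro a ha
    by_contra hne
    exact h𝔑.ne_top (Ideal.eq_top_of_isUnit_mem 𝔑 ha (h a hne))
  have heq : 𝔮 = RingHom.ker ev := hmax.eq_of_le (RingHom.ker_isMaximal_of_surjective ev hev).ne_top hle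
  letI : Algebra (A ⧸ 𝔮) (B ⧸ 𝔑) := (Ideal.quotientMap 𝔑 (algebraMap A B) le_rfl).toAlgebra
  have hmap : ∀ a : A, algebraMap (A ⧸ 𝔮) (B ⧸ 𝔑) (Ideal.Quotient.mk 𝔮 a) =
      Ideal.Quotient.mk 𝔑 (algebraMap A B a) := fun a => Ideal.quotientMap_mk
  have hinj' : Function.Injective (algebraMap (A ⧸ 𝔮) (B ⧸ 𝔑)) :=
    Ideal.quotientMap_injective
  haveI : Algebra.IsIntegral (A ⧸ 𝔮) (B ⧸ 𝔑) := ⟨fun x => by
    obtain ⟨b, rfl⟩ := Ideal.Quotient.mk_surjective x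
    obtain ⟨f, hf, hfb⟩ := Algebra.IsIntegral.isIntegral (R := A) b
    refine ⟨f.map (Ideal.Quotient.mk 𝔮), hf.map _, ?_⟩
    rw [Polynomial.eval₂_map]
    have h1 : (algebraMap (A ⧸ 𝔮) (B ⧸ 𝔑)).comp (Ideal.Quotient.mk 𝔮) =
      (Ideal.Quotient.mk 𝔑).comp (algebraMap A B) := RingHom.ext hmap
    rw [h1, ← Polynomial.hom_eval₂, hfb, map_zero]⟩
  obtain ⟨ψ, hψ⟩ := exists_extend_of_isIntegral hinj'
    (Ideal.Quotient.lift 𝔮 (ι.comp ev) (fun a ha => by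
      have : ev a = 0 := hle ha
      rw [RingHom.comp_apply, this, map_zero]))
  refine ⟨ψ.comp (Ideal.Quotient.mk 𝔑), ?_, fun a => ?_⟩
  · rw [RingHom.comp_apply, Ideal.Quotient.eq_zero_iff_mem.mpr hE𝔑, map_zero]
  · rw [RingHom.comp_apply, ← hmap]
    exact (RingHom.congr_fun hψ _).trans (Ideal.Quotient.lift_mk 𝔮 _ _)

/-! ### Change of the set of omitted primes -/

section Change

variable {M : ℕ} {R : Type} [CommRing R] {A : Type} [AddCommGroup A] [Module R A]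
  {S₁ S : Set ℕ}

/-- inclusion of index sets -/
def idxIncl (h : S₁ ⊆ S) (ℓ : PIdx S) : PIdx S₁ := ⟨ℓ.1, fun hℓ => ℓ.2 (h hℓ)⟩

/-- inclusion of polynomial rings -/
def polyIncl (R : Type) [CommRing R] (h : S₁ ⊆ S) :
    MvPolynomial (PIdx S) R →ₐ[R] MvPolynomial (PIdx S₁) R :=
  MvPolynomial.rename (idxIncl h)

@[simp] theorem polyIncl_X (h : S₁ ⊆ S) (ℓ : PIdx S) :
    polyIncl R h (MvPolynomial.X ℓ) = MvPolynomial.X (idxIncl h ℓ) := MvPolynomial.rename_X _ _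

theorem cev_polyIncl (h : S₁ ⊆ S) (ε : (ZMod M)ˣ →* Rˣ) (t : MvPolynomial (PIdx S) R)
    (x : HM M ε A) : cev (hop M ε A S₁) (hop_commute M ε A S₁) (polyIncl R h t) x =
      cev (hop M ε A S) (hop_commute M ε A S) t x := by
  induction t using MvPolynomial.induction_on generalizing x with
  | C a => rw [← MvPolynomial.algebraMap_eq, AlgHom.commutes, AlgHom.commutes, AlgHom.commutes]
  | add p q hp hq => rw [map_add, map_add, map_add, LinearMap.add_apply, LinearMap.add_apply,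
      hp, hq]
  | mul_X p i hp =>
    rw [map_mul, map_mul, map_mul, Module.End.mul_apply, Module.End.mul_apply, polyIncl_X, cev_X,
      cev_X, hp]
    rfl

theorem evk_polyIncl [IsLocalRing R] (h : S₁ ⊆ S) (θ₁ : PIdx S₁ → ResidueField R)
    (t : MvPolynomial (PIdx S) R) :
    evk θ₁ (polyIncl R h t) = evk (fun ℓ => θ₁ (idxIncl h ℓ)) t := by
  induction t using MvPolynomial.induction_on with
  | C a => rw [polyIncl, MvPolynomial.rename_C, evk_C, evk_C]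
  | add p q hp hq => rw [map_add, map_add, map_add, hp, hq]
  | mul_X p i hp => rw [map_mul, map_mul, map_mul, polyIncl_X, evk_X, evk_X, hp]

/-- two ring homomorphisms on a polynomial ring -/
theorem evk_ext [IsLocalRing R] {θ : PIdx S → ResidueField R} {K : Type*} [CommRing K]
    (ι : ResidueField R →+* K) (ψ : MvPolynomial (PIdx S) R →+* K)
    (hC : ∀ r, ψ (MvPolynomial.C r) = ι (residue R r))
    (hX : ∀ ℓ, ψ (MvPolynomial.X ℓ) = ι (θ ℓ)) (t : MvPolynomial (PIdx S) R) :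
    ψ t = ι (evk θ t) := by
  induction t using MvPolynomial.induction_on with
  | C a => rw [hC, evk_C]
  | add p q hp hq => rw [map_add, map_add, map_add, hp, hq]
  | mul_X p i hp => rw [map_mul, map_mul, map_mul, hX, evk_X, hp]

end Change

section Main

variable {𝒪 : Type} [CommRing 𝒪] [IsLocalRing 𝒪]

theorem isUnit_natCast_of_ne {p : ℕ} (hp : p.Prime) (hp𝒪 : (p : 𝒪) ∈ maximalIdeal 𝒪) {ℓ : ℕ}
    (hℓ : ℓ.Prime) (hne : ℓ ≠ p) : IsUnit (ℓ : 𝒪) := by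
  by_contra h
  have h1 : (ℓ : 𝒪) ∈ maximalIdeal 𝒪 := (mem_maximalIdeal _).mpr h
  have hco : IsCoprime (ℓ : ℤ) (p : ℤ) :=
    Nat.isCoprime_iff_coprime.mpr ((Nat.coprime_primes hℓ hp).mpr hne)
  obtain ⟨a, b, hab⟩ := hco
  have h2 : ((a : ℤ) : 𝒪) * (ℓ : 𝒪) + ((b : ℤ) : 𝒪) * (p : 𝒪) = 1 := by
    have := congrArg (Int.cast : ℤ → 𝒪) hab
    push_cast at this
    exact this
  have h3 : (1 : 𝒪) ∈ maximalIdeal 𝒪 := by
    rw [← h2]
    exact Ideal.add_mem _ (Ideal.mul_mem_left _ _ h1) (Ideal.mul_mem_left _ _ hp𝒪)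
  exact (Ideal.ne_top_iff_one _).mp (IsLocalRing.maximalIdeal.isMaximal 𝒪).ne_top h3

variable [IsNoetherianRing 𝒪] [IsAdicComplete (maximalIdeal 𝒪) 𝒪] [IsAddTorsionFree 𝒪] {p : ℕ}
  [hp : Fact p.Prime]

/-- Polynomials in the `T_ℓ`, `ℓ ∉ S₁`, outside the maximal ideal act invertibly on the `𝔪`-part
for the smaller set of operators `T_ℓ`, `ℓ ∉ S`. -/
theorem exists_inverse (h30 : S29aux.S30Statement) {M : ℕ} [NeZero M] {S₁ S : Finset ℕ}
    (hS : (↑S₁ : Set ℕ) ⊆ ↑S) (hpS : p ∈ S₁) (hMS : ∀ r : ℕ, r.Prime → r ∣ M → r ∈ S₁)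
    (hp𝒪 : (p : 𝒪) ∈ maximalIdeal 𝒪) {ε : (ZMod M)ˣ →* 𝒪ˣ} (hε : ε = 1)
    {θ₁ : PIdx (↑S₁ : Set ℕ) → ResidueField 𝒪} (ρb : ResidualGaloisRep (ResidueField 𝒪))
    (hρ : ∀ ℓ : PIdx (↑S₁ : Set ℕ), HasFrob ρb (ℓ.1 : ℕ) (θ₁ ℓ))
    (hE : ∃ ℓ : PIdx (↑S : Set ℕ), (((ℓ.1 : ℕ) : ℕ) : ZMod M) = 1 ∧ Odd (ℓ.1 : ℕ) ∧
      θ₁ (idxIncl hS ℓ) ≠ ((ℓ.1 : ℕ) : ResidueField 𝒪) + 1)
    {t : MvPolynomial (PIdx (↑S₁ : Set ℕ)) 𝒪} (ht : evk θ₁ t ≠ 0) :
    ∃ u, ∀ x ∈ Hm M ε 𝒪 (↑S : Set ℕ) (fun ℓ => θ₁ (idxIncl hS ℓ)),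
      cev (hop M ε 𝒪 (↑S₁ : Set ℕ)) (hop_commute M ε 𝒪 _) (t * u) x = x := by
  classical
  set θ : PIdx (↑S : Set ℕ) → ResidueField 𝒪 := fun ℓ => θ₁ (idxIncl hS ℓ) with hθ
  set T₁ := hop M ε 𝒪 (↑S₁ : Set ℕ) with hT₁
  have hT₁c := hop_commute M ε 𝒪 (↑S₁ : Set ℕ)
  let P := MvPolynomial (PIdx (↑S₁ : Set ℕ)) 𝒪
  let PS := MvPolynomial (PIdx (↑S : Set ℕ)) 𝒪
  -- the annihilator of the `𝔪`-part
  let J : Ideal P :=
    { carrier := {t | ∀ x ∈ Hm M ε 𝒪 (↑S : Set ℕ) θ, cev T₁ hT₁c t x = 0}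
      add_mem' := fun {a b} ha hb x hx => by
        rw [map_add, LinearMap.add_apply, ha x hx, hb x hx, add_zero]
      zero_mem' := fun x _ => by rw [map_zero]; rfl
      smul_mem' := fun c a ha x hx => by
        rw [smul_eq_mul, map_mul, Module.End.mul_apply, ha x hx, map_zero] }
  have hJ : ∀ t : P, t ∈ J ↔ ∀ x ∈ Hm M ε 𝒪 (↑S : Set ℕ) θ, cev T₁ hT₁c t x = 0 := fun t => Iff.rfl
  let B := P ⧸ J
  let mkB : P →+* B := Ideal.Quotient.mk J
  -- finiteness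
  haveI := fg_Gamma0 M
  haveI : Module.Finite 𝒪 (HM M ε 𝒪) := finite_H1 _ _
  haveI hfin := finite_Eimg hT₁c 𝒪
  have hker : RingHom.ker (cev T₁ hT₁c) ≤ J := fun t ht x _ => by
    have : cev T₁ hT₁c t = 0 := ht
    rw [this]; rfl
  haveI : Module.Finite 𝒪 B := Module.Finite.of_surjective
    (Ideal.Quotient.factorₐ 𝒪 hker).toLinearMap (Ideal.Quotient.factor_surjective hker)
  letI : Algebra PS B := (mkB.comp (polyIncl 𝒪 hS : PS →+* P)).toAlgebra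
  have halg : ∀ s : PS, algebraMap PS B s = mkB (polyIncl 𝒪 hS s) := fun s => rfl
  haveI : Algebra.IsIntegral PS B := ⟨fun x => by
    obtain ⟨g, hg, hgx⟩ := Algebra.IsIntegral.isIntegral (R := 𝒪) x
    refine ⟨g.map (MvPolynomial.C), hg.map _, ?_⟩
    rw [Polynomial.eval₂_map, ← hgx]
    congr 1
    refine RingHom.ext fun r => ?_
    show mkB (polyIncl 𝒪 hS (MvPolynomial.C r)) = _
    rw [polyIncl, MvPolynomial.rename_C]
    rfl⟩
  have hunit : ∀ s : PS, evk θ s ≠ 0 → IsUnit (algebraMap PS B s) := by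
    intro s hs
    obtain ⟨e, he⟩ := exists_isIdem_Hm (M := M) (S := (↑S : Set ℕ)) 𝒪 ε θ
    obtain ⟨u, hu⟩ := he.inv s hs
    have h1 : polyIncl 𝒪 hS (s * u) - 1 ∈ J := by
      intro x hx
      rw [map_sub, map_one, LinearMap.sub_apply, cev_polyIncl, hu, he.mem_iff.mp hx]
      exact sub_self x
    have h2 : mkB (polyIncl 𝒪 hS s) * mkB (polyIncl 𝒪 hS u) = 1 := by
      rw [← map_mul, ← map_mul, ← sub_eq_zero, ← map_one mkB, ← map_sub]
      exact Ideal.Quotient.eq_zero_iff_mem.mpr h1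
    exact IsUnit.of_mul_eq_one _ h2
  -- it suffices that `t` is a unit in `B`
  suffices hsuff : IsUnit (mkB t) by
    obtain ⟨v, hv⟩ := hsuff.exists_right_inv
    obtain ⟨u, rfl⟩ := Ideal.Quotient.mk_surjective v
    refine ⟨u, fun x hx => ?_⟩
    have h1 : t * u - 1 ∈ J := by
      rw [← Ideal.Quotient.eq_zero_iff_mem, map_sub, map_mul, map_one, sub_eq_zero]
      exact hv
    have h2 := (hJ _).mp h1 x hx
    rw [map_sub, map_one, LinearMap.sub_apply, sub_eq_zero] at h2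
    exact h2
  by_contra hcon
  let k := ResidueField 𝒪
  let K := AlgebraicClosure k
  haveI : CharP k p := (CharP.charP_iff_prime_eq_zero hp.out).mpr (by
    rw [← map_natCast (residue 𝒪)]
    exact (residue_eq_zero_iff _).mpr hp𝒪)
  haveI : CharP K p := charP_of_injective_algebraMap (algebraMap k K).injective p
  obtain ⟨ψ, hψt, hψ⟩ := exists_char_of_not_isUnit (evk θ) (evk_surjective θ) hunit
    (algebraMap k K) hcon
  let φ₁ : HeckeAlgS (↑S₁ : Set ℕ) →+* K := (ψ.comp mkB).comp (toPoly 𝒪)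
  -- `φ₁` is in the support of the parabolic cohomology
  have hocc : ∀ s, (∀ y ∈ parZ M, parEval M (↑S₁ : Set ℕ) ℤ s y = 0) → φ₁ s = 0 := by
    intro s hs
    obtain ⟨ℓ, hℓM, hodd, hℓ⟩ := hE
    have hℓp : (ℓ.1 : ℕ) ≠ p := fun h => ℓ.2 (h ▸ hS hpS)
    have hu : IsUnit (((ℓ.1 : ℕ) : ℕ) : 𝒪) := isUnit_natCast_of_ne hp.out hp𝒪 ℓ.1.2 hℓp
    have h1 : toPoly 𝒪 (s * eisPoly (idxIncl hS ℓ)) ∈ J := by
      intro x _
      rw [map_mul, map_mul, Module.End.mul_apply]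
      exact cev_eq_zero_of_parZ hε s hs (cev_eisPoly_mem_par (ℓ := idxIncl hS ℓ) hℓM hodd hu x)
    have h2 : φ₁ (s * eisPoly (idxIncl hS ℓ)) = 0 := by
      show ψ (mkB (toPoly 𝒪 (s * eisPoly (idxIncl hS ℓ)))) = 0
      have : mkB (toPoly 𝒪 (s * eisPoly (idxIncl hS ℓ))) = 0 :=
        Ideal.Quotient.eq_zero_iff_mem.mpr h1
      rw [this, map_zero]
    rw [map_mul] at h2
    refine (mul_eq_zero.mp h2).resolve_right ?_
    have h3 : φ₁ (eisPoly (idxIncl hS ℓ)) = algebraMap k K (evk θ (MvPolynomial.X ℓ -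
        MvPolynomial.C (((ℓ.1 : ℕ) : 𝒪) + 1))) := by
      rw [← hψ]
      show ψ (mkB (toPoly 𝒪 (eisPoly (idxIncl hS ℓ)))) = _
      congr 1
      rw [halg, map_sub, polyIncl_X, eisPoly, map_sub, toPoly_X, toPoly_C, polyIncl,
        MvPolynomial.rename_C]
      push_cast
      rfl
    rw [h3]
    intro h4
    have h5 := (algebraMap k K).injective (h4.trans (map_zero _).symm)
    rw [map_sub, evk_X, evk_C, sub_eq_zero, map_add, map_natCast, map_one] at h5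
    exact hℓ h5
  obtain ⟨ρ', hρ', -⟩ := exists_residual_of_occurs h30 S₁ hpS hMS φ₁ hocc
  -- comparison
  have hρK : ∀ ℓ : PIdx (↑S₁ : Set ℕ), HasFrob (ρb.baseChangeAlong (algebraMap k K)) (ℓ.1 : ℕ)
      (algebraMap k K (θ₁ ℓ)) := by
    intro ℓ A hA σ hσ
    rw [S29aux.charpoly_baseChangeAlong, hρ ℓ A hA σ hσ]
    simp only [Polynomial.map_add, Polynomial.map_sub, Polynomial.map_mul, Polynomial.map_pow,
      Polynomial.map_X, Polynomial.map_C, map_natCast, Polynomial.map_natCast]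
    rfl
  have hX : ∀ ℓ : PIdx (↑S₁ : Set ℕ), φ₁ (MvPolynomial.X ℓ) = algebraMap k K (θ₁ ℓ) := by
    intro ℓ
    let a : ℕ → K := fun r => if h : r.Prime ∧ r ∉ (↑S : Set ℕ) then
      algebraMap k K (θ ⟨⟨r, h.1⟩, h.2⟩) else 0
    refine HasFrob.unique ℓ.1.2 (HasFrob.congr (ρ := ρ')
      (ρ' := ρb.baseChangeAlong (algebraMap k K)) (↑S : Set ℕ) S.finite_toSet a ?_ ?_
      (hρ' ℓ)) (hρK ℓ)
    · intro r hr hrS
      have h1 := hρ' (idxIncl hS ⟨⟨r, hr⟩, hrS⟩)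
      have h2 : φ₁ (MvPolynomial.X (idxIncl hS ⟨⟨r, hr⟩, hrS⟩)) = a r := by
        have h3 := hψ (MvPolynomial.X ⟨⟨r, hr⟩, hrS⟩)
        rw [halg, polyIncl_X, evk_X] at h3
        show ψ (mkB (toPoly 𝒪 _)) = a r
        rw [toPoly_X, h3]
        simp only [a]
        rw [dif_pos ⟨hr, hrS⟩]
      rw [← h2]
      exact h1
    · intro r hr hrS
      have h1 := hρK (idxIncl hS ⟨⟨r, hr⟩, hrS⟩)
      have h2 : a r = algebraMap k K (θ₁ (idxIncl hS ⟨⟨r, hr⟩, hrS⟩)) := by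
        simp only [a]
        rw [dif_pos ⟨hr, hrS⟩]
      rw [h2]
      exact h1
  have hfinal := evk_ext (θ := θ₁) (algebraMap k K) (ψ.comp mkB) (fun r => by
      have h1 := hψ (MvPolynomial.C r)
      rw [halg, polyIncl, MvPolynomial.rename_C, evk_C] at h1
      exact h1) (fun ℓ => by
      rw [← hX ℓ]
      show ψ (mkB _) = ψ (mkB (toPoly 𝒪 _))
      rw [toPoly_X]) t
  have h0 : algebraMap k K (evk θ₁ t) = 0 := hfinal.symm.trans hψt
  exact ht ((algebraMap k K).injective (h0.trans (map_zero _).symm))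

/-- The `𝔪`-part does not depend on the (finite) set of omitted primes. -/
theorem Hm_eq_of_subset (h30 : S29aux.S30Statement) {M : ℕ} [NeZero M] {S₁ S : Finset ℕ}
    (hS : (↑S₁ : Set ℕ) ⊆ ↑S) (hpS : p ∈ S₁) (hMS : ∀ r : ℕ, r.Prime → r ∣ M → r ∈ S₁)
    (hp𝒪 : (p : 𝒪) ∈ maximalIdeal 𝒪) {ε : (ZMod M)ˣ →* 𝒪ˣ} (hε : ε = 1)
    {θ₁ : PIdx (↑S₁ : Set ℕ) → ResidueField 𝒪} (ρb : ResidualGaloisRep (ResidueField 𝒪))
    (hρ : ∀ ℓ : PIdx (↑S₁ : Set ℕ), HasFrob ρb (ℓ.1 : ℕ) (θ₁ ℓ))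
    (hE : ∃ ℓ : PIdx (↑S : Set ℕ), (((ℓ.1 : ℕ) : ℕ) : ZMod M) = 1 ∧ Odd (ℓ.1 : ℕ) ∧
      θ₁ (idxIncl hS ℓ) ≠ ((ℓ.1 : ℕ) : ResidueField 𝒪) + 1) :
    Hm M ε 𝒪 (↑S : Set ℕ) (fun ℓ => θ₁ (idxIncl hS ℓ)) = Hm M ε 𝒪 (↑S₁ : Set ℕ) θ₁ := by
  apply le_antisymm
  · intro x hx
    refine (mem_mpart _).mpr fun t ht => ?_
    obtain ⟨u, hu⟩ := exists_inverse h30 hS hpS hMS hp𝒪 hε ρb hρ hE ht
    exact ⟨cev _ (hop_commute M ε 𝒪 _) u x, by rw [← cev_mul_apply, hu x hx]⟩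
  · intro x hx
    refine (mem_mpart _).mpr fun t ht => ?_
    obtain ⟨y, hy⟩ := (mem_mpart _).mp hx (polyIncl 𝒪 hS t) (by
      rw [evk_polyIncl]; exact ht)
    exact ⟨y, by rw [← cev_polyIncl hS, hy]⟩

end Main

end Fermat.Agent.RTE

end
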