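import Mathlib
import Fermat.Agent.S29.Lift

/-!
# Lifting a residual eigensystem of a lattice to characteristic zero

If a commutative ring `P` acts on a lattice `V` (finite free over `ℤ`) and `φ : P' → K` is a
residual character of a subring which is in the support of `V`, then there is a character of `P`
with values in `ℂ`, and a compatible one with values in a complete discrete valuation ring, which
is in the support of `V` and lifts `φ`.
-/

set_option autoImplicit false
set_option linter.style.haveILetI false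

namespace Fermat.Agent.RTE

open IsLocalRing

/-- Extension of a homomorphism to an algebraically closed field along an integral extension. -/
theorem exists_extend_of_isIntegral {A B : Type*} [CommRing A] [CommRing B] [Algebra A B]
    [Algebra.IsIntegral A B] (hinj : Function.Injective (algebraMap A B))
    {K : Type*} [Field K] [IsAlgClosed K] (φ : A →+* K) :
    ∃ ψ : B →+* K, ψ.comp (algebraMap A B) = φ := by
  set P : Ideal A := RingHom.ker φ with hP
  haveI : P.IsPrime := RingHom.ker_isPrime φ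
  obtain ⟨Q, -, hQ, hQP⟩ := Ideal.exists_ideal_over_prime_of_isIntegral P (⊥ : Ideal B) (by
    rw [← RingHom.ker_eq_comap_bot, (RingHom.injective_iff_ker_eq_bot _).mp hinj]
    exact bot_le)
  letI : Algebra (A ⧸ P) (B ⧸ Q) := (Ideal.quotientMap Q (algebraMap A B)
    (le_of_eq hQP.symm)).toAlgebra
  have hmap : ∀ a : A, algebraMap (A ⧸ P) (B ⧸ Q) (Ideal.Quotient.mk P a) =
      Ideal.Quotient.mk Q (algebraMap A B a) := fun a => Ideal.quotientMap_mk
  have hinj' : Function.Injective (algebraMap (A ⧸ P) (B ⧸ Q)) :=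
    Ideal.quotientMap_injective' (le_of_eq hQP)
  letI : Algebra (A ⧸ P) K := (Ideal.Quotient.lift P φ (fun a ha => ha)).toAlgebra
  have hmapK : ∀ a : A, algebraMap (A ⧸ P) K (Ideal.Quotient.mk P a) = φ a := fun a =>
    Ideal.Quotient.lift_mk P φ _
  have hinjK : Function.Injective (algebraMap (A ⧸ P) K) := by
    rw [injective_iff_map_eq_zero]
    intro x hx
    obtain ⟨a, rfl⟩ := Ideal.Quotient.mk_surjective x
    rw [hmapK] at hx
    exact Ideal.Quotient.eq_zero_iff_mem.mpr hx
  haveI : Algebra.IsIntegral (A ⧸ P) (B ⧸ Q) := ⟨fun x => by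
    obtain ⟨b, rfl⟩ := Ideal.Quotient.mk_surjective x
    obtain ⟨f, hf, hfb⟩ := Algebra.IsIntegral.isIntegral (R := A) b
    refine ⟨f.map (Ideal.Quotient.mk P), hf.map _, ?_⟩
    rw [Polynomial.eval₂_map]
    have h1 : (algebraMap (A ⧸ P) (B ⧸ Q)).comp (Ideal.Quotient.mk P) =
      (Ideal.Quotient.mk Q).comp (algebraMap A B) := RingHom.ext hmap
    rw [h1, ← Polynomial.hom_eval₂, hfb, map_zero]⟩
  haveI : Module.IsTorsionFree (A ⧸ P) (B ⧸ Q) :=
    Module.isTorsionFree_iff_algebraMap_injective.mpr hinj'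
  haveI : Module.IsTorsionFree (A ⧸ P) K :=
    Module.isTorsionFree_iff_algebraMap_injective.mpr hinjK
  haveI : IsDomain (A ⧸ P) := Ideal.Quotient.isDomain P
  haveI : IsDomain (B ⧸ Q) := Ideal.Quotient.isDomain Q
  let g : (B ⧸ Q) →ₐ[A ⧸ P] K := IsAlgClosed.lift
  refine ⟨g.toRingHom.comp (Ideal.Quotient.mk Q), RingHom.ext fun a => ?_⟩
  show g (Ideal.Quotient.mk Q (algebraMap A B a)) = φ a
  rw [← hmap, AlgHom.commutes, hmapK]

/-- a domain which is finite and torsion-free over `ℤ` embeds into `ℂ` -/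
theorem exists_embedding_complex (D : Type*) [CommRing D] [IsDomain D] [CharZero D]
    [Module.Finite ℤ D] : ∃ χ : D →+* ℂ, Function.Injective χ := by
  haveI : Module.IsTorsionFree ℤ D :=
    Module.isTorsionFree_iff_algebraMap_injective.mpr (by
      intro a b hab
      simpa using hab)
  haveI : Algebra.IsAlgebraic ℤ D := Algebra.IsIntegral.isAlgebraic
  let g : D →ₐ[ℤ] ℂ := IsAlgClosed.lift
  refine ⟨g.toRingHom, ?_⟩
  have hk : RingHom.ker (g.toRingHom : D →+* ℂ) = ⊥ := by
    refine Ideal.eq_bot_of_comap_eq_bot (R := ℤ) ?_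
    rw [eq_bot_iff]
    intro n hn
    have h1 : g.toRingHom (algebraMap ℤ D n) = 0 := hn
    rw [eq_intCast, map_intCast] at h1
    exact_mod_cast h1
  exact (RingHom.injective_iff_ker_eq_bot _).mpr hk

/-- **Lifting lemma** (Deligne–Serre), abstract form. -/
theorem exists_char_lift
    {P' : Type*} {P : Type} [CommRing P'] [CommRing P] (f : P' →+* P)
    {V : Type*} [AddCommGroup V] [Module P V] [Module.Finite ℤ V] [IsAddTorsionFree V]
    {p : ℕ} (hp : p.Prime) {K : Type} [Field K] [IsAlgClosed K] [CharP K p] (φ : P' →+* K)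
    (hφ : ∀ t : P', (∀ v : V, f t • v = 0) → φ t = 0) :
    ∃ (χ : P →+* ℂ) (O : Type) (_ : CommRing O) (_ : IsDomain O) (_ : IsDiscreteValuationRing O)
      (_ : IsAdicComplete (maximalIdeal O) O) (_ : Finite (ResidueField O)) (_ : CharZero O)
      (r : χ.range →+* O) (ι : ResidueField O →+* K),
      (∀ t : P, (∀ v : V, t • v = 0) → χ t = 0) ∧ (p : O) ∈ maximalIdeal O ∧
      ∀ t : P', ι (residue O (r (χ.rangeRestrict (f t)))) = φ t := by
  classical
  -- the quotient `T = P / Ann V`
  let I : Ideal P := Module.annihilator P V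
  have hI : ∀ t : P, t ∈ I ↔ ∀ v : V, t • v = 0 := fun t => Module.mem_annihilator
  let T := P ⧸ I
  let mkT : P →+* T := Ideal.Quotient.mk I
  -- `T` acts on `V` by `ℤ`-linear maps
  let act : P →+* Module.End ℤ V :=
    { toFun := fun t => { toFun := fun v => t • v, map_add' := smul_add t,
                          map_smul' := fun n v => smul_comm t n v }
      map_one' := LinearMap.ext fun v => one_smul P v
      map_mul' := fun a b => LinearMap.ext fun v => mul_smul a b v
      map_zero' := LinearMap.ext fun v => zero_smul P v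
      map_add' := fun a b => LinearMap.ext fun v => add_smul a b v }
  have hact : ∀ t v, act t v = t • v := fun t v => rfl
  let actT : T →+* Module.End ℤ V := Ideal.Quotient.lift I act (fun a ha => by
    ext v; rw [hact, (hI a).mp ha]; rfl)
  have hactT : Function.Injective actT := by
    rw [injective_iff_map_eq_zero]
    intro x hx
    obtain ⟨t, rfl⟩ := Ideal.Quotient.mk_surjective x
    refine Ideal.Quotient.eq_zero_iff_mem.mpr ((hI t).mpr fun v => ?_)
    have h1 : act t = 0 := by rw [← hx]; exact (Ideal.Quotient.lift_mk I act _).symm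
    rw [← hact, h1]
    rfl
  haveI : Module.Free ℤ V := inferInstance
  haveI : Module.Finite ℤ (Module.End ℤ V) := inferInstance
  haveI hTfin : Module.Finite ℤ T :=
    Module.Finite.of_injective actT.toAddMonoidHom.toIntLinearMap hactT
  haveI hEtf : IsAddTorsionFree (Module.End ℤ V) := ⟨fun n hn a b hab =>
    LinearMap.ext fun v => nsmul_right_injective hn (LinearMap.congr_fun hab v)⟩
  haveI hTtf : IsAddTorsionFree T :=
    Function.Injective.isAddTorsionFree actT.toAddMonoidHom hactT
  -- the subring `T'`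
  let J : Ideal P' := I.comap f
  let T' := P' ⧸ J
  letI : Algebra T' T := (Ideal.quotientMap I f le_rfl).toAlgebra
  have halg : ∀ t : P', algebraMap T' T (Ideal.Quotient.mk J t) = mkT (f t) := fun t =>
    Ideal.quotientMap_mk
  have hinj : Function.Injective (algebraMap T' T) := Ideal.quotientMap_injective
  haveI : Algebra.IsIntegral T' T := ⟨fun x =>
    (Algebra.IsIntegral.isIntegral (R := ℤ) x).tower_top⟩
  let φ' : T' →+* K := Ideal.Quotient.lift J φ (fun t ht => hφ t ((hI _).mp ht))
  obtain ⟨ψ, hψ⟩ := exists_extend_of_isIntegral hinj φ'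
  have hψ' : ∀ t : P', ψ (mkT (f t)) = φ t := fun t => by
    rw [← halg]
    exact (RingHom.congr_fun hψ _).trans (Ideal.Quotient.lift_mk J φ _)
  -- a minimal prime
  haveI : (RingHom.ker ψ).IsPrime := RingHom.ker_isPrime ψ
  obtain ⟨𝔭, h𝔭, h𝔭le⟩ := Ideal.exists_minimalPrimes_le (I := (⊥ : Ideal T)) (J := RingHom.ker ψ)
    bot_le
  haveI : 𝔭.IsPrime := h𝔭.1.1
  let D := T ⧸ 𝔭
  haveI : IsDomain D := Ideal.Quotient.isDomain 𝔭
  haveI : Module.Finite ℤ D := Module.Finite.of_surjective
    (Ideal.Quotient.mk 𝔭).toAddMonoidHom.toIntLinearMap Ideal.Quotient.mk_surjective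
  haveI : CharZero D := by
    refine charZero_of_inj_zero fun n hn => ?_
    by_contra hne
    have h1 : ((n : T)) ∈ 𝔭 := by
      rw [← Ideal.Quotient.eq_zero_iff_mem, map_natCast]
      exact hn
    have h2 : ((n : T)) ∈ nonZeroDivisors T := by
      rw [mem_nonZeroDivisors_iff_right]
      intro x hx
      rw [mul_comm, ← nsmul_eq_mul] at hx
      exact (nsmul_right_injective (M := T) hne) (by simpa using hx)
    exact Set.disjoint_left.mp (Ideal.disjoint_nonZeroDivisors_of_mem_minimalPrimes h𝔭) h1 h2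
  obtain ⟨χ₀, hχ₀⟩ := exists_embedding_complex D
  let mkD : T →+* D := Ideal.Quotient.mk 𝔭
  let χ : P →+* ℂ := χ₀.comp (mkD.comp mkT)
  -- the residual map on `D`
  let ψD : D →+* K := Ideal.Quotient.lift 𝔭 ψ (fun t ht => h𝔭le ht)
  have hψD : ∀ t : P', ψD (mkD (mkT (f t))) = φ t := fun t => by
    rw [← hψ' t]
    exact Ideal.Quotient.lift_mk 𝔭 ψ _
  -- the ring of integers
  letI : Algebra D (NumberField.RingOfIntegers (S29aux.heckeField χ₀)) :=
    (S29aux.charInt χ₀).toAlgebra
  have hcinj : Function.Injective (S29aux.charInt χ₀) := by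
    intro a b hab
    apply hχ₀
    rw [← S29aux.coe_charInt, ← S29aux.coe_charInt, hab]
  haveI : Algebra.IsIntegral D (NumberField.RingOfIntegers (S29aux.heckeField χ₀)) := ⟨fun x => by
    obtain ⟨g, hg, hgx⟩ := Algebra.IsIntegral.isIntegral (R := ℤ) x
    refine ⟨g.map (algebraMap ℤ D), hg.map _, ?_⟩
    rw [Polynomial.eval₂_map, ← hgx]
    congr 1
    exact RingHom.ext_int _ _⟩
  obtain ⟨φE, hφE⟩ := exists_extend_of_isIntegral
    (A := D) (B := NumberField.RingOfIntegers (S29aux.heckeField χ₀)) hcinj ψD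
  obtain ⟨O, i1, i2, i3, i4, i5, i6, j, ι, hpO, hι⟩ :=
    S29aux.exists_completeDVR (S29aux.heckeField χ₀) hp φE
  -- the range of `χ`
  let h : D →+* χ.range := χ₀.codRestrict χ.range (fun d => by
    obtain ⟨x, rfl⟩ := Ideal.Quotient.mk_surjective d
    obtain ⟨t, rfl⟩ := Ideal.Quotient.mk_surjective x
    exact ⟨t, rfl⟩)
  have hbij : Function.Bijective h := by
    refine ⟨fun a b hab => hχ₀ (congrArg Subtype.val hab), ?_⟩
    rintro ⟨_, t, rfl⟩
    exact ⟨mkD (mkT t), rfl⟩
  let e : χ.range ≃+* D := (RingEquiv.ofBijective h hbij).symm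
  have he : ∀ t, e (χ.rangeRestrict t) = mkD (mkT t) := fun t => by
    rw [RingEquiv.symm_apply_eq]
    rfl
  refine ⟨χ, O, i1, i2, i3, i4, i5, i6, j.comp ((S29aux.charInt χ₀).comp e.toRingHom), ι,
    fun t ht => ?_, hpO, fun t => ?_⟩
  · have h1 : mkT t = 0 := Ideal.Quotient.eq_zero_iff_mem.mpr ((hI t).mpr ht)
    show χ₀ (mkD (mkT t)) = 0
    rw [h1, map_zero, map_zero]
  · show ι (residue O (j (S29aux.charInt χ₀ (e (χ.rangeRestrict (f t)))))) = φ t
    rw [he, hι, ← hψD t]
    exact RingHom.congr_fun hφE _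

/-- **Lifting lemma**, for a stable submodule. -/
theorem exists_char_lift'
    {P' : Type*} {P : Type} [CommRing P'] [CommRing P] (f : P' →+* P)
    {W : Type*} [AddCommGroup W] [Module.Finite ℤ W] [IsAddTorsionFree W]
    (act : P →+* Module.End ℤ W) (V : Submodule ℤ W) (hV : ∀ t, ∀ v ∈ V, act t v ∈ V)
    {p : ℕ} (hp : p.Prime) {K : Type} [Field K] [IsAlgClosed K] [CharP K p] (φ : P' →+* K)
    (hφ : ∀ t : P', (∀ v ∈ V, act (f t) v = 0) → φ t = 0) :
    ∃ (χ : P →+* ℂ) (O : Type) (_ : CommRing O) (_ : IsDomain O) (_ : IsDiscreteValuationRing O)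
      (_ : IsAdicComplete (maximalIdeal O) O) (_ : Finite (ResidueField O)) (_ : CharZero O)
      (r : χ.range →+* O) (ι : ResidueField O →+* K),
      (∀ t : P, (∀ v ∈ V, act t v = 0) → χ t = 0) ∧ (p : O) ∈ maximalIdeal O ∧
      ∀ t : P', ι (residue O (r (χ.rangeRestrict (f t)))) = φ t := by
  let g : P →+* Module.End ℤ V :=
    { toFun := fun t => (act t).restrict (hV t)
      map_one' := LinearMap.ext fun v => Subtype.ext (by
        show act 1 v = v
        rw [map_one]; rfl)
      map_mul' := fun a b => LinearMap.ext fun v => Subtype.ext (by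
        show act (a * b) v = act a (act b v)
        rw [map_mul]; rfl)
      map_zero' := LinearMap.ext fun v => Subtype.ext (by
        show act 0 v = 0
        rw [map_zero]; rfl)
      map_add' := fun a b => LinearMap.ext fun v => Subtype.ext (by
        show act (a + b) v = act a v + act b v
        rw [map_add]; rfl) }
  letI : Module P V := Module.compHom V g
  haveI : Module.Finite ℤ V := Module.Finite.of_injective V.subtype Subtype.val_injective
  haveI : IsAddTorsionFree V :=
    Function.Injective.isAddTorsionFree V.subtype.toAddMonoidHom Subtype.val_injective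
  have hsm : ∀ (t : P) (v : V), ((t • v : V) : W) = act t v := fun t v => rfl
  have hiff : ∀ t : P, (∀ v : V, t • v = 0) ↔ ∀ v ∈ V, act t v = 0 := fun t =>
    ⟨fun h v hv => by rw [← hsm t ⟨v, hv⟩, h]; rfl, fun h v => Subtype.ext (h v v.2)⟩
  obtain ⟨χ, O, i1, i2, i3, i4, i5, i6, r, ι, h1, h2, h3⟩ :=
    exists_char_lift f (V := V) hp φ (fun t ht => hφ t ((hiff _).mp ht))
  exact ⟨χ, O, i1, i2, i3, i4, i5, i6, r, ι, fun t ht => h1 t ((hiff _).mpr ht), h2, h3⟩

end Fermat.Agent.RTE
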