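import Fermat.Agent.HSide.Base
import Fermat.Agent.HeckeRep.Univ
import Fermat.Agent.RTE.NewSide

/-!
# The field `new` for the modules `B.MM qv s`
-/

set_option autoImplicit false
set_option linter.style.haveILetI false

noncomputable section

open IsLocalRing

namespace Fermat.Agent.RTE

open Fermat.Agent.TwHecke Fermat.Agent.TwExact Fermat.Agent.HeckeRep Fermat.Agent.HSide
  Fermat.Agent.RTD Fermat.Agent.GalRep CuspForm

variable {𝒪 : Type} [CommRing 𝒪] [IsDomain 𝒪] [IsDiscreteValuationRing 𝒪]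
  [IsAdicComplete (maximalIdeal 𝒪) 𝒪] [Finite (ResidueField 𝒪)] [CharZero 𝒪]
  {p : ℕ} [Fact p.Prime] {ι : Type} [DecidableEq ι] {qT : ι → ℕ} {S : Finset ℕ}

/-- **[g2] for the modules of the Hecke side**, any local `𝒪`-algebra `R` acting. -/
theorem new_base (B : Base 𝒪 p qT S) {m : ℕ} {qv : Fin m → ℕ} [IsLocalRing (Lam 𝒪 p qv)]
    (A : Auxs B qv) {s : Finset ι} {v : ι} (hv : v ∉ s) (hvp : qT v ≠ p)
    {R : Type} [CommRing R] [IsLocalRing R] [Algebra 𝒪 R] (ρ : GaloisRepAdic R) (t : ℕ → R)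
    (ht : ∀ ℓ : ℕ, ℓ.Prime → ℓ ∉ B.Sn qv → ∀ P : ValuationSubring (AlgebraicClosure ℚ),
      P.LiesOverPrime ℓ → ∀ σ : AlgebraicClosure ℚ ≃ₐ[ℚ] AlgebraicClosure ℚ,
        P.IsFrobeniusAt σ ℓ →
        LinearMap.charpoly (ρ.ρ σ) = Polynomial.X ^ 2 -
          Polynomial.C (t ℓ) * Polynomial.X + Polynomial.C (ℓ : R))
    (act : R →+* Module.End (Lam 𝒪 p qv) (B.MM qv (insert v s)))
    (hC : ∀ (c : 𝒪) (x : B.MM qv (insert v s)),
      act (algebraMap 𝒪 R c) x = algebraMap 𝒪 (Lam 𝒪 p qv) c • x)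
    (hact : ∀ (ℓ : PIdx (↑(B.Sn qv) : Set ℕ)), act (t (ℓ.1 : ℕ)) =
          hT (B.eta qv (insert v s)) (B.eta qv (insert v s) ^ 2) (↑(B.Sn qv) : Set ℕ) (B.th qv) ℓ)
    (hj1 : ∀ r z, HSide.j1 (B.qT_prime v) (B.qT_not_dvd_lev A hv) (B.lev_insert hv)
        (B.eta_insert hv) (B.th qv) (B.qT_mem v) z = 0 →
      HSide.j1 (B.qT_prime v) (B.qT_not_dvd_lev A hv) (B.lev_insert hv)
        (B.eta_insert hv) (B.th qv) (B.qT_mem v) (act r z) = 0)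
    (hj2 : ∀ r z, HSide.j2 (B.qT_prime v) (B.qT_not_dvd_lev A hv) (B.lev_insert hv)
        (B.eta_insert hv) (B.th qv) (B.qT_mem v) z = 0 →
      HSide.j2 (B.qT_prime v) (B.qT_not_dvd_lev A hv) (B.lev_insert hv)
        (B.eta_insert hv) (B.th qv) (B.qT_mem v) (act r z) = 0)
    {P : ValuationSubring (AlgebraicClosure ℚ)} (hP : P.LiesOverPrime (qT v))
    {σ : AlgebraicClosure ℚ ≃ₐ[ℚ] AlgebraicClosure ℚ} (hσ : P.IsFrobeniusAt σ (qT v)) :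
    ∃ k : ℕ, ∀ z, HSide.j1 (B.qT_prime v) (B.qT_not_dvd_lev A hv) (B.lev_insert hv)
        (B.eta_insert hv) (B.th qv) (B.qT_mem v) z = 0 →
      HSide.j2 (B.qT_prime v) (B.qT_not_dvd_lev A hv) (B.lev_insert hv)
        (B.eta_insert hv) (B.th qv) (B.qT_mem v) z = 0 →
      act ((LinearMap.trace _ _ (ρ.ρ σ) ^ 2 - ((qT v + 1 : ℕ) : R) ^ 2) ^ k) z = 0 := by
  haveI : NeZero p := ⟨(Fact.out : p.Prime).ne_zero⟩
  haveI : NeZero (B.lev qv s) := ⟨B.lev_ne A s⟩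
  exact new_side B.p_mem (B.qT_prime v) (B.qT_not_dvd_lev A hv) (B.lev_insert hv)
    (B.S_sub B.pS) hvp (B.qT_mem v) (fun r hr hd => B.lev_mem A (insert v s) r hr hd)
    (B.eta_insert hv) (tauM p qv (B.lev qv s) (B.qv_dvd s)) rfl B.strong_th ρ t ht act hC hact
    hj1 hj2 hP hσ

/-- **[g2] for the localised Hecke algebra** (no hypothesis on the stability of the kernels). -/
theorem new_hecke (B : Base 𝒪 p qT S) {m : ℕ} {qv : Fin m → ℕ} [IsLocalRing (Lam 𝒪 p qv)]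
    (A : Auxs B qv) {s : Finset ι} {v : ι} (hv : v ∉ s) (hvp : qT v ≠ p)
    {ρbar : ResidualGaloisRep (ResidueField 𝒪)} {L : ℕ} [NeZero L]
    (ctx : HCtx p ρbar (B.Sn qv) (thOf B.a (↑(B.Sn qv) : Set ℕ)))
    (hLS : ∀ q : ℕ, q.Prime → q ∣ L → q ∈ B.Sn qv)
    (h : Occ L (↑(B.Sn qv) : Set ℕ) (thOf B.a (↑(B.Sn qv) : Set ℕ)))
    (act : heckeLocal L (↑(B.Sn qv) : Set ℕ) 𝒪 (sysHom h) →+*
      Module.End (Lam 𝒪 p qv) (B.MM qv (insert v s)))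
    (hC : ∀ c : 𝒪, act (algebraMap 𝒪 _ c) =
      algebraMap (Lam 𝒪 p qv) _ (algebraMap 𝒪 (Lam 𝒪 p qv) c))
    (hact : ∀ (ℓ : PIdx (↑(B.Sn qv) : Set ℕ)),
      act (heckeLocal.π L (↑(B.Sn qv) : Set ℕ) 𝒪 (sysHom h) (genS L (↑(B.Sn qv) : Set ℕ) ℓ)) =
        hT (B.eta qv (insert v s)) (B.eta qv (insert v s) ^ 2) (↑(B.Sn qv) : Set ℕ) (B.th qv) ℓ)
    {P : ValuationSubring (AlgebraicClosure ℚ)} (hP : P.LiesOverPrime (qT v))
    {σ : AlgebraicClosure ℚ ≃ₐ[ℚ] AlgebraicClosure ℚ} (hσ : P.IsFrobeniusAt σ (qT v)) :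
    ∃ k : ℕ, ∀ z, HSide.j1 (B.qT_prime v) (B.qT_not_dvd_lev A hv) (B.lev_insert hv)
        (B.eta_insert hv) (B.th qv) (B.qT_mem v) z = 0 →
      HSide.j2 (B.qT_prime v) (B.qT_not_dvd_lev A hv) (B.lev_insert hv)
        (B.eta_insert hv) (B.th qv) (B.qT_mem v) z = 0 →
      act (((heckeDatum ctx hLS h).ρ.trace σ ^ 2 - ((qT v + 1 : ℕ) : heckeLocal L
        (↑(B.Sn qv) : Set ℕ) 𝒪 (sysHom h)) ^ 2) ^ k) z = 0 := by
  classical
  haveI : NeZero p := ⟨(Fact.out : p.Prime).ne_zero⟩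
  let t : ℕ → heckeLocal L (↑(B.Sn qv) : Set ℕ) 𝒪 (sysHom h) := fun ℓ =>
    if hℓ : ℓ.Prime ∧ ℓ ∉ (↑(B.Sn qv) : Set ℕ) then
      heckeLocal.π L (↑(B.Sn qv) : Set ℕ) 𝒪 (sysHom h)
        (genS L (↑(B.Sn qv) : Set ℕ) ⟨⟨ℓ, hℓ.1⟩, hℓ.2⟩)
    else 0
  have ht : ∀ ℓ : PIdx (↑(B.Sn qv) : Set ℕ), t (ℓ.1 : ℕ) =
      heckeLocal.π L (↑(B.Sn qv) : Set ℕ) 𝒪 (sysHom h) (genS L (↑(B.Sn qv) : Set ℕ) ℓ) :=
    fun ℓ => dif_pos ⟨ℓ.1.2, ℓ.2⟩
  have hMS : ∀ ℓ : ℕ, ℓ.Prime → ℓ ∣ B.lev qv (insert v s) → ℓ ∈ (↑(B.Sn qv) : Set ℕ) :=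
    B.lev_mem A (insert v s)
  refine new_base B A hv hvp (heckeDatum ctx hLS h).ρ t ?_ act ?_ ?_ ?_ ?_ hP hσ
  · intro ℓ hℓ hℓS Q hQ τ hτ
    have h1 := heckeDatum_charpoly ctx hLS h ⟨⟨ℓ, hℓ⟩, fun hS => hℓS (Finset.mem_coe.mp hS)⟩ hQ hτ
    rw [← ht] at h1
    exact h1
  · intro c x
    rw [hC, Module.algebraMap_end_apply]
  · intro ℓ
    rw [ht, hact]
  · intro r
    induction r using heckeLocal_induction (sysHom h) with
    | halg a =>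
      intro z hz
      rw [hC, Module.algebraMap_end_apply, map_smul, hz, smul_zero]
    | hgen ℓ =>
      intro z hz
      rw [hact, HSide.j1_hT _ _ _ _ _ _ hMS, hz, map_zero]
    | hadd a b ha hb =>
      intro z hz
      rw [map_add, LinearMap.add_apply, map_add, ha z hz, hb z hz, add_zero]
    | hmul a b ha hb =>
      intro z hz
      rw [map_mul, Module.End.mul_apply]
      exact ha _ (hb z hz)
  · intro r
    induction r using heckeLocal_induction (sysHom h) with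
    | halg a =>
      intro z hz
      rw [hC, Module.algebraMap_end_apply, map_smul, hz, smul_zero]
    | hgen ℓ =>
      intro z hz
      rw [hact, HSide.j2_hT _ _ _ _ _ _ hMS, hz, map_zero]
    | hadd a b ha hb =>
      intro z hz
      rw [map_add, LinearMap.add_apply, map_add, ha z hz, hb z hz, add_zero]
    | hmul a b ha hb =>
      intro z hz
      rw [map_mul, Module.End.mul_apply]
      exact ha _ (hb z hz)

end Fermat.Agent.RTE
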