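import Fermat.Agent.RTE.NewTrace
import Fermat.Agent.TwES.Neb
import Fermat.Agent.TwExact.Exact

/-!
# Eigenclasses in the kernel of the two traces occur on eigenforms with `a_v² = 1`
-/

set_option autoImplicit false
set_option linter.style.haveILetI false

noncomputable section

open CongruenceSubgroup ModularCurve ModularCurve.Period Polynomial IsLocalRing
open scoped TensorProduct

namespace Fermat.Agent.RTE

open Fermat.Agent.TwHecke Fermat.Agent.TwExact Fermat.Agent.TwES Fermat.Agent.RT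
open Fermat.Agent.HeckeRep (nop)

/-! ### Nilpotency from eigenvectors -/

section Nilp

theorem isNilpotent_of_eigenvalue_eq_zero {K V : Type*} [Field K] [IsAlgClosed K]
    [AddCommGroup V] [Module K V] [FiniteDimensional K V] (f : Module.End K V)
    (h : ∀ μ : K, f.HasEigenvalue μ → μ = 0) : ∃ k, f ^ k = 0 := by
  have h1 := Module.End.iSup_maxGenEigenspace_eq_top f
  have h2 : ∀ μ : K, μ ≠ 0 → f.maxGenEigenspace μ = ⊥ := by
    intro μ hμ
    by_contra hne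
    apply hμ
    apply h
    exact Module.End.hasEigenvalue_iff.mpr fun h0 => hne (by
      by_contra hne'
      obtain ⟨x, hx, hx0⟩ := Submodule.exists_mem_ne_zero_of_ne_bot hne'
      rw [Module.End.mem_maxGenEigenspace] at hx
      obtain ⟨k, hk⟩ := hx
      have : ∀ k : ℕ, ∀ x : V, ((f - μ • (1 : Module.End K V)) ^ k) x = 0 → x = 0 := by
        intro k
        induction k with
        | zero => intro x hx; simpa using hx
        | succ k ih =>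
          intro x hx
          rw [pow_succ, Module.End.mul_apply] at hx
          have h3 := ih _ hx
          have h4 : x ∈ f.eigenspace μ := by
            rw [Module.End.mem_eigenspace_iff, ← sub_eq_zero]
            exact h3
          rw [h0] at h4
          exact (Submodule.mem_bot K).mp h4
      exact hx0 (this k x hk))
  have h3 : f.maxGenEigenspace 0 = ⊤ := by
    rw [eq_top_iff, ← h1, iSup_le_iff]
    intro μ
    by_cases hμ : μ = 0
    · rw [hμ]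
    · rw [h2 μ hμ]
      exact bot_le
  refine ⟨Module.finrank K V, LinearMap.ext fun x => ?_⟩
  have h4 : x ∈ f.maxGenEigenspace 0 := by rw [h3]; trivial
  rw [Module.End.mem_maxGenEigenspace] at h4
  obtain ⟨k, hk⟩ := h4
  rw [zero_smul, sub_zero] at hk
  exact f.ker_pow_le_ker_pow_finrank k hk

variable {𝒪 : Type*} [CommRing 𝒪] [Algebra 𝒪 ℂ] [FaithfulSMul 𝒪 ℂ] {T : Type*} [CommRing T]
  [Algebra 𝒪 T] {H : Type*} [AddCommGroup H] [Module 𝒪 H] [Module.Finite 𝒪 H] [Module.Flat 𝒪 H]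

omit [Module.Finite 𝒪 H] in
theorem one_tmul_injective : Function.Injective (fun y : H => (1 : ℂ) ⊗ₜ[𝒪] y) := by
  have h1 : Function.Injective (LinearMap.rTensor H (Algebra.linearMap 𝒪 ℂ)) :=
    Module.Flat.rTensor_preserves_injective_linearMap _ (FaithfulSMul.algebraMap_injective 𝒪 ℂ)
  intro y y' hyy'
  have h2 : LinearMap.rTensor H (Algebra.linearMap 𝒪 ℂ) ((1 : 𝒪) ⊗ₜ[𝒪] y) =
      LinearMap.rTensor H (Algebra.linearMap 𝒪 ℂ) ((1 : 𝒪) ⊗ₜ[𝒪] y') := by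
    rw [LinearMap.rTensor_tmul, LinearMap.rTensor_tmul, Algebra.linearMap_apply, map_one]
    exact hyy'
  have h3 := h1 h2
  have h4 := congrArg (TensorProduct.lid 𝒪 H) h3
  simpa using h4

/-- An element which vanishes at all the points of `T` occurring in `H` acts nilpotently. -/
theorem exists_pow_eq_zero_of_points (act : T →ₐ[𝒪] Module.End 𝒪 H) (e : T)
    (h : ∀ x : T →ₐ[𝒪] ℂ, (∃ v : ℂ ⊗[𝒪] H, v ≠ 0 ∧ ∀ t, (act t).baseChange ℂ v = x t • v) →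
      x e = 0) : ∃ k, act (e ^ k) = 0 := by
  obtain ⟨k, hk⟩ := isNilpotent_of_eigenvalue_eq_zero ((act e).baseChange ℂ) (by
    intro μ hμ
    obtain ⟨v, hv⟩ := hμ.exists_hasEigenvector
    obtain ⟨x, hx, hx'⟩ := exists_point_of_eigen act hv.2 (ι := Unit) (fun _ => e) (fun _ => μ)
      (fun _ => hv.apply_eq_smul)
    rw [← hx ()]
    exact h x hx')
  refine ⟨k, LinearMap.ext fun y => ?_⟩
  apply one_tmul_injective (𝒪 := 𝒪) (H := H)
  have h1 : ∀ (k : ℕ), ((act e) ^ k).baseChange ℂ = ((act e).baseChange ℂ) ^ k := fun k =>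
    map_pow (Module.End.baseChangeHom 𝒪 ℂ H) (act e) k
  have h2 := congrArg (fun F : Module.End ℂ (ℂ ⊗[𝒪] H) => F ((1 : ℂ) ⊗ₜ[𝒪] y)) hk
  rw [← h1, LinearMap.baseChange_tmul, ← map_pow] at h2
  simpa using h2

end Nilp

/-! ### Eigenclasses -/

section Class

theorem exists_eigenform_par {N M' L : ℕ} [NeZero N] [NeZero M'] (hNM : N ∣ M')
    (ψ : (ZMod N)ˣ →* ℂˣ) (hL : N * M' = L) {ε : (ZMod M')ˣ →* ℂˣ} (hε : neb hNM ψ = ε)
    {I : Type*} {pr : I → Nat.Primes} {lam : I → ℂ} {y : HM M' ε ℂ} (hy0 : y ≠ 0)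
    (hy : y ∈ HM.par M' ε ℂ) (h : ∀ i, heckeP M' ε ℂ (pr i) y = lam i • y) :
    ∃ F : CuspForm (Gamma0 L) 2, F.IsNormalizedEigenform ∧
      ∀ i, ModularFormClass.qCoeff F (pr i : ℕ) = dch ψ ((pr i : ℕ) : ZMod N) * lam i := by
  subst hL hε
  obtain ⟨F, hF, h1, -⟩ := exists_eigenform_of_class hNM ψ hy0 (bd_eq_zero_of_mem_par hy) h
  exact ⟨F, hF, h1⟩

/-- **Eigenclasses in the kernel of the two traces.** -/
theorem occursNew_of_class {N M q : ℕ} [NeZero N] [NeZero M] [NeZero q] (hNM : N ∣ M)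
    (hq : q.Prime) (hM : ¬ q ∣ M) {S : Finset ℕ} (hMS : ∀ r : ℕ, r.Prime → r ∣ M → r ∈ S)
    (ψ : (ZMod N)ˣ →* ℂˣ) {ε : (ZMod M)ˣ →* ℂˣ} (hε : neb hNM ψ = ε) {a : ℕ → ℂ}
    {y : HM (M * q) (infl (dvd_mul_right M q) ε) ℂ} (hy0 : y ≠ 0)
    (hy : y ∈ HM.par (M * q) (infl (dvd_mul_right M q) ε) ℂ)
    (h1 : trd hq hM ε ℂ y = 0) (h2 : trB ε ℂ hq hM y = 0)
    (h : ∀ ℓ : Nat.Primes, (ℓ : ℕ) ∉ S → dch ψ ((ℓ : ℕ) : ZMod N) •
      heckeP (M * q) (infl (dvd_mul_right M q) ε) ℂ ℓ y = a ℓ • y) : OccursNew S q a := by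
  classical
  haveI : Fact q.Prime := ⟨hq⟩
  haveI : NeZero (M * q) := ⟨mul_ne_zero (NeZero.ne M) hq.ne_zero⟩
  haveI := fg_Gamma0 (M * q)
  haveI : FiniteDimensional ℂ (HM (M * q) (infl (dvd_mul_right M q) ε) ℂ) := finite_H1 _ _
  let E := infl (dvd_mul_right M q) ε
  let Q : Nat.Primes := ⟨q, hq⟩
  have hunit : ∀ ℓ : Nat.Primes, (ℓ : ℕ) ∉ S → dch ψ ((ℓ : ℕ) : ZMod N) ≠ 0 := by
    intro ℓ hℓ
    have hc : Nat.Coprime (ℓ : ℕ) N := (Nat.Prime.coprime_iff_not_dvd ℓ.2).mpr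
      fun hd => hℓ (hMS _ ℓ.2 (hd.trans hNM))
    have := ((ZMod.unitOfCoprime _ hc).isUnit.map (dch ψ)).ne_zero
    rwa [ZMod.coe_unitOfCoprime] at this
  let lam : Nat.Primes → ℂ := fun ℓ => (dch ψ ((ℓ : ℕ) : ZMod N))⁻¹ * a ℓ
  have hlam : ∀ ℓ : Nat.Primes, (ℓ : ℕ) ∉ S → heckeP (M * q) E ℂ ℓ y = lam ℓ • y := by
    intro ℓ hℓ
    have h3 := congrArg (fun z => (dch ψ ((ℓ : ℕ) : ZMod N))⁻¹ • z) (h ℓ hℓ)
    rw [smul_smul, inv_mul_cancel₀ (hunit ℓ hℓ), one_smul, smul_smul] at h3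
    exact h3
  -- the space of all such classes
  let W : Submodule ℂ (HM (M * q) E ℂ) := HM.par (M * q) E ℂ ⊓ LinearMap.ker (trd hq hM ε ℂ) ⊓
    LinearMap.ker (trB ε ℂ hq hM) ⊓ ⨅ (ℓ : Nat.Primes) (_ : (ℓ : ℕ) ∉ S),
      (heckeP (M * q) E ℂ ℓ).eigenspace (lam ℓ)
  have hW : ∀ w, w ∈ W ↔ w ∈ HM.par (M * q) E ℂ ∧ trd hq hM ε ℂ w = 0 ∧
      trB ε ℂ hq hM w = 0 ∧ ∀ ℓ : Nat.Primes, (ℓ : ℕ) ∉ S →
        heckeP (M * q) E ℂ ℓ w = lam ℓ • w := by
    intro w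
    simp only [W, Submodule.mem_inf, LinearMap.mem_ker, Submodule.mem_iInf,
      Module.End.mem_eigenspace_iff, and_assoc]
  have hyW : y ∈ W := (hW y).mpr ⟨hy, h1, h2, hlam⟩
  have hU : ∀ w, trB ε ℂ hq hM w = 0 → heckeP (M * q) E ℂ Q w = -wq hq hM ε ℂ w := fun w hw =>
    heckeU_eq_neg_wq ε hq hM hw
  have hWU : ∀ w ∈ W, heckeP (M * q) E ℂ Q w ∈ W := by
    intro w hw
    obtain ⟨h3, h4, h5, h6⟩ := (hW w).mp hw
    refine (hW _).mpr ⟨heckeH_mem_par q h3, ?_, ?_, fun ℓ hℓ => ?_⟩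
    · rw [hU w h5, map_neg, ← trB_apply, h5, neg_zero]
    · rw [hU w h5, map_neg, trB_wq, h4, smul_zero, neg_zero]
    · have h7 := congrArg (fun F : Module.End ℂ (HM (M * q) E ℂ) => F w)
        (heckeP_commute (M * q) E ℂ ℓ Q).eq
      simp only [Module.End.mul_apply] at h7
      rw [h7, h6 ℓ hℓ, map_smul]
  obtain ⟨z, hzW, hz0, hz⟩ := exists_common_eigenvector (V := HM (M * q) E ℂ) (J := Unit)
    (fun _ => heckeP (M * q) E ℂ Q) (fun _ _ => Commute.refl _) _ W rfl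
    (fun h0 => hy0 (by rwa [h0, Submodule.mem_bot] at hyW)) (fun _ w hw => hWU w hw)
  obtain ⟨u, hu⟩ := hz ()
  obtain ⟨h3, h4, h5, h6⟩ := (hW z).mp hzW
  -- `u² = ε(q)⁻¹`
  have hu2 : u ^ 2 = wt ε (unitOf M q) := by
    have h7 : heckeP (M * q) E ℂ Q (heckeP (M * q) E ℂ Q z) = (u ^ 2) • z := by
      rw [hu, map_smul, hu, smul_smul, pow_two]
    have h8 : trB ε ℂ hq hM (heckeP (M * q) E ℂ Q z) = 0 := ((hW _).mp (hWU z hzW)).2.2.1
    rw [hU _ h8, hU z h5, map_neg, neg_neg, wq_wq] at h7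
    exact (smul_left_injective ℂ hz0 h7).symm
  -- the eigenform
  have hLv : N * (M * q) = (N * M) * q := (mul_assoc _ _ _).symm
  have hNM' : N ∣ M * q := hNM.trans (dvd_mul_right M q)
  have hε' : neb hNM' ψ = E := by
    show neb hNM' ψ = infl (dvd_mul_right M q) ε
    rw [← hε]
    show infl _ (ψ ^ 2) = infl _ (infl _ (ψ ^ 2))
    rw [infl, infl, infl, MonoidHom.comp_assoc, ZMod.unitsMap_comp]
  obtain ⟨F, hF, hFa⟩ := exists_eigenform_par (L := (N * M) * q) hNM' ψ hLv hε'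
    (I := Option {ℓ : Nat.Primes // (ℓ : ℕ) ∉ S})
    (pr := fun i => i.elim Q Subtype.val) (lam := fun i => i.elim u fun ℓ => lam ℓ.1) hz0 h3
    (by
      rintro (_ | ℓ)
      · exact hu
      · exact h6 ℓ.1 ℓ.2)
  refine ⟨N * M, ⟨mul_ne_zero (NeZero.ne N) (NeZero.ne M)⟩, F, hF, ?_, ?_, ?_, ?_⟩
  · intro hd
    rcases (Nat.Prime.dvd_mul hq).mp hd with h | h
    · exact hM (h.trans hNM)
    · exact hM h
  · intro r hr hrd
    rcases (Nat.Prime.dvd_mul hr).mp hrd with h | h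
    · exact hMS r hr (h.trans hNM)
    · exact hMS r hr h
  · intro ℓ hℓ hℓS
    refine (hFa (some ⟨⟨ℓ, hℓ⟩, hℓS⟩)).trans ?_
    show dch ψ (ℓ : ZMod N) * ((dch ψ (ℓ : ZMod N))⁻¹ * a ℓ) = a ℓ
    rw [← mul_assoc, mul_inv_cancel₀ (hunit ⟨ℓ, hℓ⟩ hℓS), one_mul]
  · have h7 : ModularFormClass.qCoeff F q = dch ψ (q : ZMod N) * u := hFa none
    rw [h7, mul_pow, hu2, ← hε]
    have h8 := wt_neb hNM ψ hq hM
    have h9 : dch ψ (q : ZMod N) ≠ 0 := by
      have hc : Nat.Coprime q N := (Nat.Prime.coprime_iff_not_dvd hq).mpr fun hd => hM (hd.trans hNM)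
      have := ((ZMod.unitOfCoprime _ hc).isUnit.map (dch ψ)).ne_zero
      rwa [ZMod.coe_unitOfCoprime] at this
    rw [h8]
    exact mul_inv_cancel₀ (pow_ne_zero 2 h9)

end Class

end Fermat.Agent.RTE

end
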