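import Fermat.Agent.RTE.NewClass
import Fermat.Agent.RT.EigenC
import Fermat.Agent.TwES.Transport

/-!
# The `v`-new part of the `𝔪`-part of the cohomology with coefficients in `𝒪[Δ]`
-/

set_option autoImplicit false
set_option linter.style.haveILetI false

noncomputable section

open CongruenceSubgroup ModularCurve ModularCurve.Period Polynomial IsLocalRing
open scoped TensorProduct

namespace Fermat.Agent.RTE

open Fermat.Agent.TwHecke Fermat.Agent.TwExact Fermat.Agent.TwES Fermat.Agent.RT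
open Fermat.Agent.HeckeRep

section Push

variable {M q : ℕ} {R R' : Type*} [CommRing R] [CommRing R'] {ε : (ZMod M)ˣ →* Rˣ}
  {ε' : (ZMod M)ˣ →* R'ˣ} (f : R →+* R') (hε : ∀ u, ((ε' u : R'ˣ) : R') = f ((ε u : Rˣ) : R))

include hε in
theorem infl_push (u : (ZMod (M * q))ˣ) :
    (((infl (dvd_mul_right M q) ε') u : R'ˣ) : R') =
      f (((infl (dvd_mul_right M q) ε) u : Rˣ) : R) := hε _

theorem pushH_trd (hq : q.Prime) (hM : ¬ q ∣ M) [NeZero q]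
    (x : HM (M * q) (infl (dvd_mul_right M q) ε) R) :
    pushH f hε (trd hq hM ε R x) = trd hq hM ε' R' (pushH f (infl_push f hε) x) := by
  induction x using H1.ind with
  | h c =>
  show pushH f hε (H1.mk ((trCorr hq hM).Ztr R (tr_isWeight hq hM ε) c)) =
    H1.mk ((trCorr hq hM).Ztr R' (tr_isWeight hq hM ε') (pushZ f (infl_push f hε) c))
  rw [pushH_mk]
  congr 1
  ext g
  rw [pushZ_apply, Corr.Ztr_apply, Corr.Ztr_apply, map_sum]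
  refine Finset.sum_congr rfl fun i _ => ?_
  rw [one_smul, one_smul, pushZ_apply]

theorem pushH_wq (hq : q.Prime) (hM : ¬ q ∣ M)
    (x : HM (M * q) (infl (dvd_mul_right M q) ε) R) :
    pushH f (infl_push f hε) (wq hq hM ε R x) =
      wq hq hM ε' R' (pushH f (infl_push f hε) x) := by
  induction x using H1.ind with
  | h c =>
  show pushH f (infl_push f hε)
      (H1.mk ((wCorr hq hM).Ztr R (w_isWeight hq hM ε (wt ε (unitOf M q))) c)) =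
    H1.mk ((wCorr hq hM).Ztr R' (w_isWeight hq hM ε' (wt ε' (unitOf M q)))
      (pushZ f (infl_push f hε) c))
  rw [pushH_mk]
  congr 1
  ext g
  rw [pushZ_apply, Corr.Ztr_apply, Corr.Ztr_apply, map_sum]
  refine Finset.sum_congr rfl fun i _ => ?_
  rw [smul_eq_mul, map_mul, smul_eq_mul, pushZ_apply, wt_push f hε]

theorem pushH_trB (hq : q.Prime) (hM : ¬ q ∣ M) [NeZero q]
    (x : HM (M * q) (infl (dvd_mul_right M q) ε) R) :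
    pushH f hε (trB ε R hq hM x) = trB ε' R' hq hM (pushH f (infl_push f hε) x) := by
  rw [trB_apply, trB_apply, pushH_trd f hε, pushH_wq f hε]

end Push

section PushLin

variable {𝒪 : Type} [CommRing 𝒪] [IsDomain 𝒪] [Algebra 𝒪 ℂ] {Δ : Type} [CommGroup Δ] [Fintype Δ]

/-- push-forward along a character of `Δ` as an `𝒪`-linear map -/
def pushLin {M : ℕ} {E : (ZMod M)ˣ →* (MonoidAlgebra 𝒪 Δ)ˣ} {E' : (ZMod M)ˣ →* ℂˣ}
    (χ : Δ →* ℂˣ) (h : ∀ u, ((E' u : ℂˣ) : ℂ) =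
      chiO (algebraMap 𝒪 ℂ) χ ((E u : (MonoidAlgebra 𝒪 Δ)ˣ) : MonoidAlgebra 𝒪 Δ)) :
    HM M E (MonoidAlgebra 𝒪 Δ) →ₗ[𝒪] HM M E' ℂ where
  toFun := pushH (chiO (algebraMap 𝒪 ℂ) χ) h
  map_add' := map_add _
  map_smul' a x := by
    rw [RingHom.id_apply, ← algebraMap_smul (MonoidAlgebra 𝒪 Δ) a x, pushH_smul,
      ← algebraMap_smul ℂ a (pushH _ _ x)]
    congr 1
    rw [MonoidAlgebra.coe_algebraMap, Function.comp_apply]
    simp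

theorem pushLin_apply {M : ℕ} {E : (ZMod M)ˣ →* (MonoidAlgebra 𝒪 Δ)ˣ} {E' : (ZMod M)ˣ →* ℂˣ}
    (χ : Δ →* ℂˣ) (h : ∀ u, ((E' u : ℂˣ) : ℂ) =
      chiO (algebraMap 𝒪 ℂ) χ ((E u : (MonoidAlgebra 𝒪 Δ)ˣ) : MonoidAlgebra 𝒪 Δ))
    (x : HM M E (MonoidAlgebra 𝒪 Δ)) :
    pushLin χ h x = pushH (chiO (algebraMap 𝒪 ℂ) χ) h x := rfl

variable [FaithfulSMul 𝒪 ℂ]

/-- the push-forwards to the characters of `Δ` are jointly injective -/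
theorem exists_pushLin_ne_zero {M : ℕ} [NeZero M] (τ : (ZMod M)ˣ →* Δ)
    {E : (ZMod M)ˣ →* (MonoidAlgebra 𝒪 Δ)ˣ} (hE : (taut 𝒪 τ) ^ 2 = E)
    (H : Submodule (MonoidAlgebra 𝒪 Δ) (HM M E (MonoidAlgebra 𝒪 Δ))) [Module.IsTorsionFree 𝒪 H]
    {E' : (Δ →* ℂˣ) → (ZMod M)ˣ →* ℂˣ}
    (h : ∀ χ u, ((E' χ u : ℂˣ) : ℂ) =
      chiO (algebraMap 𝒪 ℂ) χ ((E u : (MonoidAlgebra 𝒪 Δ)ˣ) : MonoidAlgebra 𝒪 Δ))
    {v : ℂ ⊗[𝒪] H} (hv : v ≠ 0) :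
    ∃ χ : Δ →* ℂˣ, ((pushLin χ (h χ)).comp (H.subtype.restrictScalars 𝒪)).liftBaseChange ℂ v
      ≠ 0 := by
  subst hE
  have h1 : ∀ χ : Δ →* ℂˣ, (χ.comp τ) ^ 2 = E' χ := fun χ => by
    ext u
    rw [h χ u, push_taut_sq (algebraMap 𝒪 ℂ) χ τ u]
  obtain rfl : E' = fun χ => (χ.comp τ) ^ 2 := funext fun χ => (h1 χ).symm
  obtain ⟨χ, hχ⟩ := exists_pushC_ne_zero τ H hv
  exact ⟨χ, hχ⟩

end PushLin

section Main

variable {𝒪 : Type} [CommRing 𝒪] {Δ : Type} [CommGroup Δ]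
  [IsLocalRing (MonoidAlgebra 𝒪 Δ)]

/-- the kernel of the two traces on the `𝔪`-part -/
def newHm {M q : ℕ} (hq : q.Prime) (hM : ¬ q ∣ M) [NeZero q]
    (ε : (ZMod M)ˣ →* (MonoidAlgebra 𝒪 Δ)ˣ) (S : Set ℕ)
    (θ : PIdx S → ResidueField (MonoidAlgebra 𝒪 Δ)) :
    Submodule (MonoidAlgebra 𝒪 Δ) (HM (M * q) (infl (dvd_mul_right M q) ε)
      (MonoidAlgebra 𝒪 Δ)) :=
  Hm (M * q) (infl (dvd_mul_right M q) ε) (MonoidAlgebra 𝒪 Δ) S θ ⊓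
    LinearMap.ker (trd hq hM ε (MonoidAlgebra 𝒪 Δ)) ⊓
    LinearMap.ker (trB ε (MonoidAlgebra 𝒪 Δ) hq hM)

theorem mem_newHm {M q : ℕ} (hq : q.Prime) (hM : ¬ q ∣ M) [NeZero q]
    (ε : (ZMod M)ˣ →* (MonoidAlgebra 𝒪 Δ)ˣ) (S : Set ℕ)
    (θ : PIdx S → ResidueField (MonoidAlgebra 𝒪 Δ))
    (x : HM (M * q) (infl (dvd_mul_right M q) ε) (MonoidAlgebra 𝒪 Δ)) :
    x ∈ newHm hq hM ε S θ ↔
      x ∈ Hm (M * q) (infl (dvd_mul_right M q) ε) (MonoidAlgebra 𝒪 Δ) S θ ∧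
      trd hq hM ε (MonoidAlgebra 𝒪 Δ) x = 0 ∧ trB ε (MonoidAlgebra 𝒪 Δ) hq hM x = 0 := by
  rw [newHm, Submodule.mem_inf, Submodule.mem_inf, LinearMap.mem_ker, LinearMap.mem_ker, and_assoc]

variable [IsDomain 𝒪] [IsNoetherianRing (MonoidAlgebra 𝒪 Δ)]
  [IsAdicComplete (maximalIdeal (MonoidAlgebra 𝒪 Δ)) (MonoidAlgebra 𝒪 Δ)]

/-- The `𝔪`-part is torsion-free. -/
theorem eq_zero_of_smul_Hm {M : ℕ} [NeZero M] {ε : (ZMod M)ˣ →* (MonoidAlgebra 𝒪 Δ)ˣ} {S : Set ℕ}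
    {θ : PIdx S → ResidueField (MonoidAlgebra 𝒪 Δ)} (hne : NonEis M ε S θ)
    {x : HM M ε (MonoidAlgebra 𝒪 Δ)} (hx : x ∈ Hm M ε (MonoidAlgebra 𝒪 Δ) S θ) {n : 𝒪}
    (hn : n ≠ 0) (h : (algebraMap 𝒪 (MonoidAlgebra 𝒪 Δ) n) • x = 0) : x = 0 := by
  refine HmMap_injective hne
    (LinearMap.lsmul (MonoidAlgebra 𝒪 Δ) (MonoidAlgebra 𝒪 Δ) (algebraMap 𝒪 _ n)) ?_ hx ?_
  · intro a b hab
    rw [LinearMap.lsmul_apply, LinearMap.lsmul_apply, algebraMap_smul, algebraMap_smul] at hab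
    ext g
    have h1 := congrArg (fun f : MonoidAlgebra 𝒪 Δ => f.coeff g) hab
    simp only [MonoidAlgebra.coeff_smul, Finsupp.smul_apply, smul_eq_mul] at h1
    exact mul_left_cancel₀ hn h1
  · rw [← h]
    generalize x = z
    induction z using H1.ind with
    | h c =>
      rw [H1.map_mk, ← H1.mk_smul]
      rfl

end Main

/-! ### Eigenvectors over `ℂ` -/

section Lift

variable {𝒪 : Type*} [CommRing 𝒪] [Algebra 𝒪 ℂ] {C H W : Type*} [AddCommGroup C] [Module 𝒪 C]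
  [AddCommGroup H] [Module 𝒪 H] [AddCommGroup W] [Module 𝒪 W] [Module ℂ W] [IsScalarTower 𝒪 ℂ W]

theorem liftBaseChange_mem (f : H →ₗ[𝒪] W) (P : Submodule ℂ W) (h : ∀ y, f y ∈ P)
    (v : ℂ ⊗[𝒪] H) : f.liftBaseChange ℂ v ∈ P := by
  induction v using TensorProduct.induction_on with
  | zero => rw [map_zero]; exact P.zero_mem
  | tmul z y => rw [LinearMap.liftBaseChange_tmul]; exact P.smul_mem _ (h y)
  | add a b ha hb => rw [map_add]; exact P.add_mem ha hb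

theorem liftBaseChange_comp (f : H →ₗ[𝒪] W) (g : C →ₗ[𝒪] H) (v : ℂ ⊗[𝒪] C) :
    f.liftBaseChange ℂ (g.baseChange ℂ v) = (f.comp g).liftBaseChange ℂ v := by
  induction v using TensorProduct.induction_on with
  | zero => rw [map_zero, map_zero, map_zero]
  | tmul z y => rw [LinearMap.baseChange_tmul, LinearMap.liftBaseChange_tmul,
      LinearMap.liftBaseChange_tmul, LinearMap.comp_apply]
  | add a b ha hb => rw [map_add, map_add, map_add, ha, hb]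

end Lift

section Point

variable {𝒪 : Type} [CommRing 𝒪] [IsDomain 𝒪] [IsDiscreteValuationRing 𝒪] [Algebra 𝒪 ℂ]
  [FaithfulSMul 𝒪 ℂ] {Δ : Type} [CommGroup Δ] [Fintype Δ]
  [IsLocalRing (MonoidAlgebra 𝒪 Δ)] [IsNoetherianRing (MonoidAlgebra 𝒪 Δ)]
  [IsAdicComplete (maximalIdeal (MonoidAlgebra 𝒪 Δ)) (MonoidAlgebra 𝒪 Δ)]

/-- the scalar of the normalised Hecke operator -/
abbrev nsc (𝒪 : Type) [CommRing 𝒪] {Δ : Type} [CommGroup Δ] {N : ℕ} (τ₀ : (ZMod N)ˣ →* Δ)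
    (ℓ : ℕ) : MonoidAlgebra 𝒪 Δ := MonoidAlgebra.single (τ₀ (unitOf N (ℓ : ℤ))) (1 : 𝒪)

omit [IsDiscreteValuationRing 𝒪] [FaithfulSMul 𝒪 ℂ]
  [IsLocalRing (MonoidAlgebra 𝒪 Δ)] [IsNoetherianRing (MonoidAlgebra 𝒪 Δ)]
  [IsAdicComplete (maximalIdeal (MonoidAlgebra 𝒪 Δ)) (MonoidAlgebra 𝒪 Δ)] in
theorem chiO_nsc {N : ℕ} [NeZero N] (τ₀ : (ZMod N)ˣ →* Δ) (χ : Δ →* ℂˣ) {ℓ : ℕ}
    (hc : Nat.Coprime ℓ N) :
    chiO (algebraMap 𝒪 ℂ) χ (nsc 𝒪 τ₀ ℓ) = dch (χ.comp τ₀) (ℓ : ZMod N) := by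
  rw [chiO_single, map_one, one_mul]
  have hu : IsUnit (((ℓ : ℤ)) : ZMod N) := by
    rw [Int.cast_natCast]
    exact (ZMod.isUnit_iff_coprime _ _).mpr hc
  have h1 : ((unitOf N (ℓ : ℤ) : (ZMod N)ˣ) : ZMod N) = (ℓ : ZMod N) := by
    rw [val_unitOf hu, Int.cast_natCast]
  rw [dch, ← h1, MulChar.ofUnitHom_coe]
  rfl

/-- **Points of the kernel of the traces.** -/
theorem occursNew_of_point {N M q : ℕ} [NeZero N] [NeZero M] [NeZero q] (hNM : N ∣ M)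
    (hq : q.Prime) (hM : ¬ q ∣ M) {S : Finset ℕ} (hMS : ∀ r : ℕ, r.Prime → r ∣ M → r ∈ S)
    (τ₀ : (ZMod N)ˣ →* Δ) {ε : (ZMod M)ˣ →* (MonoidAlgebra 𝒪 Δ)ˣ}
    (hε : (taut 𝒪 (τ₀.comp (ZMod.unitsMap hNM))) ^ 2 = ε)
    {θ : PIdx (↑S : Set ℕ) → ResidueField (MonoidAlgebra 𝒪 Δ)}
    (ℓ₀ : PIdx (↑S : Set ℕ)) (hℓ₀ : ((ℓ₀.1 : ℕ) : ZMod (M * q)) = 1) (hodd : Odd (ℓ₀.1 : ℕ))
    (hθ : θ ℓ₀ ≠ residue _ (((ℓ₀.1 : ℕ) : MonoidAlgebra 𝒪 Δ) + 1))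
    {C : Type*} [AddCommGroup C] [Module 𝒪 C]
    (ι : C →ₗ[𝒪] HM (M * q) (infl (dvd_mul_right M q) ε) (MonoidAlgebra 𝒪 Δ))
    (hι : Function.Injective ι) (himg : ∀ z, ι z ∈ newHm hq hM ε (↑S : Set ℕ) θ)
    (tT : PIdx (↑S : Set ℕ) → Module.End 𝒪 C)
    (htT : ∀ (ℓ : PIdx (↑S : Set ℕ)) (z : C), ι (tT ℓ z) = nsc 𝒪 τ₀ (ℓ.1 : ℕ) •
      heckeP (M * q) (infl (dvd_mul_right M q) ε) (MonoidAlgebra 𝒪 Δ) ℓ.1 (ι z))
    {v : ℂ ⊗[𝒪] C} (hv : v ≠ 0) {a : ℕ → ℂ}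
    (ha : ∀ ℓ : PIdx (↑S : Set ℕ), (tT ℓ).baseChange ℂ v = a (ℓ.1 : ℕ) • v) :
    OccursNew S q a := by
  classical
  haveI : Fact q.Prime := ⟨hq⟩
  haveI : NeZero (M * q) := ⟨mul_ne_zero (NeZero.ne M) hq.ne_zero⟩
  set τ : (ZMod M)ˣ →* Δ := τ₀.comp (ZMod.unitsMap hNM) with hτ
  have hone : unitOf (M * q) (((ℓ₀.1 : ℕ) : ℕ) : ℤ) = 1 :=
    unitOf_eq_one (by rw [Int.cast_natCast, hℓ₀])
  have hne : NonEis (M * q) (infl (dvd_mul_right M q) ε) (↑S : Set ℕ) θ := by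
    refine ⟨ℓ₀, not_dvd_of_eq_one ℓ₀.1.2 hℓ₀, ?_⟩
    rw [hone, wt_one]
    exact hθ
  let H := newHm hq hM ε (↑S : Set ℕ) θ
  haveI htf : Module.IsTorsionFree 𝒪 H := by
    refine Module.isTorsionFree_iff_smul_eq_zero.mpr fun n x h => ?_
    by_cases hn : n = 0
    · exact Or.inl hn
    · refine Or.inr (Subtype.ext ?_)
      refine eq_zero_of_smul_Hm hne ((mem_newHm hq hM ε _ θ _).mp x.2).1 hn ?_
      rw [algebraMap_smul]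
      exact congrArg Subtype.val h
  let ι' : C →ₗ[𝒪] H :=
    { toFun := fun z => ⟨ι z, himg z⟩
      map_add' := fun x y => Subtype.ext (map_add ι x y)
      map_smul' := fun c x => Subtype.ext (map_smul ι c x) }
  have hι' : Function.Injective ι' := fun x y h => hι (congrArg Subtype.val h)
  have hv' : ι'.baseChange ℂ v ≠ 0 := by
    intro h0
    apply hv
    have h1 := Module.Flat.lTensor_preserves_injective_linearMap (M := ℂ) ι' hι'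
    apply h1
    rw [map_zero]
    exact h0
  let ε' : (Δ →* ℂˣ) → (ZMod M)ˣ →* ℂˣ := fun χ => (χ.comp τ) ^ 2
  have hε' : ∀ χ u, ((ε' χ u : ℂˣ) : ℂ) =
      chiO (algebraMap 𝒪 ℂ) χ ((ε u : (MonoidAlgebra 𝒪 Δ)ˣ) : MonoidAlgebra 𝒪 Δ) := by
    intro χ u
    rw [← hε]
    exact push_taut_sq (algebraMap 𝒪 ℂ) χ τ u
  have hE : (taut 𝒪 (τ.comp (ZMod.unitsMap (dvd_mul_right M q)))) ^ 2 =
      infl (dvd_mul_right M q) ε := by
    rw [← hε]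
    rfl
  have hpush : ∀ χ u, ((infl (dvd_mul_right M q) (ε' χ) u : ℂˣ) : ℂ) =
      chiO (algebraMap 𝒪 ℂ) χ ((infl (dvd_mul_right M q) ε u : (MonoidAlgebra 𝒪 Δ)ˣ) :
        MonoidAlgebra 𝒪 Δ) := fun χ => infl_push _ (hε' χ)
  obtain ⟨χ, hχ⟩ := exists_pushLin_ne_zero (τ.comp (ZMod.unitsMap (dvd_mul_right M q))) hE H
    hpush hv'
  rw [liftBaseChange_comp] at hχ
  set f : C →ₗ[𝒪] HM (M * q) (infl (dvd_mul_right M q) (ε' χ)) ℂ :=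
    ((pushLin χ (hpush χ)).comp (H.subtype.restrictScalars 𝒪)).comp ι' with hf
  have hfz : ∀ z, f z = pushH (chiO (algebraMap 𝒪 ℂ) χ) (hpush χ) (ι z) := fun z => rfl
  set y := f.liftBaseChange ℂ v with hy
  -- parabolicity
  have hpar : y ∈ HM.par (M * q) (infl (dvd_mul_right M q) (ε' χ)) ℂ := by
    refine liftBaseChange_mem f _ (fun z => ?_) v
    have hzH : ι z ∈ Hm (M * q) (infl (dvd_mul_right M q) ε) (MonoidAlgebra 𝒪 Δ) _ θ :=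
      ((mem_newHm hq hM ε _ θ _).mp (himg z)).1
    obtain ⟨w, hw⟩ := (mem_mpart _).mp hzH
      (MvPolynomial.X ℓ₀ - MvPolynomial.C (((ℓ₀.1 : ℕ) : MonoidAlgebra 𝒪 Δ) + 1)) (by
        rw [map_sub, evk_X, evk_C]
        exact sub_ne_zero.mpr hθ)
    rw [map_sub, cev_X, cev_C, LinearMap.sub_apply, Module.algebraMap_end_apply] at hw
    haveI : Fact (ℓ₀.1 : ℕ).Prime := ⟨ℓ₀.1.2⟩
    rw [hfz, ← hw, map_sub, pushH_smul]
    have h2 := heckeH_sub_mem_par (ε := infl (dvd_mul_right M q) (ε' χ)) (A := ℂ) hℓ₀ hodd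
      (isUnit_iff_ne_zero.mpr (by exact_mod_cast ℓ₀.1.2.ne_zero : (((ℓ₀.1 : ℕ) : ℂ)) ≠ 0))
      (pushH (chiO (algebraMap 𝒪 ℂ) χ) (hpush χ) w)
    rw [← pushH_heckeH] at h2
    have h3 : chiO (algebraMap 𝒪 ℂ) χ (((ℓ₀.1 : ℕ) : MonoidAlgebra 𝒪 Δ) + 1) =
        ((ℓ₀.1 : ℕ) : ℂ) + 1 := by
      rw [map_add, map_natCast, map_one]
    rw [h3]
    exact h2
  have htr1 : trd hq hM (ε' χ) ℂ y = 0 := by
    rw [← LinearMap.mem_ker]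
    refine liftBaseChange_mem f _ (fun z => ?_) v
    rw [LinearMap.mem_ker, hfz, ← pushH_trd _ (hε' χ),
      ((mem_newHm hq hM ε _ θ _).mp (himg z)).2.1, map_zero]
  have htr2 : trB (ε' χ) ℂ hq hM y = 0 := by
    rw [← LinearMap.mem_ker]
    refine liftBaseChange_mem f _ (fun z => ?_) v
    rw [LinearMap.mem_ker, hfz, ← pushH_trB _ (hε' χ),
      ((mem_newHm hq hM ε _ θ _).mp (himg z)).2.2, map_zero]
  refine occursNew_of_class (M := M) hNM hq hM hMS (χ.comp τ₀) (ε := ε' χ) rfl hχ hpar htr1 htr2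
    (fun ℓ hℓ => ?_)
  have hc : Nat.Coprime (ℓ : ℕ) N := (Nat.Prime.coprime_iff_not_dvd ℓ.2).mpr
    fun hd => hℓ (hMS _ ℓ.2 (hd.trans hNM))
  refine eigen_of_liftBaseChange f (tT ⟨ℓ, hℓ⟩) (dch (χ.comp τ₀) ((ℓ : ℕ) : ZMod N) •
    heckeP (M * q) (infl (dvd_mul_right M q) (ε' χ)) ℂ ℓ) (fun z => ?_) (ha ⟨ℓ, hℓ⟩)
  rw [hfz, htT, pushH_smul, chiO_nsc τ₀ χ hc, pushH_heckeP, LinearMap.smul_apply, hfz]

end Point

end Fermat.Agent.RTE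

end
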