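import Fermat.Agent.RTE.NewPart
import Fermat.Agent.RT.NTheta

/-!
# The trace of Frobenius at a prime `v` where the eigenform is `v`-new
-/

set_option autoImplicit false
set_option linter.style.haveILetI false

noncomputable section

open CongruenceSubgroup ModularCurve ModularCurve.Period Polynomial IsLocalRing
open scoped TensorProduct

namespace Fermat.Agent.RTE

open Fermat.Agent.HeckePar Fermat.Agent.GalRep Fermat.Agent.RT

/-- the eigenvalue system `a` occurs on a normalised eigenform of level `M₁ v`, `v ∤ M₁`, with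
`a_v² = 1` -/
def OccursNew (S : Finset ℕ) (v : ℕ) (a : ℕ → ℂ) : Prop :=
  ∃ (M₁ : ℕ) (_ : NeZero M₁) (F : CuspForm (Gamma0 (M₁ * v)) 2), F.IsNormalizedEigenform ∧
    ¬ v ∣ M₁ ∧ (∀ r : ℕ, r.Prime → r ∣ M₁ → r ∈ S) ∧
    (∀ ℓ : ℕ, ℓ.Prime → ℓ ∉ S → ModularFormClass.qCoeff F ℓ = a ℓ) ∧
    ModularFormClass.qCoeff F v ^ 2 = 1

section Trace

variable {𝒪 : Type} [CommRing 𝒪] [IsDomain 𝒪] [IsDiscreteValuationRing 𝒪]
  [IsAdicComplete (maximalIdeal 𝒪) 𝒪] [Finite (ResidueField 𝒪)]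
  [CharZero 𝒪] [Algebra 𝒪 ℂ] [FaithfulSMul 𝒪 ℂ] {p : ℕ} [Fact p.Prime] {S : Finset ℕ}

theorem charpoly_trace_sq {A : Type*} [CommRing A] [IsDomain A] [CharZero A] {V : Type*}
    [AddCommGroup V] [Module A V] [Module.Free A V] [Module.Finite A V]
    (hV : Module.finrank A V = 2) (f : Module.End A V) {v : ℕ}
    (h : f.charpoly = X ^ 2 - C ((v : A) + 1) * X + C (v : A) ∨
      f.charpoly = X ^ 2 + C ((v : A) + 1) * X + C (v : A)) :
    LinearMap.trace A V f ^ 2 = ((v : A) + 1) ^ 2 := by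
  rcases h with h | h
  · rw [(HeckeRep.charpoly_coeff_zero hV f h).1]
  · have h1 : (X ^ 2 + C ((v : A) + 1) * X + C (v : A) : A[X]) =
      X ^ 2 - C (-((v : A) + 1)) * X + C (v : A) := by
      rw [C_neg]; ring
    rw [h1] at h
    rw [(HeckeRep.charpoly_coeff_zero hV f h).1]
    ring

/-- **Trace of Frobenius at a new prime.** -/
theorem trace_sq_of_occursNew (h35 : Stmt35) (hp𝒪 : (p : 𝒪) ∈ maximalIdeal 𝒪) (hpS : p ∈ S)
    {v : ℕ} (hv : v.Prime) (hvp : v ≠ p) (hvS : v ∈ S)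
    {R : Type} [CommRing R] [IsLocalRing R] (ρ : GaloisRepAdic R) (τ : ℕ → R)
    (hτ : ∀ ℓ : ℕ, ℓ.Prime → ℓ ∉ S → ∀ A : ValuationSubring (AlgebraicClosure ℚ),
      A.LiesOverPrime ℓ → ∀ σ : AlgebraicClosure ℚ ≃ₐ[ℚ] AlgebraicClosure ℚ,
        A.IsFrobeniusAt σ ℓ →
        LinearMap.charpoly (ρ.ρ σ) = X ^ 2 - C (τ ℓ) * X + C (ℓ : R))
    {T : Type} [CommRing T] [IsLocalRing T] [Algebra 𝒪 T] [Module.Finite 𝒪 T] (φ : R →+* T)
    [IsLocalHom φ] (x : T →ₐ[𝒪] ℂ) (H : OccursNew S v (fun ℓ => x (φ (τ ℓ))))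
    {A : ValuationSubring (AlgebraicClosure ℚ)} (hA : A.LiesOverPrime v)
    {σ : AlgebraicClosure ℚ ≃ₐ[ℚ] AlgebraicClosure ℚ} (hσ : A.IsFrobeniusAt σ v) :
    x (φ (ρ.trace σ)) ^ 2 = ((v : ℂ) + 1) ^ 2 := by
  classical
  haveI : Fact v.Prime := ⟨hv⟩
  obtain ⟨M₁, _, F, hF, hvM, hMS, hFa, hFv⟩ := H
  obtain ⟨O', _, _, _, _, _, _, _, _, _, y, i, hinj, hi, hiy⟩ := exists_dvr_ext x
  have hiy' : ∀ t, i (y t) = x t := fun t => by rw [← hiy]; rfl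
  have hloc : IsLocalHom (y : T →+* O') := by
    refine isLocalHom_of_isIntegral _ ?_
    have h1 : (algebraMap 𝒪 O').IsIntegral := algebraMap_isIntegral_iff.mpr inferInstance
    rw [← AlgHom.comp_algebraMap y] at h1
    exact RingHom.IsIntegral.tower_top _ _ h1
  have hloc' : IsLocalHom ((y : T →+* O').comp φ) := RingHom.isLocalHom_comp _ _
  have hpO' : (p : O') ∈ maximalIdeal O' := by
    have h := map_nonunit (algebraMap 𝒪 O') (p : 𝒪) hp𝒪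
    rwa [map_natCast] at h
  set S₁ : Finset ℕ := S.erase v with hS₁
  have hpS₁ : p ∈ S₁ := Finset.mem_erase.mpr ⟨hvp.symm, hpS⟩
  have hvS₁ : v ∉ S₁ := Finset.notMem_erase v S
  have hMS₁ : ∀ r : ℕ, r.Prime → r ∣ M₁ → r ∈ S₁ := fun r hr hrM =>
    Finset.mem_erase.mpr ⟨fun h => hvM (h ▸ hrM), hMS r hr hrM⟩
  have hc : Nat.Coprime v M₁ := (Nat.Prime.coprime_iff_not_dvd hv).mpr hvM
  let χ : HeckeAlgS (↑S₁ : Set ℕ) →+* ℂ :=
    MvPolynomial.eval₂Hom (Int.castRingHom ℂ) fun ℓ => ModularFormClass.qCoeff F (ℓ.1 : ℕ)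
  have hχ : ∀ ℓ : {ℓ : Nat.Primes // (ℓ : ℕ) ∉ (↑S₁ : Set ℕ)},
      ModularFormClass.qCoeff F (ℓ.1 : ℕ) = χ (MvPolynomial.X ℓ) := fun ℓ => by
    rw [MvPolynomial.eval₂Hom_X']
  have hval : ∀ ℓ : {ℓ : Nat.Primes // (ℓ : ℕ) ∉ (↑S₁ : Set ℕ)},
      χ (MvPolynomial.X ℓ) ∈ (i : O' →+* ℂ).range := by
    intro ℓ
    rw [← hχ]
    by_cases hℓ : (ℓ.1 : ℕ) = v
    · rw [hℓ]
      have h4 : (ModularFormClass.qCoeff F v - 1) * (ModularFormClass.qCoeff F v + 1) = 0 := by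
        linear_combination hFv
      rcases mul_eq_zero.mp h4 with h | h
      · rw [sub_eq_zero.mp h]
        exact one_mem _
      · rw [eq_neg_of_add_eq_zero_left h]
        exact neg_mem (one_mem _)
    · have hℓS : (ℓ.1 : ℕ) ∉ S := fun h =>
        ℓ.2 (Finset.mem_coe.mpr (Finset.mem_erase.mpr ⟨hℓ, h⟩))
      rw [hFa _ ℓ.1.2 hℓS]
      exact ⟨y (φ (τ (ℓ.1 : ℕ))), hiy' _⟩
  have hrange : ∀ a ∈ χ.range, a ∈ (i : O' →+* ℂ).range := by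
    rintro _ ⟨t, rfl⟩
    exact mem_of_forall_X χ _ hval t
  obtain ⟨iota, hiota⟩ := exists_section (i : O' →+* ℂ) hi χ.range hrange
  obtain ⟨O'', _, _, _, _, _, _, _, _, _, hinj'', ρ', hρ', hρ'v⟩ :=
    exists_rep_of_eigenform h35 hc p hvp S₁ hpS₁ hvS₁ hMS₁ χ F hF hχ hFv O' hpO' iota
  let ψ : R →+* O'' := (algebraMap O' O'').comp ((y : T →+* O').comp φ)
  have hψ : IsLocalHom ψ := RingHom.isLocalHom_comp _ _
  set ρx : GaloisRepAdic O'' := ρ.baseChangeAlong ψ hψ with hρx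
  have htr : ρx.trace σ = ρ'.trace σ := by
    refine trace_eq_of_frobenius (↑S : Set ℕ) S.finite_toSet ?_ σ
    intro ℓ hℓ hℓS B hB g hg
    have hℓv : ℓ ≠ v := fun h => hℓS (h ▸ hvS)
    have hℓS₁ : ℓ ∉ (↑S₁ : Set ℕ) := fun h => hℓS (Finset.mem_of_mem_erase h)
    rw [hρx, charpoly_baseChangeAlong_adic, hτ ℓ hℓ hℓS B hB g hg,
      hρ' ⟨⟨ℓ, hℓ⟩, hℓS₁⟩ hℓv B hB g hg]
    have h1 : iota (χ.rangeRestrict (MvPolynomial.X ⟨⟨ℓ, hℓ⟩, hℓS₁⟩)) = y (φ (τ ℓ)) := by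
      apply hi
      rw [hiy']
      refine (hiota _).trans ?_
      rw [RingHom.coe_rangeRestrict, ← hχ]
      exact hFa ℓ hℓ hℓS
    rw [h1]
    simp [ψ]
  have h1 : ρx.trace σ = ψ (ρ.trace σ) := by
    letI : Algebra R O'' := ψ.toAlgebra
    exact LinearMap.trace_baseChange (ρ.ρ σ) O''
  have h2 : ρ'.trace σ ^ 2 = ((v : O'') + 1) ^ 2 :=
    charpoly_trace_sq ρ'.finrank_eq _ (hρ'v A hA σ hσ)
  rw [← htr, h1] at h2
  have h3 : y (φ (ρ.trace σ)) ^ 2 = ((v : O') + 1) ^ 2 := by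
    apply hinj''
    rw [map_pow, map_pow, map_add, map_natCast, map_one]
    exact h2
  rw [← hiy', ← map_pow, h3, map_pow, map_add, map_natCast, map_one]

end Trace

end Fermat.Agent.RTE

end
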