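import Fermat.Agent.RTE.HmEq
import Fermat.Agent.TwHecke.Main

/-!
# The `q`-new part of the `𝔪`-part vanishes if `q` is not level raising
-/

set_option autoImplicit false
set_option linter.style.haveILetI false

noncomputable section

open CongruenceSubgroup ModularCurve ModularCurve.Period Polynomial IsLocalRing

namespace Fermat.Agent.RTE

open Fermat.Agent.TwExact Fermat.Agent.TwHecke Fermat.Agent.HeckePar Fermat.Agent.GalRep

section Cev

variable {M q : ℕ} {R : Type} [CommRing R] (ε : (ZMod M)ˣ →* Rˣ) {A : Type} [AddCommGroup A]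
  [Module R A] {S : Set ℕ}

theorem trd_cev (hq : q.Prime) (hM : ¬ q ∣ M) [NeZero q] (hS : ∀ ℓ : PIdx S, (ℓ.1 : ℕ) ≠ q)
    (t : MvPolynomial (PIdx S) R) (x : HM (M * q) (infl (dvd_mul_right M q) ε) A) :
    trd hq hM ε A (cev (hop (M * q) (infl (dvd_mul_right M q) ε) A S) (hop_commute _ _ A S) t x) =
      cev (hop M ε A S) (hop_commute M ε A S) t (trd hq hM ε A x) :=
  cev_natural _ _ _ (fun i x => by
    haveI : Fact (i.1 : ℕ).Prime := ⟨i.1.2⟩
    exact trd_heckeH ε hq hM (hS i) x) t x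

theorem trB_cev (hq : q.Prime) (hM : ¬ q ∣ M) [NeZero q] (hS : ∀ ℓ : PIdx S, (ℓ.1 : ℕ) ≠ q)
    (t : MvPolynomial (PIdx S) R) (x : HM (M * q) (infl (dvd_mul_right M q) ε) A) :
    trB ε A hq hM (cev (hop (M * q) (infl (dvd_mul_right M q) ε) A S) (hop_commute _ _ A S) t x) =
      cev (hop M ε A S) (hop_commute M ε A S) t (trB ε A hq hM x) :=
  cev_natural _ _ _ (fun i x => by
    haveI : Fact (i.1 : ℕ).Prime := ⟨i.1.2⟩
    exact trB_heckeH ε hq hM (hS i) x) t x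

theorem res_cev (hq : q.Prime) (hS : ∀ ℓ : PIdx S, (ℓ.1 : ℕ) ≠ q)
    (t : MvPolynomial (PIdx S) R) (x : HM M ε A) :
    res (dvd_mul_right M q) ε A (cev (hop M ε A S) (hop_commute M ε A S) t x) =
      cev (hop (M * q) (infl (dvd_mul_right M q) ε) A S) (hop_commute _ _ A S) t
        (res (dvd_mul_right M q) ε A x) :=
  cev_natural _ _ _ (fun i x => by
    haveI : Fact (i.1 : ℕ).Prime := ⟨i.1.2⟩
    exact res_heckeH' ε hq (hS i) x) t x

theorem degB_cev (hq : q.Prime) (hS : ∀ ℓ : PIdx S, (ℓ.1 : ℕ) ≠ q)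
    (t : MvPolynomial (PIdx S) R) (x : HM M ε A) :
    degB hq.ne_zero (dvd_refl (M * q)) ε A (cev (hop M ε A S) (hop_commute M ε A S) t x) =
      cev (hop (M * q) (infl (dvd_mul_right M q) ε) A S) (hop_commute _ _ A S) t
        (degB hq.ne_zero (dvd_refl (M * q)) ε A x) :=
  cev_natural _ _ _ (fun i x => by
    haveI : Fact (i.1 : ℕ).Prime := ⟨i.1.2⟩
    exact degB_heckeH' ε hq (hS i) x) t x

end Cev

section NewPart

variable {M q : ℕ} (hq : q.Prime) (hM : ¬ q ∣ M) [NeZero q]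

/-- The homomorphisms on `Γ₀(M q)` which are parabolic and killed by both traces. -/
def newPart (A : Type*) [AddCommGroup A] : Submodule ℤ (Additive (Gamma0 (M * q)) →+ A) where
  carrier := {y | IsParabolicHom (Gamma0 (M * q)) y ∧
    (∀ g : Gamma0 M, ∑ x, y (Additive.ofMul ((trCorr hq hM).coc g x)) = 0) ∧
    ∀ g : Gamma0 M, ∑ x, y (Additive.ofMul (wHom hq hM ((trCorr hq hM).coc g x))) = 0}
  zero_mem' := ⟨fun _ _ => rfl, fun _ => Finset.sum_eq_zero fun _ _ => rfl,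
    fun _ => Finset.sum_eq_zero fun _ _ => rfl⟩
  add_mem' := by
    rintro x y ⟨h1, h2, h3⟩ ⟨h4, h5, h6⟩
    refine ⟨fun γ hγ => ?_, fun g => ?_, fun g => ?_⟩
    · rw [AddMonoidHom.add_apply, h1 γ hγ, h4 γ hγ, add_zero]
    · simp only [AddMonoidHom.add_apply, Finset.sum_add_distrib, h2 g, h5 g, add_zero]
    · simp only [AddMonoidHom.add_apply, Finset.sum_add_distrib, h3 g, h6 g, add_zero]
  smul_mem' := by
    rintro n x ⟨h1, h2, h3⟩
    refine ⟨fun γ hγ => ?_, fun g => ?_, fun g => ?_⟩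
    · show n • x _ = 0
      rw [h1 γ hγ, smul_zero]
    · show ∑ y, n • x _ = 0
      rw [← Finset.smul_sum, h2 g, smul_zero]
    · show ∑ y, n • x _ = 0
      rw [← Finset.smul_sum, h3 g, smul_zero]

variable {R : Type} [CommRing R] {A : Type} [AddCommGroup A] [Module R A]

omit [NeZero q] in
theorem infl_eq_one {ε : (ZMod M)ˣ →* Rˣ} (hε : ε = 1) : infl (dvd_mul_right M q) ε = 1 := by
  rw [hε]
  exact MonoidHom.one_comp _

theorem equivHom_trd {ε : (ZMod M)ˣ →* Rˣ} (hε : ε = 1)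
    (x : HM (M * q) (infl (dvd_mul_right M q) ε) A) (g : Gamma0 M) :
    HM.equivHom (A := A) hε (trd hq hM ε A x) (Additive.ofMul g) =
      ∑ i, HM.equivHom (A := A) (infl_eq_one (q := q) hε) x
        (Additive.ofMul ((trCorr hq hM).coc g i)) := by
  induction x using H1.ind with
  | h c =>
  show HM.equivHom (A := A) hε (H1.mk ((trCorr hq hM).Ztr A (tr_isWeight hq hM ε) c)) _ = _
  rw [HM.equivHom_mk, Corr.Ztr_apply]
  refine Finset.sum_congr rfl fun i _ => ?_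
  rw [one_smul, HM.equivHom_mk]

omit [NeZero q] in
theorem equivHom_wq {ε : (ZMod M)ˣ →* Rˣ} (hε : ε = 1)
    (x : HM (M * q) (infl (dvd_mul_right M q) ε) A) (g : Gamma0 (M * q)) :
    HM.equivHom (A := A) (infl_eq_one (q := q) hε) (wq hq hM ε A x) (Additive.ofMul g) =
      HM.equivHom (A := A) (infl_eq_one (q := q) hε) x (Additive.ofMul (wHom hq hM g)) := by
  induction x using H1.ind with
  | h c =>
  show HM.equivHom (A := A) (infl_eq_one (q := q) hε)
    (H1.mk ((wCorr hq hM).Ztr A (w_isWeight hq hM ε (wt ε (unitOf M q))) c)) _ = _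
  rw [HM.equivHom_mk, HM.equivHom_mk, Corr.Ztr_apply, Fintype.sum_unique]
  have h1 : wt ε (unitOf M q) = (1 : R) := by
    rw [hε]
    simp [wt]
  rw [h1, one_smul]
  rfl

theorem equivHom_trB {ε : (ZMod M)ˣ →* Rˣ} (hε : ε = 1)
    (x : HM (M * q) (infl (dvd_mul_right M q) ε) A) (g : Gamma0 M) :
    HM.equivHom (A := A) hε (trB ε A hq hM x) (Additive.ofMul g) =
      ∑ i, HM.equivHom (A := A) (infl_eq_one (q := q) hε) x
        (Additive.ofMul (wHom hq hM ((trCorr hq hM).coc g i))) := by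
  rw [trB_apply, equivHom_trd hq hM hε]
  exact Finset.sum_congr rfl fun i _ => equivHom_wq hq hM hε x _

theorem mem_newPart_iff {ε : (ZMod M)ˣ →* Rˣ} (hε : ε = 1)
    (x : HM (M * q) (infl (dvd_mul_right M q) ε) A) :
    HM.equivHom (A := A) (infl_eq_one (q := q) hε) x ∈ newPart hq hM A ↔
      x ∈ HM.par (M * q) (infl (dvd_mul_right M q) ε) A ∧ trd hq hM ε A x = 0 ∧
        trB ε A hq hM x = 0 := by
  rw [← HM.equivHom_mem_iff (infl_eq_one (q := q) hε)]
  refine and_congr Iff.rfl (and_congr ?_ ?_)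
  · constructor
    · intro h
      apply (HM.equivHom (A := A) hε).injective
      rw [map_zero]
      ext g
      exact (equivHom_trd hq hM hε x g).trans (h g)
    · intro h g
      rw [← equivHom_trd hq hM hε, h, map_zero]
      rfl
  · constructor
    · intro h
      apply (HM.equivHom (A := A) hε).injective
      rw [map_zero]
      ext g
      exact (equivHom_trB hq hM hε x g).trans (h g)
    · intro h g
      rw [← equivHom_trB hq hM hε, h, map_zero]
      rfl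

/-- the two traces of a combination of integral homomorphisms -/
theorem newPart_of_sum {A : Type*} [AddCommGroup A] {n : ℕ} {c : Fin n → A}
    (hc : LinearIndependent ℤ c) {l : Fin n → (Additive (Gamma0 (M * q)) →+ ℤ)}
    (h : ∑ i, scal (c i) (l i) ∈ newPart hq hM A) (i : Fin n) : l i ∈ newPart hq hM ℤ := by
  obtain ⟨h1, h2, h3⟩ := h
  refine ⟨isParabolicHom_of_sum hc h1 i, fun g => ?_, fun g => ?_⟩
  · refine eq_zero_of_sum_smul hc (l := fun i => ∑ x, l i (Additive.ofMul ((trCorr hq hM).coc g x)))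
      ?_ i
    rw [← h2 g]
    simp only [AddMonoidHom.finsetSum_apply, scal_apply, Finset.sum_smul]
    exact Finset.sum_comm
  · refine eq_zero_of_sum_smul hc
      (l := fun i => ∑ x, l i (Additive.ofMul (wHom hq hM ((trCorr hq hM).coc g x)))) ?_ i
    rw [← h3 g]
    simp only [AddMonoidHom.finsetSum_apply, scal_apply, Finset.sum_smul]
    exact Finset.sum_comm

/-- A Hecke polynomial which kills the integral new part kills the new part with torsion-free
coefficients. -/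
theorem parEval_eq_zero_of_newPart [NeZero M] {A : Type*} [AddCommGroup A] [IsAddTorsionFree A]
    {S : Set ℕ} (t : HeckeAlgS S) (h : ∀ y ∈ newPart hq hM ℤ, parEval (M * q) S ℤ t y = 0)
    {y : Additive (Gamma0 (M * q)) →+ A} (hy : y ∈ newPart hq hM A) :
    parEval (M * q) S A t y = 0 := by
  haveI : NeZero (M * q) := ⟨mul_ne_zero (NeZero.ne M) hq.ne_zero⟩
  have := fg_Gamma0 (M * q)
  obtain ⟨n, c, l, hc, rfl⟩ := exists_int_decomp y
  rw [map_sum]
  refine Finset.sum_eq_zero fun i _ => ?_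
  rw [parEval_scal, h _ (newPart_of_sum hq hM hc hy i)]
  ext x
  simp

theorem isNewPart_newPart [Fact q.Prime] (S : Set ℕ) (hqS : q ∉ S) :
    IsNewPart M q S hqS (newPart hq hM ℤ) := by
  set ε : (ZMod M)ˣ →* ℤˣ := 1 with hε
  set E := HM.equivHom (A := ℤ) (infl_eq_one (q := q) hε) with hE
  have key : ∀ x, E x ∈ newPart hq hM ℤ ↔ x ∈ HM.par (M * q) (infl (dvd_mul_right M q) ε) ℤ ∧
    trd hq hM ε ℤ x = 0 ∧ trB ε ℤ hq hM x = 0 := mem_newPart_iff hq hM hε
  have hgen : ∀ ℓ : {ℓ : Nat.Primes // (ℓ : ℕ) ∉ S}, ∀ y ∈ newPart hq hM ℤ,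
      opHom (M * q) S ℤ ℓ y ∈ newPart hq hM ℤ := by
    intro ℓ y hy
    haveI : Fact (ℓ.1 : ℕ).Prime := ⟨ℓ.1.2⟩
    obtain ⟨x, rfl⟩ := E.surjective y
    obtain ⟨h1, h2, h3⟩ := (key x).mp hy
    have h4 : opHom (M * q) S ℤ ℓ (E x) = E (heckeH (M * q) (ℓ.1 : ℕ) _ ℤ x) :=
      (HM.equivHom_heckeH (infl_eq_one (q := q) hε) (ℓ.1 : ℕ) x).symm
    rw [h4, key]
    refine ⟨heckeH_mem_par _ h1, ?_⟩
    by_cases hℓq : (ℓ.1 : ℕ) = q
    · obtain rfl : ℓ = ⟨⟨q, hq⟩, hqS⟩ := Subtype.ext (Subtype.ext hℓq)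
      have h5 := heckeU_eq_neg_wq ε hq hM h3
      refine ⟨?_, ?_⟩
      · refine (congrArg _ h5).trans ?_
        rw [map_neg, ← trB_apply, h3, neg_zero]
      · refine (congrArg _ h5).trans ?_
        rw [map_neg, trB_wq, h2, smul_zero, neg_zero]
    · rw [trd_heckeH ε hq hM hℓq, trB_heckeH ε hq hM hℓq, h2, h3, map_zero]
      exact ⟨rfl, rfl⟩
  refine ⟨fun y hy => hy.1, fun t y hy => ?_, fun y hy => ?_⟩
  · exact commEval_mem (opHom (M * q) S ℤ) (opHom_commute S) (newPart hq hM ℤ).toAddSubgroup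
      hgen t y hy
  · obtain ⟨x, rfl⟩ := E.surjective y
    obtain ⟨h1, h2, h3⟩ := (key x).mp hy
    have hop : ∀ x, opHom (M * q) S ℤ ⟨⟨q, hq⟩, hqS⟩ (E x) = E (heckeH (M * q) q _ ℤ x) :=
      fun x => (HM.equivHom_heckeH (infl_eq_one (q := q) hε) q x).symm
    rw [map_sub, map_pow, map_one, LinearMap.sub_apply, sub_eq_zero, pow_two,
      Module.End.mul_apply, parEval_X, parEval_X]
    have h6 : trB ε ℤ hq hM (heckeH (M * q) q (infl (dvd_mul_right M q) ε) ℤ x) = 0 := by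
      rw [heckeU_eq_neg_wq ε hq hM h3, map_neg, trB_wq, h2, smul_zero, neg_zero]
    rw [hop, hop, heckeU_eq_neg_wq ε hq hM h6, heckeU_eq_neg_wq ε hq hM h3, map_neg, map_neg,
      map_neg, neg_neg, wq_wq]
    have h7 : wt ε (unitOf M q) = (1 : ℤ) := by
      rw [hε]
      simp [wt]
    rw [h7, one_smul]
    rfl

end NewPart

section NoNew

variable {𝒪 : Type} [CommRing 𝒪] [IsLocalRing 𝒪] [IsNoetherianRing 𝒪]
  [IsAdicComplete (maximalIdeal 𝒪) 𝒪] [IsAddTorsionFree 𝒪] {p : ℕ} [hp : Fact p.Prime]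

/-- **No new part.**  If the trace of `ρb(Frob_q)` is not `± (q + 1)`, the kernel of the two traces
on the `𝔪`-part is zero. -/
theorem eq_zero_of_new (h35 : Stmt35) {M q : ℕ} [NeZero M] [hqF : Fact q.Prime] [NeZero q]
    (hq : q.Prime) (hM : ¬ q ∣ M) (hpq : q ≠ p) {S₁ S : Finset ℕ} (hpS : p ∈ S₁) (hqS : q ∉ S₁)
    (hMS : ∀ r : ℕ, r.Prime → r ∣ M → r ∈ S₁) (hS : (↑S₁ : Set ℕ) ⊆ ↑S) (hqS' : q ∈ S)
    (hp𝒪 : (p : 𝒪) ∈ maximalIdeal 𝒪) {ε : (ZMod M)ˣ →* 𝒪ˣ} (hε : ε = 1)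
    {θ : PIdx (↑S : Set ℕ) → ResidueField 𝒪} (ρb : ResidualGaloisRep (ResidueField 𝒪))
    (hρ : ∀ ℓ : PIdx (↑S : Set ℕ), HasFrob ρb (ℓ.1 : ℕ) (θ ℓ))
    (hE : ∃ ℓ : PIdx (↑S : Set ℕ), (((ℓ.1 : ℕ) : ℕ) : ZMod (M * q)) = 1 ∧ Odd (ℓ.1 : ℕ) ∧
      θ ℓ ≠ ((ℓ.1 : ℕ) : ResidueField 𝒪) + 1)
    {a : ResidueField 𝒪} (ha : HasFrob ρb q a) (ha2 : a ^ 2 ≠ ((q : ResidueField 𝒪) + 1) ^ 2)
    {z : HM (M * q) (infl (dvd_mul_right M q) ε) 𝒪}
    (hz : z ∈ Hm (M * q) (infl (dvd_mul_right M q) ε) 𝒪 (↑S : Set ℕ) θ)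
    (h1 : trd hq hM ε 𝒪 z = 0) (h2 : trB ε 𝒪 hq hM z = 0) : z = 0 := by
  classical
  haveI : NeZero (M * q) := ⟨mul_ne_zero (NeZero.ne M) hq.ne_zero⟩
  let k := ResidueField 𝒪
  let K := AlgebraicClosure k
  haveI : CharP k p := (CharP.charP_iff_prime_eq_zero hp.out).mpr (by
    rw [← map_natCast (residue 𝒪)]
    exact (residue_eq_zero_iff _).mpr hp𝒪)
  haveI : CharP K p := charP_of_injective_algebraMap (algebraMap k K).injective p
  let φ : HeckeAlgS (↑S : Set ℕ) →+* K := ((algebraMap k K).comp (evk θ)).comp (toPoly 𝒪)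
  have hφ : ∀ t, φ t = algebraMap k K (evk θ (toPoly 𝒪 t)) := fun t => rfl
  -- a Hecke polynomial which kills the new part
  have hex : ∃ t : HeckeAlgS (↑S : Set ℕ), (∀ y ∈ newPart hq hM ℤ,
      parEval (M * q) (↑S : Set ℕ) ℤ t y = 0) ∧ φ t ≠ 0 := by
    by_contra hcon
    push Not at hcon
    obtain ⟨ρ', hρ', hρq⟩ := exists_residual_of_new (K := K) (p := p) h35
      ((Nat.Prime.coprime_iff_not_dvd hq).mpr hM) hpq S₁ hpS hqS hMS S hS hqS'
      (isNewPart_newPart hq hM (↑S₁ : Set ℕ) hqS) φ hcon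
    have hρK : ∀ ℓ : ℕ, ∀ b : k, HasFrob ρb ℓ b →
        HasFrob (ρb.baseChangeAlong (algebraMap k K)) ℓ (algebraMap k K b) := by
      intro ℓ b hb A hA σ hσ
      rw [S29aux.charpoly_baseChangeAlong, hb A hA σ hσ]
      simp only [Polynomial.map_add, Polynomial.map_sub, Polynomial.map_mul, Polynomial.map_pow,
        Polynomial.map_X, Polynomial.map_C, map_natCast, Polynomial.map_natCast]
      rfl
    let b : ℕ → K := fun r => if h : r.Prime ∧ r ∉ (↑S : Set ℕ) then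
      algebraMap k K (θ ⟨⟨r, h.1⟩, h.2⟩) else 0
    have hb : ∀ r (hr : r.Prime) (hrS : r ∉ (↑S : Set ℕ)),
        b r = algebraMap k K (θ ⟨⟨r, hr⟩, hrS⟩) := by
      intro r hr hrS
      simp only [b]
      rw [dif_pos ⟨hr, hrS⟩]
    have hfrob : HasFrob ρ' q (algebraMap k K a) := by
      refine HasFrob.congr (ρ := ρb.baseChangeAlong (algebraMap k K)) (↑S : Set ℕ)
        S.finite_toSet b ?_ ?_ (hρK q a ha)
      · intro r hr hrS
        rw [hb r hr hrS]
        exact hρK r _ (hρ ⟨⟨r, hr⟩, hrS⟩)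
      · intro r hr hrS
        rw [hb r hr hrS]
        have h3 := hρ' ⟨⟨r, hr⟩, hrS⟩
        rw [hφ, toPoly_X, evk_X] at h3
        exact h3
    obtain ⟨A, hA, hσ⟩ := FrobDensity.exists_frob_place hq
    have h4 := hfrob A hA _ hσ
    have h5 : (algebraMap k K a) ^ 2 = ((q : K) + 1) ^ 2 := by
      rcases hρq A hA _ hσ with h | h
      · have h6 := congrArg (fun f : K[X] => f.coeff 1) (h4.symm.trans h)
        simp only [charpoly_coeff_one] at h6
        rw [neg_injective h6]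
      · have h7 : (X ^ 2 + C ((q : K) + 1) * X + C ((q : K)) : K[X]) =
          X ^ 2 - C (-((q : K) + 1)) * X + C ((q : K)) := by
          rw [C_neg]; ring
        rw [h7] at h
        have h6 := congrArg (fun f : K[X] => f.coeff 1) (h4.symm.trans h)
        simp only [charpoly_coeff_one] at h6
        rw [neg_injective h6]
        ring
    apply ha2
    apply (algebraMap k K).injective
    rw [map_pow, h5, map_pow, map_add, map_natCast, map_one]
  obtain ⟨t, ht, hφt⟩ := hex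
  obtain ⟨ℓ, hℓM, hodd, hℓ⟩ := hE
  have hℓp : (ℓ.1 : ℕ) ≠ p := fun h => ℓ.2 (h ▸ hS hpS)
  have hu : IsUnit (((ℓ.1 : ℕ) : ℕ) : 𝒪) := isUnit_natCast_of_ne hp.out hp𝒪 ℓ.1.2 hℓp
  obtain ⟨e, he⟩ := exists_isIdem_Hm (M := M * q) (S := (↑S : Set ℕ)) 𝒪
    (infl (dvd_mul_right M q) ε) θ
  refine he.eq_zero hz (s := toPoly 𝒪 t * toPoly 𝒪 (eisPoly ℓ)) ?_ ?_
  · rw [map_mul]
    refine mul_ne_zero (fun h => hφt ?_) ?_
    · rw [hφ, h, map_zero]
    · rw [eisPoly, map_sub, toPoly_X, toPoly_C, map_sub, evk_X, evk_C, sub_ne_zero]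
      push_cast
      rw [map_add, map_natCast, map_one]
      exact hℓ
  · rw [map_mul, Module.End.mul_apply]
    apply (HM.equivHom (A := 𝒪) (infl_eq_one (q := q) hε)).injective
    rw [equivHom_cev, map_zero]
    refine parEval_eq_zero_of_newPart hq hM t ht ?_
    rw [mem_newPart_iff hq hM hε]
    have hne : ∀ i : PIdx (↑S : Set ℕ), (i.1 : ℕ) ≠ q := fun i h => i.2 (h ▸ hqS')
    refine ⟨cev_eisPoly_mem_par hℓM hodd hu z, ?_, ?_⟩
    · rw [trd_cev ε hq hM hne, h1, map_zero]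
    · rw [trB_cev ε hq hM hne, h2, map_zero]

end NoNew

end Fermat.Agent.RTE

end
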