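import Fermat.Agent.RTE.NewPart
import Fermat.Agent.Frob.Charpoly
import Fermat.Agent.Frob.Cheb1

/-!
# Residual Galois representations of eigensystems in the parabolic cohomology modulo `p`
-/

set_option autoImplicit false
set_option linter.style.haveILetI false

noncomputable section

open CongruenceSubgroup ModularCurve ModularCurve.Period Polynomial IsLocalRing

namespace Fermat.Agent.RTE

open Fermat.Agent.HeckePar Fermat.Agent.GalRep Fermat.Agent.S41dual Fermat.Agent.Cofaith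

variable {K : Type} [Field K]

/-- The Frobenius elements at `ℓ` have characteristic polynomial `X² - a X + ℓ`. -/
def HasFrob (ρ : ResidualGaloisRep K) (ℓ : ℕ) (a : K) : Prop :=
  ∀ A : ValuationSubring (AlgebraicClosure ℚ), A.LiesOverPrime ℓ →
    ∀ σ : AlgebraicClosure ℚ ≃ₐ[ℚ] AlgebraicClosure ℚ, A.IsFrobeniusAt σ ℓ →
      LinearMap.charpoly (ρ.ρ σ) = X ^ 2 - C a * X + C ((ℓ : ℕ) : K)

theorem charpoly_coeff_one (a b : K) : (X ^ 2 - C a * X + C b : K[X]).coeff 1 = -a := by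
  rw [coeff_add, coeff_sub, coeff_X_pow, coeff_C_mul, coeff_X_one, coeff_C]
  simp

theorem HasFrob.unique {ρ : ResidualGaloisRep K} {ℓ : ℕ} (hℓ : ℓ.Prime) {a b : K}
    (ha : HasFrob ρ ℓ a) (hb : HasFrob ρ ℓ b) : a = b := by
  obtain ⟨A, hA, hσ⟩ := FrobDensity.exists_frob_place hℓ
  have h1 := (ha A hA _ hσ).symm.trans (hb A hA _ hσ)
  have h2 := congrArg (fun f : K[X] => f.coeff 1) h1
  simp only [charpoly_coeff_one] at h2
  exact neg_injective h2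

/-- Two residual representations which agree at almost all Frobenius elements. -/
theorem HasFrob.congr {ρ ρ' : ResidualGaloisRep K} (S : Set ℕ) (hS : S.Finite) (a : ℕ → K)
    (h : ∀ ℓ : ℕ, ℓ.Prime → ℓ ∉ S → HasFrob ρ ℓ (a ℓ))
    (h' : ∀ ℓ : ℕ, ℓ.Prime → ℓ ∉ S → HasFrob ρ' ℓ (a ℓ)) {ℓ : ℕ} {b : K}
    (hb : HasFrob ρ ℓ b) : HasFrob ρ' ℓ b := by
  intro A hA σ hσ
  rw [← hb A hA σ hσ]
  exact FrobDensity.residualGaloisRep_charpoly_eq ρ' ρ S hS (fun ℓ hℓ hℓS A hA σ hσ =>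
    (h' ℓ hℓ hℓS A hA σ hσ).trans (h ℓ hℓ hℓS A hA σ hσ).symm) σ

/-- inclusion of Hecke polynomials -/
def incl {S S' : Set ℕ} (h : S ⊆ S') : HeckeAlgS S' →ₐ[ℤ] HeckeAlgS S :=
  MvPolynomial.rename fun ℓ => ⟨ℓ.1, fun hℓ => ℓ.2 (h hℓ)⟩

@[simp] theorem incl_X {S S' : Set ℕ} (h : S ⊆ S') (ℓ : {ℓ : Nat.Primes // (ℓ : ℕ) ∉ S'}) :
    incl h (MvPolynomial.X ℓ) = MvPolynomial.X ⟨ℓ.1, fun hℓ => ℓ.2 (h hℓ)⟩ :=
  MvPolynomial.rename_X _ _

theorem parEval_incl (N : ℕ) {S S' : Set ℕ} (h : S ⊆ S') (A : Type*) [AddCommGroup A]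
    (t : HeckeAlgS S') (y : Additive (Gamma0 N) →+ A) :
    parEval N S A (incl h t) y = parEval N S' A t y := by
  induction t using MvPolynomial.induction_on generalizing y with
  | C a =>
    rw [← MvPolynomial.algebraMap_eq, AlgHom.commutes, AlgHom.commutes, AlgHom.commutes]
  | add p q hp hq => rw [map_add, map_add, map_add, LinearMap.add_apply, LinearMap.add_apply,
      hp, hq]
  | mul_X p i hp =>
    rw [map_mul, map_mul, map_mul, Module.End.mul_apply, Module.End.mul_apply, incl_X, parEval_X,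
      parEval_X, hp]
    rfl

/-- The parabolic homomorphisms as a submodule over `ℤ`. -/
abbrev parZ (N : ℕ) : Submodule ℤ (Additive (Gamma0 N) →+ ℤ) := parabolicHoms ℤ (Gamma0 N) ℤ

instance isAddTorsionFree_hom (N : ℕ) {A : Type*} [AddCommGroup A] [IsAddTorsionFree A] :
    IsAddTorsionFree (Additive (Gamma0 N) →+ A) :=
  Function.Injective.isAddTorsionFree (AddMonoidHom.coeFn _ _) DFunLike.coe_injective

variable [IsAlgClosed K] {p : ℕ} [hp : Fact p.Prime] [CharP K p]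

/-- **Residual representations.** Every residual eigensystem which occurs in the parabolic
cohomology of `Γ₀(M)` has a Galois representation. -/
theorem exists_residual_of_occurs (h30 : S29aux.S30Statement) {M : ℕ} [NeZero M] (S : Finset ℕ)
    (hpS : p ∈ S) (hMS : ∀ r : ℕ, r.Prime → r ∣ M → r ∈ S)
    (φ : HeckeAlgS (↑S : Set ℕ) →+* K)
    (hφ : ∀ t, (∀ y ∈ parZ M, parEval M (↑S : Set ℕ) ℤ t y = 0) → φ t = 0) :
    ∃ ρ : ResidualGaloisRep K,
      (∀ ℓ : {ℓ : Nat.Primes // (ℓ : ℕ) ∉ (↑S : Set ℕ)},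
        HasFrob ρ (ℓ.1 : ℕ) (φ (MvPolynomial.X ℓ))) ∧
      ∀ q : ℕ, q.Prime → ¬ q ∣ M → q ≠ p → ρ.IsUnramifiedAt q := by
  classical
  obtain ⟨χ, O, i1, i2, i3, i4, i5, i6, r, ι, h1, h2, h3⟩ :=
    exists_char_lift' (RingHom.id (HeckeAlgS (↑S : Set ℕ)))
      (parEval M (↑S : Set ℕ) ℤ : HeckeAlgS (↑S : Set ℕ) →+* _) (parZ M)
      (fun t v hv => isParabolicHom_parEval t hv) hp.out φ hφ
  -- the character of the Hecke algebra
  let χ' : CuspForm.heckeAlgebra M 2 (↑S : Set ℕ) →+* O :=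
    RingHom.liftOfSurjective (evS M (↑S : Set ℕ) : HeckeAlgS (↑S : Set ℕ) →+* _)
      (S35aux.evS_surjective M _) ⟨r.comp χ.rangeRestrict, fun t ht => by
        have h4 : χ t = 0 := h1 t fun y hy => parEval_eq_zero (N := M) _ t ht hy
        have h5 : χ.rangeRestrict t = 0 := Subtype.ext h4
        show r (χ.rangeRestrict t) = 0
        rw [h5, map_zero]⟩
  have hχ' : ∀ t, χ' (evS M _ t) = r (χ.rangeRestrict t) := fun t =>
    RingHom.liftOfRightInverse_comp_apply _ _ _ _ t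
  obtain ⟨O'', j1, j2, j3, j4, j5, j6, j7, j8, j9, hinj, ρ, hchar, hunr⟩ :=
    h30 p M S hpS hMS O h2 χ'
  obtain ⟨ι'', hι''⟩ := S29aux.exists_residueField_hom (O'' := O'') ι
  refine ⟨ρ.residual.baseChangeAlong ι'', ?_, fun q hq hqM hqp =>
    S29aux.isUnramifiedAt_baseChangeAlong _ _ (S29aux.isUnramifiedAt_residual _
      (hunr q hq hqM hqp))⟩
  intro ℓ A hA σ hσ
  have hℓM : ¬ (ℓ.1 : ℕ) ∣ M := fun h => ℓ.2 (hMS _ ℓ.1.2 h)
  rw [S29aux.charpoly_baseChangeAlong, S29aux.charpoly_residual, hchar ℓ.1 ℓ.1.2 hℓM ℓ.2 A hA σ hσ,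
    ← evS_X_of_not_dvd M _ ℓ hℓM, hχ']
  simp only [Polynomial.map_add, Polynomial.map_sub, Polynomial.map_mul, Polynomial.map_pow,
    Polynomial.map_X, Polynomial.map_C, map_natCast, Polynomial.map_natCast]
  rw [hι'']
  have h4 := h3 (MvPolynomial.X ℓ)
  rw [RingHom.id_apply] at h4
  rw [h4]

/-- **Residual representations of the new part.** -/
theorem exists_residual_of_new (h35 : Stmt35) {M q : ℕ} [NeZero M] [hq : Fact q.Prime]
    (hc : Nat.Coprime q M) (hpq : q ≠ p) (S₁ : Finset ℕ) (hpS : p ∈ S₁)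
    (hqS : q ∉ S₁) (hMS : ∀ r : ℕ, r.Prime → r ∣ M → r ∈ S₁) (S : Finset ℕ)
    (hS : (↑S₁ : Set ℕ) ⊆ ↑S) (hqS' : q ∈ S)
    {V : Submodule ℤ (Additive (Gamma0 (M * q)) →+ ℤ)} (hV : IsNewPart M q (↑S₁ : Set ℕ) hqS V)
    (φ : HeckeAlgS (↑S : Set ℕ) →+* K)
    (hφ : ∀ t, (∀ y ∈ V, parEval (M * q) (↑S : Set ℕ) ℤ t y = 0) → φ t = 0) :
    ∃ ρ : ResidualGaloisRep K,
      (∀ ℓ : {ℓ : Nat.Primes // (ℓ : ℕ) ∉ (↑S : Set ℕ)},
        HasFrob ρ (ℓ.1 : ℕ) (φ (MvPolynomial.X ℓ))) ∧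
      (∀ A : ValuationSubring (AlgebraicClosure ℚ), A.LiesOverPrime q →
        ∀ σ : AlgebraicClosure ℚ ≃ₐ[ℚ] AlgebraicClosure ℚ, A.IsFrobeniusAt σ q →
          LinearMap.charpoly (ρ.ρ σ) = X ^ 2 - C ((q : K) + 1) * X + C ((q : K)) ∨
          LinearMap.charpoly (ρ.ρ σ) = X ^ 2 + C ((q : K) + 1) * X + C ((q : K))) := by
  classical
  obtain ⟨χ, O, i1, i2, i3, i4, i5, i6, r, ι, h1, h2, h3⟩ :=
    exists_char_lift' (incl hS : HeckeAlgS (↑S : Set ℕ) →+* HeckeAlgS (↑S₁ : Set ℕ))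
      (parEval (M * q) (↑S₁ : Set ℕ) ℤ : HeckeAlgS (↑S₁ : Set ℕ) →+* _) V
      (fun t v hv => hV.stable t v hv) hp.out φ (fun t ht => hφ t fun y hy => by
        rw [← parEval_incl _ hS]
        exact ht y hy)
  obtain ⟨F, hF, hFa, hFq⟩ := exists_eigenform_of_new (↑S₁ : Set ℕ) hqS hV χ h1
  obtain ⟨O'', j1, j2, j3, j4, j5, j6, j7, j8, j9, hinj, ρ, hchar, hcharq⟩ :=
    exists_rep_of_eigenform h35 hc p hpq S₁ hpS hqS hMS χ F hF hFa hFq O h2 r
  obtain ⟨ι'', hι''⟩ := S29aux.exists_residueField_hom (O'' := O'') ι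
  refine ⟨ρ.residual.baseChangeAlong ι'', ?_, ?_⟩
  · intro ℓ A hA σ hσ
    have hℓS : (ℓ.1 : ℕ) ∉ (↑S₁ : Set ℕ) := fun h => ℓ.2 (hS h)
    have hℓq : (ℓ.1 : ℕ) ≠ q := fun h => ℓ.2 (h ▸ hqS')
    rw [S29aux.charpoly_baseChangeAlong, S29aux.charpoly_residual,
      hchar ⟨ℓ.1, hℓS⟩ hℓq A hA σ hσ]
    simp only [Polynomial.map_add, Polynomial.map_sub, Polynomial.map_mul, Polynomial.map_pow,
      Polynomial.map_X, Polynomial.map_C, map_natCast, Polynomial.map_natCast]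
    rw [hι'']
    have h4 := h3 (MvPolynomial.X ℓ)
    have h5 : (incl hS : HeckeAlgS (↑S : Set ℕ) →+* HeckeAlgS (↑S₁ : Set ℕ)) (MvPolynomial.X ℓ) =
      MvPolynomial.X ⟨ℓ.1, hℓS⟩ := incl_X hS ℓ
    rw [h5] at h4
    rw [h4]
  · intro A hA σ hσ
    rw [S29aux.charpoly_baseChangeAlong, S29aux.charpoly_residual]
    rcases hcharq A hA σ hσ with h | h
    · left
      rw [h]
      simp
    · right
      rw [h]
      simp

end Fermat.Agent.RTE

end
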