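import Fermat.Agent.Oldforms.Vq
import Fermat.Agent.Oldforms.Trace

/-!
# Cusp forms on `Γ₀(N)` whose expansion is supported on multiples of a prime `q`
-/

set_option autoImplicit false

noncomputable section

open CongruenceSubgroup ModularFormClass FermatAgent.HeckeEigen Matrix.SpecialLinearGroup
open Fermat.Agent.HeckePar Fermat.Agent.Oldforms
open scoped MatrixGroups ModularForm

namespace Fermat.Agent.RTE

variable {N M q : ℕ} {k : ℤ}

/-- cancel a slash operator -/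
theorem slash_cancel (g : GL (Fin 2) ℝ) {f f' : UpperHalfPlane → ℂ} (h : f ∣[k] g = f' ∣[k] g) :
    f = f' := by
  have h1 := congrArg (fun F : UpperHalfPlane → ℂ => F ∣[k] g⁻¹) h
  simp only [← SlashAction.slash_mul, mul_inv_cancel, SlashAction.slash_one] at h1
  exact h1

theorem slash_Gamma0 (f : CuspForm (Gamma0 N) k) {g : SL(2, ℤ)} (hg : g ∈ Gamma0 N) :
    (⇑f : UpperHalfPlane → ℂ) ∣[k] (mapGL ℝ g : GL (Fin 2) ℝ) = ⇑f :=
  SlashInvariantFormClass.slash_action_eq f (mapGL ℝ g)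
    (show mapGL ℝ g ∈ (Gamma0 N : Subgroup (GL (Fin 2) ℝ)) from Subgroup.mem_map_of_mem _ hg)

theorem exists_T_mul_T (hq : q.Prime) (g : SL(2, ℤ)) :
    ∃ i j : ℤ, (q : ℤ) ∣ (ModularGroup.T ^ i * g * ModularGroup.T ^ j : SL(2, ℤ)) 0 1 := by
  have hd := det_SL g
  have hqp : Prime (q : ℤ) := Nat.prime_iff_prime_int.mp hq
  have key : ∀ a b : ℤ, ¬ (q : ℤ) ∣ a → ∃ j : ℤ, (q : ℤ) ∣ b + a * j := by
    intro a b ha
    have hcop : IsCoprime a (q : ℤ) := (hqp.coprime_iff_not_dvd.mpr ha).symm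
    obtain ⟨u, v, huv⟩ := hcop
    exact ⟨-(u * b), v * b, by linear_combination (-b) * huv⟩
  have hform : ∀ i j : ℤ, (ModularGroup.T ^ i * g * ModularGroup.T ^ j : SL(2, ℤ)) 0 1 =
      (g 0 1 + i * g 1 1) + (g 0 0 + i * g 1 0) * j := by
    intro i j
    rw [Matrix.SpecialLinearGroup.coe_mul, Matrix.SpecialLinearGroup.coe_mul,
      ModularGroup.coe_T_zpow, ModularGroup.coe_T_zpow]
    simp only [Matrix.mul_apply, Fin.sum_univ_two, Matrix.of_apply, Matrix.cons_val',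
      Matrix.cons_val_zero, Matrix.cons_val_one, Matrix.cons_val_fin_one]
    ring
  by_cases ha : (q : ℤ) ∣ g 0 0
  · have hc : ¬ (q : ℤ) ∣ g 1 0 := by
      intro hc
      have h1 : (q : ℤ) ∣ 1 := by
        rw [← hd]
        exact dvd_sub (dvd_mul_of_dvd_left ha _) (dvd_mul_of_dvd_right hc _)
      exact hqp.not_dvd_one h1
    have hac : ¬ (q : ℤ) ∣ g 0 0 + 1 * g 1 0 := by
      intro h
      rw [one_mul] at h
      exact hc ((dvd_add_right ha).mp h)
    obtain ⟨j, hj⟩ := key _ (g 0 1 + 1 * g 1 1) hac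
    exact ⟨1, j, by rw [hform]; exact hj⟩
  · have ha' : ¬ (q : ℤ) ∣ g 0 0 + 0 * g 1 0 := by rwa [zero_mul, add_zero]
    obtain ⟨j, hj⟩ := key _ (g 0 1 + 0 * g 1 1) ha'
    exact ⟨0, j, by rw [hform]; exact hj⟩

theorem T_zpow_mem (N : ℕ) (i : ℤ) : ModularGroup.T ^ i ∈ Gamma0 N := by
  rw [Gamma0_mem, ModularGroup.coe_T_zpow]
  simp

theorem mul_diag_eq (hq : q ≠ 0) (hN : N = q * M) (g : SL(2, ℤ)) (hg : g ∈ Gamma0 M)
    (hb : (q : ℤ) ∣ g 0 1) :
    ∃ δ ∈ Gamma0 N, mapGL ℝ g * ModularForm.heckeDiagMatrix q =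
      ModularForm.heckeDiagMatrix q * mapGL ℝ δ := by
  obtain ⟨c, hc⟩ : (M : ℤ) ∣ g 1 0 :=
    (ZMod.intCast_zmod_eq_zero_iff_dvd _ _).mp (Gamma0_mem.mp hg)
  obtain ⟨b, hb⟩ := hb
  have hd := det_SL g
  have hNz : (N : ℤ) = q * M := by rw [hN]; push_cast; rfl
  set a := g 0 0 with ha
  set d := g 1 1 with hd'
  rw [hc, hb] at hd
  have hgm : (g : Matrix (Fin 2) (Fin 2) ℤ) = !![a, q * b; (M : ℤ) * c, d] := by
    ext i j
    fin_cases i <;> fin_cases j <;> simp [ha, hb, hc, hd']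
  refine ⟨⟨!![a, b; (N : ℤ) * c, d], ?_⟩, ?_, ?_⟩
  · rw [Matrix.det_fin_two_of, hNz]
    linear_combination hd
  · exact Gamma0_mem.mpr ((ZMod.intCast_zmod_eq_zero_iff_dvd _ _).mpr ⟨c, rfl⟩)
  · refine ALData.GL_eq_of_int (val_mapGL g) (val_hrep hq none) (val_hrep hq none) (val_mapGL _) ?_
    rw [hgm]
    ext i j
    fin_cases i <;> fin_cases j <;>
      simp [Matrix.mul_apply, Fin.sum_univ_two] <;> try rw [hNz]
    · ring
    · ring

/-- **Easy main lemma**: a cusp form of level `N = q M` supported on multiples of `q` is of the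
form `V_q u` with `u` of level `M`. -/
theorem exists_of_support [NeZero N] [NeZero M] (hq : q.Prime) (hN : N = q * M)
    (h : CuspForm (Gamma0 N) k) (hsupp : ∀ n, ¬ q ∣ n → qCoeff ⇑h n = 0) :
    ∃ u : CuspForm (Gamma0 M) k, (∀ n, qCoeff ⇑u n = qCoeff ⇑h (q * n)) ∧
      V k hq.ne_zero hN u = h := by
  have hqN : q ∣ N := ⟨M, hN⟩
  have hqC : (q : ℂ) ≠ 0 := by exact_mod_cast hq.ne_zero
  set u0 : CuspForm (Gamma0 N) k := heckeOp N k ⟨q, hq⟩ h with hu0
  have hc0 : ∀ n, qCoeff ⇑u0 n = qCoeff ⇑h (q * n) := by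
    intro n
    rw [hu0, qCoeff_heckeOp]
    simp only [if_pos hqN, add_zero]
  have : NeZero (q * N) := ⟨mul_ne_zero hq.ne_zero (NeZero.ne N)⟩
  have hdiag : (⇑u0 : UpperHalfPlane → ℂ) ∣[k] ModularForm.heckeDiagMatrix q =
      ((q : ℂ) ^ (k - 1)) • (⇑h : UpperHalfPlane → ℂ) := by
    have h1 : Vraw k hq.ne_zero (rfl : q * N = q * N) u0 =
        ((q : ℂ) ^ (k - 1)) • restr (q * N) (dvd_mul_left N q) k h := by
      apply eq_of_qCoeff_eq
      intro n
      rw [qCoeff_Vraw, qCoeff_smul, coe_restr]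
      split_ifs with hn
      · obtain ⟨m, rfl⟩ := hn
        rw [Nat.mul_div_cancel_left _ hq.pos, hc0]
      · rw [hsupp n hn, mul_zero]
    have h2 := congrArg (fun F : CuspForm (Gamma0 (q * N)) k => (⇑F : UpperHalfPlane → ℂ)) h1
    simpa using h2
  have hinv1 : ∀ g ∈ Gamma0 M, (q : ℤ) ∣ g 0 1 →
      (⇑u0 : UpperHalfPlane → ℂ) ∣[k] (mapGL ℝ g : GL (Fin 2) ℝ) = ⇑u0 := by
    intro g hg hb
    obtain ⟨δ, hδ, hgδ⟩ := mul_diag_eq hq.ne_zero hN g hg hb
    apply slash_cancel (k := k) (ModularForm.heckeDiagMatrix q)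
    rw [← SlashAction.slash_mul]
    erw [hgδ]
    rw [SlashAction.slash_mul, hdiag]
    have h3 := slash_Gamma0 (((q : ℂ) ^ (k - 1)) • h) hδ
    exact h3
  have hinv : ∀ γ ∈ (Gamma0 M : Subgroup (GL (Fin 2) ℝ)),
      (⇑u0 : UpperHalfPlane → ℂ) ∣[k] γ = ⇑u0 := by
    rintro γ ⟨g, hg, rfl⟩
    obtain ⟨i, j, hij⟩ := exists_T_mul_T hq g
    have h4 := hinv1 _ (mul_mem (mul_mem (T_zpow_mem M i) hg) (T_zpow_mem M j)) hij
    rw [map_mul, map_mul, SlashAction.slash_mul, SlashAction.slash_mul,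
      slash_Gamma0 u0 (T_zpow_mem N i)] at h4
    apply slash_cancel (k := k) (mapGL ℝ (ModularGroup.T ^ j) : GL (Fin 2) ℝ)
    rw [slash_Gamma0 u0 (T_zpow_mem N j)]
    exact h4
  refine ⟨ofInvariant M u0 hinv, fun n => ?_, ?_⟩
  · rw [coe_ofInvariant, hc0]
  · apply eq_of_qCoeff_eq
    intro n
    rw [qCoeff_V, coe_ofInvariant, hc0]
    split_ifs with hn
    · rw [Nat.mul_div_cancel' hn]
    · rw [hsupp n hn]

/-- A weight two cusp form of level `M` prime to `q`, supported on multiples of `q`, vanishes. -/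
theorem eq_zero_of_support [NeZero M] (hq : q.Prime) (hqM : ¬ q ∣ M)
    (h : CuspForm (Gamma0 M) 2) (hsupp : ∀ n, ¬ q ∣ n → qCoeff ⇑h n = 0) : h = 0 := by
  have hqC : (q : ℂ) ≠ 0 := by exact_mod_cast hq.ne_zero
  have : NeZero (q * M) := ⟨mul_ne_zero hq.ne_zero (NeZero.ne M)⟩
  have : NeZero (q * (q * M)) := ⟨mul_ne_zero hq.ne_zero (NeZero.ne (q * M))⟩
  obtain ⟨D⟩ := exists_ALData hq (rfl : q * M = q * M) hqM
  obtain ⟨u, hu, hVu⟩ := exists_of_support hq (rfl : q * M = q * M)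
    (restr (q * M) (dvd_mul_left M q) 2 h) (by
      intro n hn
      rw [coe_restr]
      exact hsupp n hn)
  -- `u | diag(q,1) = q • h` as functions
  have hdiag : (⇑u : UpperHalfPlane → ℂ) ∣[(2 : ℤ)] ModularForm.heckeDiagMatrix q =
      (q : ℂ) • (⇑h : UpperHalfPlane → ℂ) := by
    have h1 : Vraw 2 hq.ne_zero (rfl : q * M = q * M) u =
        (q : ℂ) • restr (q * M) (dvd_mul_left M q) 2 h := by
      rw [← hVu, V, LinearMap.smul_apply, smul_smul]
      have : (q : ℂ) * ((q : ℂ) ^ ((2 : ℤ) - 1))⁻¹ = 1 := by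
        rw [show ((2 : ℤ) - 1) = 1 by norm_num, zpow_one, mul_inv_cancel₀ hqC]
      rw [this, one_smul]
    have h2 := congrArg (fun F : CuspForm (Gamma0 (q * M)) 2 => (⇑F : UpperHalfPlane → ℂ)) h1
    simpa using h2
  set α : GL (Fin 2) ℝ := ModularForm.heckeDiagMatrix q with hα
  set β' : SL(2, ℤ) := ⟨!![q * D.x, D.y; (M : ℤ), 1], by
    rw [Matrix.det_fin_two_of]; linear_combination D.h⟩ with hβ'
  have hβ'M : β' ∈ Gamma0 M := by
    rw [Gamma0_mem, hβ']
    simp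
  have hβM : D.beta ∈ Gamma0 M := by
    rw [Gamma0_mem, ALData.beta]
    simp
  -- the relation `scal q * α * β' = α * α * β * α`
  have hrel : scal q hq.ne_zero * (α * mapGL ℝ β') = α * α * (mapGL ℝ D.beta * α) := by
    have e1 : ((α * mapGL ℝ β' : GL (Fin 2) ℝ) : Matrix (Fin 2) (Fin 2) ℝ) =
        (intRep q none * (β' : Matrix (Fin 2) (Fin 2) ℤ)).map (Int.cast) := by
      rw [Units.val_mul, hα, map_intCast_mul, val_mapGL]
      congr 1
      exact val_hrep hq.ne_zero none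
    have e2 : ((α * α : GL (Fin 2) ℝ) : Matrix (Fin 2) (Fin 2) ℝ) =
        (intRep q none * intRep q none).map (Int.cast) := by
      rw [Units.val_mul, map_intCast_mul]
      congr 1 <;> exact val_hrep hq.ne_zero none
    have e3 : ((mapGL ℝ D.beta * α : GL (Fin 2) ℝ) : Matrix (Fin 2) (Fin 2) ℝ) =
        ((D.beta : Matrix (Fin 2) (Fin 2) ℤ) * intRep q none).map (Int.cast) := by
      rw [Units.val_mul, map_intCast_mul, val_mapGL]
      congr 1
      exact val_hrep hq.ne_zero none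
    refine ALData.GL_eq_of_int (val_scal hq.ne_zero) e1 e2 e3 ?_
    ext i j
    fin_cases i <;> fin_cases j <;>
      simp [hβ', ALData.beta, Matrix.mul_apply, Fin.sum_univ_two] <;> ring
  have hkey : (⇑u : UpperHalfPlane → ℂ) = (⇑u : UpperHalfPlane → ℂ) ∣[(2 : ℤ)] (α * α) := by
    have e1 : (⇑u : UpperHalfPlane → ℂ) ∣[(2 : ℤ)] (scal q hq.ne_zero * (α * mapGL ℝ β')) =
        (⇑u : UpperHalfPlane → ℂ) ∣[(2 : ℤ)] α := by
      rw [SlashAction.slash_mul, slash_scal, SlashAction.slash_mul, hdiag]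
      exact slash_Gamma0 ((q : ℂ) • h) hβ'M
    rw [hrel, SlashAction.slash_mul, SlashAction.slash_mul] at e1
    have e2 := slash_cancel (k := 2) α e1
    apply slash_cancel (k := 2) (mapGL ℝ D.beta : GL (Fin 2) ℝ)
    rw [slash_Gamma0 u hβM]
    exact e2.symm
  have hcoef : ∀ n, qCoeff ⇑u n = if q ∣ n then (if q ∣ n / q then
      (q : ℂ) * ((q : ℂ) * qCoeff ⇑u (n / q / q)) else 0) else 0 := by
    intro n
    have h1 := qCoeff_Vraw 2 hq.ne_zero (rfl : q * (q * M) = q * (q * M))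
      (Vraw 2 hq.ne_zero (rfl : q * M = q * M) u) n
    have h2 : (⇑(Vraw 2 hq.ne_zero (rfl : q * (q * M) = q * (q * M))
      (Vraw 2 hq.ne_zero (rfl : q * M = q * M) u)) : UpperHalfPlane → ℂ) = ⇑u := by
      rw [coe_Vraw, coe_Vraw, ← SlashAction.slash_mul]
      exact hkey.symm
    rw [h2] at h1
    rw [h1, qCoeff_Vraw]
    have h3 : (q : ℂ) ^ ((2 : ℤ) - 1) = q := by
      rw [show ((2 : ℤ) - 1) = 1 by norm_num, zpow_one]
    rw [h3]
    split_ifs <;> simp
  have hu0 : ∀ n, qCoeff ⇑u n = 0 := by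
    intro n
    induction n using Nat.strong_induction_on with
    | _ n ih =>
      rcases Nat.eq_zero_or_pos n with rfl | hn
      · exact qCoeff_at_zero u
      · rw [hcoef]
        split_ifs with h1 h2
        · have hlt : n / q / q < n :=
            (Nat.div_le_self _ _).trans_lt (Nat.div_lt_self hn hq.one_lt)
          rw [ih _ hlt, mul_zero, mul_zero]
        · rfl
        · rfl
  apply eq_zero_of_qCoeff_eq_zero
  intro n
  by_cases hn : q ∣ n
  · obtain ⟨m, rfl⟩ := hn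
    have := hu m
    rw [coe_restr] at this
    rw [← this, hu0]
  · exact hsupp n hn

end Fermat.Agent.RTE

end
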